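import Fermat.Agent.TriComp.Filt
import Fermat.Agent.S36.NormsDV

/-!
# Three-component reduction data (`X₀(q²m)` at `q ∤ m`)

`K` is a discretely valued field with uniformizer `q`, `F` the function field of level `q²m` over
`K`, `F'` the function field of level `m` over the residue field `k`, `v 0, v 1, v 2` the three
extensions of the Gauss valuation of `K(j)`, `O` their intersection and `E = O / q O`.

Conventions: `ord_{v 1} q = q - 1`, `red_1` = reduction of the expansion `e₁`,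
`red_2 = red_0 ∘ w_{q²}`.
-/

set_option autoImplicit false

open Module Polynomial
open scoped IntermediateField

namespace Fermat.Agent.TriComp

open Fermat.Agent.TwoComp Fermat.Agent.S36norm

/-- Three-component reduction data. -/
structure Data (K F k E F' : Type*) [Field K] [Field F] [Algebra K F] [Field k] [CommRing E]
    [Algebra k E] [Field F'] [Algebra k F'] (q : ℕ) where
  /-- `A`, `res`, `O`, `ρ : O → E` -/
  R : RedRing K F k E
  ρ_surj : Function.Surjective R.ρ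
  q_two_le : 2 ≤ q
  q_ne_zero : (q : K) ≠ 0
  /-- `q` is a uniformizer of `A` -/
  mem_nonunits_iff : ∀ a : K, a ∈ R.A.nonunits ↔ a / (q : K) ∈ R.A
  /-- `E = O / q O` -/
  ρ_eq_zero_iff : ∀ x : R.O, R.ρ x = 0 ↔ (x : F) / (q : F) ∈ R.O
  /-- the three discrete valuations with their reductions -/
  v : Fin 3 → DV F F'
  mem_O_iff : ∀ f : F, f ∈ R.O ↔ ∀ i, f ∈ (v i).O
  red_algebraMap : ∀ (i : Fin 3) (a : R.A), (v i).red (algebraMap K F a) = algebraMap k F' (R.res a)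
  ord_q0 : (v 0).ord (q : F) = 1
  ord_q1 : (v 1).ord (q : F) = q - 1
  ord_q2 : (v 2).ord (q : F) = 1
  /-- weak approximation -/
  surj : ∀ a : Fin 3 → F', ∃ f ∈ R.O, ∀ i, (v i).red f = a i
  /-- orthonormal bases of finite dimensional `K`-subspaces of `F` -/
  ortho : R.Ortho
  /-- the `j`-function and its reduction -/
  j : F
  jt : F'
  j_ne_zero : j ≠ 0
  ord_j : ∀ i, (v i).ord j = 0
  red_j0 : (v 0).red j = jt
  red_j1 : (v 1).red j = jt
  red_j2 : (v 2).red j = jt ^ (q ^ 2)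
  jt_transcendental : Transcendental k jt
  /-- integral over `K[j]` and in `O` implies reductions integral over `k[j]` -/
  isIntegral_red : ∀ f ∈ R.O, IsIntegral (Algebra.adjoin K {j}) f → ∀ i,
    IsIntegral (Algebra.adjoin k {(v i).red j}) ((v i).red f)
  isIntegral_red_inv : ∀ f ∈ R.O, IsIntegral (Algebra.adjoin K {j⁻¹}) f → ∀ i,
    IsIntegral (Algebra.adjoin k {(v i).red j⁻¹}) ((v i).red f)
  /-- the degree of level `m` over level one -/
  ψ : ℕ
  ψ_pos : 0 < ψ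
  finrank_F' : finrank k⟮jt⟯ F' = ψ
  /-- uniformizer of `v 1`: `δ = j(q²τ) - j(τ)` -/
  δ : F
  δ_ne_zero : δ ≠ 0
  ord_δ : (v 1).ord δ = 1
  /-- `u₁ = Δ(τ)/Δ(qτ)`, `u₂ = Δ(qτ)/Δ(q²τ)` -/
  u₁ : F
  u₂ : F
  u₁_ne_zero : u₁ ≠ 0
  u₂_ne_zero : u₂ ≠ 0
  isIntegral_u₁ : IsIntegral (Algebra.adjoin K {j}) u₁
  isIntegral_u₁_inv : IsIntegral (Algebra.adjoin K {j}) u₁⁻¹
  isIntegral_u₂ : IsIntegral (Algebra.adjoin K {j}) u₂
  isIntegral_u₂_inv : IsIntegral (Algebra.adjoin K {j}) u₂⁻¹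
  ord_u₁ : ∀ i, (v i).ord u₁ = if i = 2 then 12 else 0
  ord_u₂ : ∀ i, (v i).ord u₂ = if i = 0 then 0 else if i = 1 then 12 * ((q : ℤ) - 1) else 12
  /-- `ũ = Δ^{1-q}` as a polynomial in `j` -/
  Pu : k[X]
  natDegree_Pu : Pu.natDegree = q - 1
  Pu_ne_zero : Pu ≠ 0
  /-- `(θj)⁶ = Δ Q(j)` -/
  Q : k[X]
  natDegree_Q : Q.natDegree = 7
  red_u₁ : (v 1).red u₁ = aeval jt Pu
  red_u₁' : (v 0).red u₁ = aeval jt Pu
  red_U : (v 0).red (u₂ / u₁) = aeval jt Pu ^ (q - 1)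
  red_q_div_u₁ : (v 2).red ((q : F) ^ 12 / u₁) = aeval jt Pu ^ q
  red_u₂_div_q : (v 1).red (u₂ / (q : F) ^ 12) = (aeval jt Pu)⁻¹
  red_δ : (v 1).red (δ ^ (12 * (q - 1)) * (u₁ / u₂)) = aeval jt Q ^ (2 * (q - 1))
  /-- at infinity: `U⁻¹ j^{-2(q-1)}` is integral over `K[1/j]` -/
  isIntegral_U_inv : IsIntegral (Algebra.adjoin K {j⁻¹}) (u₁ / u₂ * (j⁻¹) ^ (2 * (q - 1)))

end Fermat.Agent.TriComp
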