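import Fermat.Agent.TriComp.Charts
import Fermat.Agent.QX.Filtration

/-!
# The class of a divisor with trivial reduction is trivial (three-component reduction)
-/

set_option autoImplicit false
set_option linter.unusedSectionVars false

open Module Polynomial AlgebraicCurve
open scoped IntermediateField

namespace Fermat.Agent.TriComp

open Fermat.Agent.TwoComp Fermat.Agent.S36norm Fermat.Agent.QX Fermat.Agent.FF Fermat.Agent.RR

theorem LL_inv {K F : Type*} [Field K] [Field F] [Algebra K F] [IsFF K F] {y : F}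
    (Dv : Divisor K F) (a b : ℕ) : LL y⁻¹ Dv a b = LL y Dv b a := by
  rw [LL, LL, inv_inv, add_comm ((a : ℤ) • _)]

namespace Data

variable {K F k E F' : Type*} [Field K] [Field F] [Algebra K F] [Field k] [CommRing E]
  [Algebra k E] [Field F'] [Algebra k F'] {q : ℕ} (D : Data K F k E F' q)
  [IsFF K F] [IsFF k F'] [IsAlgClosed k]

/-- A divisor class killed by `n` with trivial residues: `n Dv = div φ`, `φ ≡ 1 mod q`. -/
structure Cls (n : ℕ) (φ : F) (Dv : Divisor K F) : Prop where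
  n_ne_zero : (n : k) ≠ 0
  deg : Divisor.degree Dv = 0
  div : ∀ v : Place K F, (n : ℤ) * Dv v = v.ord φ
  mem : φ ∈ D.R.O
  r_eq : D.datum.r φ = 1

/-- The numerical hypotheses. -/
structure Num : Prop where
  tr : Transcendental K D.j
  finrank_F : finrank K⟮D.j⟯ F = q * (q + 1) * D.ψ
  ell_zero : ell (0 : Divisor K F) = 1
  genus : 12 * ((genusFF K F : ℤ) - 1) =
    (q + 1) * (12 * ((genusFF k F' : ℤ) - 1)) + ((q : ℤ) ^ 2 - 1) * D.ψ

variable {D}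

theorem cls_zero : D.Cls 1 1 0 where
  n_ne_zero := by simp
  deg := by simp
  div v := by rw [v.ord_one]; simp
  mem := D.R.O.one_mem
  r_eq := D.datum.r_one

namespace Cls

variable {n : ℕ} {φ : F} {Dv : Divisor K F} (C : D.Cls n φ Dv)
include C

theorem n_ne : n ≠ 0 := by
  rintro rfl
  simpa using C.n_ne_zero

theorem φ_ne : φ ≠ 0 := by
  rintro rfl
  have h := C.r_eq
  rw [D.datum.r_zero] at h
  have := congrArg (D.c 0) h
  rw [map_zero, map_one] at this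
  exact zero_ne_one this

theorem inv_mem : φ⁻¹ ∈ D.R.O := by
  have h := D.R.inv_mem ⟨φ, C.mem⟩
  rw [← D.r_surj_of C.mem, C.r_eq] at h
  exact h isUnit_one

theorem red (i : Fin 3) : (D.v i).red φ = 1 := by
  rw [← D.c_r i C.mem, C.r_eq, map_one]

theorem tw : D.Tw n φ where
  n_ne_zero := C.n_ne
  φ_ne_zero := C.φ_ne
  ord i := ((D.v i).red_ne_zero_iff C.φ_ne (D.mem_v C.mem i)).mp (by
    rw [C.red i]; exact one_ne_zero)
  red i := C.red i

theorem adm {r : ℕ} {h : F} (hh : h ∈ LL D.j Dv r 0) : D.Adm n φ r h := by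
  have h1 := pow_mem_LL C.φ_ne C.div hh
  rw [mul_zero] at h1
  rcases eq_or_ne (h ^ n / φ) 0 with h0 | h0
  · rw [h0] at h1
    refine ⟨?_, ?_⟩
    · rw [h0]; exact isIntegral_zero
    · rw [h0, zero_mul]; exact isIntegral_zero
  rw [mem_LL h0] at h1
  constructor
  · apply (mem_ic_iff_place D.j_ne_zero h0).mpr
    intro w hw
    have := h1 w
    rw [max_eq_right (show -w.ord D.j ≤ 0 by omega)] at this
    simpa using this
  · have h2 : D.j⁻¹ ^ (n * r) ≠ 0 := pow_ne_zero _ D.j_inv_ne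
    apply (mem_ic_iff_place D.j_inv_ne (mul_ne_zero h0 h2)).mpr
    intro w hw
    rw [w.ord_inv] at hw
    have := h1 w
    rw [max_eq_left (show 0 ≤ -w.ord D.j by omega)] at this
    rw [w.ord_mul h0 h2, QX.ord_pow, w.ord_inv]
    rw [Finsupp.zero_apply, Nat.cast_zero, zero_mul, sub_zero] at this
    linarith

/-- **Fullness** for the twisted spaces. -/
theorem full (N : D.Num) {r₀ : ℕ}
    (hr₀ : ∀ r ≥ r₀, ∀ (n : ℕ) (φ : F), D.Tw n φ →
      ∀ (W : Submodule K F) [FiniteDimensional K W], (∀ h ∈ W, D.Adm n φ r h) →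
      ∀ gN : ℤ, 12 * (gN - 1) = (q + 1) * (12 * ((genusFF k F' : ℤ) - 1)) +
        ((q : ℤ) ^ 2 - 1) * D.ψ →
      (finrank K W : ℤ) = r * (q * (q + 1) * D.ψ) + 1 - gN →
      ∀ s ≤ q, ∀ z, z ∈ D.X s r ↔ ∃ h ∈ W, D.Fil s h ∧ D.G s h = z)
    {r : ℕ} (hr : r₀ ≤ r) (hr' : rrBound K F 0 ≤ r) {s : ℕ} (hs : s ≤ q) (z : F') :
    z ∈ D.X s r ↔ ∃ h ∈ LL D.j Dv r 0, D.Fil s h ∧ D.G s h = z := by
  apply hr₀ r hr n φ C.tw (LL D.j Dv r 0) (fun h hh => C.adm hh) (genusFF K F) N.genus _ s hs z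
  have h1 := finrank_LL N.tr (D := Dv) (a := r) (b := 0) (by rw [C.deg, add_zero]; exact hr')
  rw [h1, C.deg, N.ell_zero, N.finrank_F]
  push_cast
  ring

end Cls

/-! ### The cartesian property -/

theorem fil_j_pow {s : ℕ} {f : F} (h : D.Fil s f) (b : ℕ) : D.Fil s (D.j ^ b * f) := by
  have hj0 : D.j ^ b ≠ 0 := pow_ne_zero _ D.j_ne_zero
  have hjo : ∀ i, (D.v i).Ge 0 (D.j ^ b) := fun i => by
    right
    rw [(D.v i).ord_pow D.j_ne_zero, D.ord_j, mul_zero]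
  have hmul : ∀ (i : Fin 3) (n : ℤ), (D.v i).Ge n f → (D.v i).Ge n (D.j ^ b * f) := by
    intro i n hn
    have := DV.Ge.mul (D.v i) (hjo i) hn
    rwa [zero_add] at this
  exact ⟨mul_mem (pow_mem D.j_mem_O b) h.1, hmul _ _ h.2.1, fun h' => hmul _ _ (h.2.2.1 h'),
    fun h' => hmul _ _ (h.2.2.2 h')⟩

theorem G_j_pow {s : ℕ} (hs : s ≤ q) {f : F} (h : D.Fil s f) (b : ℕ) :
    D.G s (D.j ^ b * f) = D.jt ^ (slope q s * b) * D.G s f := by
  have hjO := fun i => pow_mem (D.mem_v D.j_mem_O i) b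
  rcases lt_trichotomy (s + 1) q with h1 | h1 | h1
  · rw [D.G_of_lt h1, D.G_of_lt h1, mul_div_assoc,
      (D.v 1).red_mul (hjO 1) (Fil.div_mem D h1.le h), (D.v 1).red_pow (D.mem_v D.j_mem_O 1),
      D.red_j1, slope, if_neg (by omega), one_mul]
  · rw [D.G_of_eq h1, D.G_of_eq h1, (D.v 0).red_mul (hjO 0) (D.mem_v h.1 0),
      (D.v 0).red_pow (D.mem_v D.j_mem_O 0), D.red_j0, slope, if_neg (by omega), one_mul]
  · rw [D.G_of_gt h1, D.G_of_gt h1, (D.v 2).red_mul (hjO 2) (D.mem_v h.1 2),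
      (D.v 2).red_pow (D.mem_v D.j_mem_O 2), D.red_j2, slope, if_pos (by omega), pow_mul]

theorem mem_X_of {s a a' b : ℕ} {z : F'} (h1 : z ∈ D.X s a')
    (h2 : D.jt ^ (slope q s * b) * z ∈ D.X s (a + b)) : z ∈ D.X s a := by
  rw [D.mem_X_iff] at h1 h2 ⊢
  intro P
  rcases eq_or_ne z 0 with hz | hz
  · exact Or.inl hz
  right
  have h1 := (h1 P).resolve_left hz
  have hj := pow_ne_zero (slope q s * b) D.jt_ne_zero
  have h2 := (h2 P).resolve_left (mul_ne_zero hj hz)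
  rw [P.ord_mul hj hz, FF.ord_pow, D.Dv_apply] at h2
  rw [D.Dv_apply] at h1 ⊢
  rcases le_or_gt 0 (P.ord D.jt) with h | h
  · rw [max_eq_right (by omega), mul_zero] at h1 ⊢
    exact h1
  · rw [max_eq_left (by omega)] at h2 ⊢
    push_cast at h2
    linarith

theorem G_sub_iff {s : ℕ} (hs : s ≤ q) {x y : F} (hx : D.Fil s x) (hy : D.Fil s y) :
    D.G s x = D.G s y ↔ D.Fil (s + 1) (x - y) := by
  have hs' : s < D.filt.m := Nat.lt_succ_of_le hs
  have h1 : ((1 : D.R.A) : K) • x = x := one_smul K x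
  have hneg : ((-1 : D.R.A) : K) • y = -y := by
    push_cast
    rw [neg_smul, one_smul]
  have hy' : D.Fil s (-y) := by
    rw [← hneg]
    exact D.filt.smul s (-1) y hy
  have hG : D.G s (-y) = - D.G s y := by
    have := D.filt.G_smul s hs' (-1) y hy
    rw [hneg, map_neg, map_one, neg_smul, one_smul] at this
    exact this
  have hadd : D.G s (x - y) = D.G s x - D.G s y := by
    rw [sub_eq_add_neg, sub_eq_add_neg, ← hG]
    exact D.filt.G_add s hs' x (-y) hx hy'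
  have hxy : D.Fil s (x - y) := by
    rw [sub_eq_add_neg]
    exact D.filt.add s x (-y) hx hy'
  have := D.filt.G_eq_zero s hs' (x - y) hxy
  rw [← sub_eq_zero, ← hadd]
  exact this

/-- The filtration as additive subgroups. -/
noncomputable def FilG (D : Data K F k E F' q) (s : ℕ) : AddSubgroup F where
  carrier := {f | D.Fil s f}
  add_mem' := fun {a b} ha hb => D.filt.add s a b ha hb
  zero_mem' := D.filt.zero s
  neg_mem' := by
    intro x hx
    have hneg : ((-1 : D.R.A) : K) • x = -x := by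
      push_cast
      rw [neg_smul, one_smul]
    have := D.filt.smul s (-1) x hx
    rw [hneg] at this
    exact this

theorem mem_FilG {s : ℕ} {f : F} : f ∈ FilG D s ↔ D.Fil s f := Iff.rfl

theorem r_eq_iff {f g : F} (hf : f ∈ D.R.O) (hg : g ∈ D.R.O) :
    D.datum.r f = D.datum.r g ↔ D.Fil (q + 1) (f - g) := by
  rw [← sub_eq_zero, ← D.datum.r_sub hf hg, D.r_surj_of (sub_mem hf hg)]
  exact (D.filt.last_iff (f - g) (sub_mem hf hg)).symm

variable {n : ℕ} {φ : F} {Dv : Divisor K F}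

theorem cart_zero (C : D.Cls n φ Dv) {a a' b' : ℕ} (haa : a ≤ a')
    (hfull : ∀ s ≤ q, ∀ z, z ∈ D.X s a → ∃ h ∈ LL D.j Dv a 0, D.Fil s h ∧ D.G s h = z)
    {f g : F} (hf : f ∈ LL D.j Dv a' 0) (hfO : f ∈ D.R.O) (hg : g ∈ LL D.j Dv a b')
    (hgO : g ∈ D.R.O) (hfg : D.datum.r f = D.datum.r g) :
    ∃ h ∈ LL D.j Dv a 0, h ∈ D.R.O ∧ D.datum.r h = D.datum.r f := by
  obtain ⟨h, hh, hh0, hfh⟩ := cart_of_filtration (s := q + 1) (Fil := FilG D) (gr := D.G)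
    (W₀ := (LL D.j Dv a 0).toAddSubgroup) (W₁ := (LL D.j Dv a' 0).toAddSubgroup)
    (W₂ := (LL D.j Dv a b').toAddSubgroup)
    (fun i _ x hx => D.filt.anti i x hx)
    (fun i hi x hx y hy => G_sub_iff (by omega) hx hy)
    (fun x hx => LL_mono D.j Dv haa le_rfl hx)
    (fun x hx => LL_mono D.j Dv le_rfl (Nat.zero_le _) hx)
    (by
      intro i hi x hx y hy hxW hyW hxy
      have hi' : i ≤ q := by omega
      have h1 := D.G_mem_X C.tw hi' hx (C.adm hxW)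
      have h2 : D.j ^ b' * y ∈ LL D.j Dv (a + b') 0 := by
        rw [pow_mul_mem_LL_iff D.j_ne_zero, zero_add]
        exact hyW
      have h3 := D.G_mem_X C.tw hi' (fil_j_pow hy b') (C.adm h2)
      rw [G_j_pow hi' hy, ← hxy] at h3
      obtain ⟨z, hz, hz1, hz2⟩ := hfull i hi' _ (mem_X_of h1 h3)
      exact ⟨z, hz1, hz, hz2⟩)
    (f := f) (g := g) hf hg ((D.filt.zero_iff f).mpr hfO) ((r_eq_iff hfO hgO).mp hfg)
  have hhO : h ∈ D.R.O := (D.filt.zero_iff h).mp hh0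
  exact ⟨h, hh, hhO, ((r_eq_iff hfO hhO).mpr hfh).symm⟩

theorem cart (C : D.Cls n φ Dv) {r₁ : ℕ}
    (hfull : ∀ r ≥ r₁, ∀ s ≤ q, ∀ z, z ∈ D.X s r → ∃ h ∈ LL D.j Dv r 0, D.Fil s h ∧ D.G s h = z)
    {a b a' b' : ℕ} {f g : F} (haa : a ≤ a') (hbb : b ≤ b') (hab : r₁ ≤ a + b)
    (hf : f ∈ LL D.j Dv a' b) (hfO : f ∈ D.R.O) (hg : g ∈ LL D.j Dv a b')
    (hgO : g ∈ D.R.O) (hfg : D.datum.r f = D.datum.r g) :
    ∃ h ∈ LL D.j Dv a b, h ∈ D.R.O ∧ D.datum.r h = D.datum.r f := by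
  have hjb : D.j ^ b ∈ D.R.O := pow_mem D.j_mem_O b
  have hjb' : D.j⁻¹ ^ b ∈ D.R.O := pow_mem j_inv_memO b
  have hjj : D.j⁻¹ ^ b * D.j ^ b = 1 := by
    rw [← mul_pow, inv_mul_cancel₀ D.j_ne_zero, one_pow]
  have hf1 : D.j ^ b * f ∈ LL D.j Dv (a' + b) 0 := by
    rw [pow_mul_mem_LL_iff D.j_ne_zero, zero_add]
    exact hf
  have hg1 : D.j ^ b * g ∈ LL D.j Dv (a + b) (b' - b) := by
    rw [pow_mul_mem_LL_iff D.j_ne_zero, Nat.sub_add_cancel hbb]
    exact hg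
  obtain ⟨h, hh, hhO, hhr⟩ := cart_zero C (a := a + b) (a' := a' + b) (by omega)
    (hfull (a + b) hab) hf1 (mul_mem hjb hfO) hg1 (mul_mem hjb hgO)
    (by
      rw [D.datum.r_mul hjb hfO, D.datum.r_mul hjb hgO, hfg])
  refine ⟨D.j⁻¹ ^ b * h, ?_, mul_mem hjb' hhO, ?_⟩
  · have := (pow_mul_mem_LL_iff (K := K) D.j_ne_zero (D := Dv) (a := a) (b := 0) (c := b)
      (f := D.j⁻¹ ^ b * h)).mp (by
        rw [← mul_assoc, mul_comm (D.j ^ b), hjj, one_mul]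
        exact hh)
    rwa [zero_add] at this
  · rw [D.datum.r_mul hjb' hhO, hhr, ← D.datum.r_mul hjb' (mul_mem hjb hfO), ← mul_assoc, hjj,
      one_mul]

/-! ### Non-vanishing sections -/

/-- elements of the pieces. -/
theorem ut_mem_X {s e r l : ℕ} (hs : q ≤ s + 1) (hs' : s ≤ q) (he : e = s)
    (hr : (q - 1) * e + l ≤ r * slope q s) : D.ut ^ e * D.jt ^ l ∈ D.X s r := by
  have hu0 := D.ut_ne_zero
  have hj0 := D.jt_ne_zero
  have hq := D.q_two_le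
  rw [D.mem_X_iff]
  intro P
  right
  rw [P.ord_mul (pow_ne_zero _ hu0) (pow_ne_zero _ hj0), FF.ord_pow, FF.ord_pow, D.Dv_apply]
  have hD0 : 0 ≤ P.ord D.jt → D.D0 s P = (-((e : ℤ) * P.ord D.ut)) / 12 := by
    intro h
    rcases Nat.lt_or_ge s q with h1 | h1
    · rw [D.D0_eq (by omega), if_pos h, he]
      congr 2
      have : (s : ℤ) = q - 1 := by omega
      rw [this]
    · rw [D.D0_gt (by omega), if_pos h, he]
      congr 2
      have : (s : ℤ) = q := by omega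
      rw [this]
  have hD0' : P.ord D.jt < 0 → D.D0 s P = 0 := by
    intro h
    rcases Nat.lt_or_ge s q with h1 | h1
    · rw [D.D0_eq (by omega), if_neg (by omega)]
    · rw [D.D0_gt (by omega), if_neg (by omega)]
  rcases le_or_gt 0 (P.ord D.jt) with h | h
  · rw [max_eq_right (by omega), mul_zero, add_zero, hD0 h]
    have h1 : 0 ≤ P.ord D.ut := by
      have h2 : D.ut ∈ P.toValuationSubring :=
        aeval_mem P ((mem_iff_ord_nonneg P hj0).mpr h) D.Pu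
      exact (mem_iff_ord_nonneg P hu0).mp h2
    have h2 : 0 ≤ (e : ℤ) * P.ord D.ut := mul_nonneg (by positivity) h1
    have h3 : 0 ≤ (l : ℤ) * P.ord D.jt := mul_nonneg (by positivity) h
    omega
  · rw [max_eq_left (by omega), hD0' h, zero_add]
    have h1 : P.ord D.ut = (q - 1 : ℕ) * P.ord D.jt := by
      have := (ord_aeval_of_neg P h D.Pu_ne_zero).2
      rw [D.natDegree_Pu] at this
      exact this
    rw [h1]
    have h2 : (((q - 1) * e + l : ℕ) : ℤ) ≤ ((r * slope q s : ℕ) : ℤ) := by exact_mod_cast hr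
    push_cast at h2
    have h3 := mul_le_mul_of_nonpos_right h2 h.le
    linarith

theorem jt_mem_X {r : ℕ} : D.jt ^ r ∈ D.X 0 r := by
  have hj0 := D.jt_ne_zero
  have hq := D.q_two_le
  rw [D.mem_X_iff]
  intro P
  right
  have hsl : (slope q 0 : ℤ) = 1 := by rw [slope, if_neg (by omega)]; rfl
  rw [FF.ord_pow, D.Dv_apply, D.D0_lt (s := 0) (by omega), hsl]
  rw [Nat.cast_zero, zero_mul, zero_mul, mul_one, Int.zero_ediv, ite_self, zero_add]
  rcases le_or_gt 0 (P.ord D.jt) with h | h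
  · rw [max_eq_right (by omega), mul_zero, neg_zero]
    exact mul_nonneg (by positivity) h
  · rw [max_eq_left (by omega)]
    linarith

variable (D) in
/-- The hypothesis `(ZT)`. -/
def ZT (n : ℕ) (φ : F) : Prop :=
  ∀ P : ic k D.jt →ₐ[k] k, ev P D.ut = 0 → ∀ h ∈ D.R.O, h ^ n / φ ∈ ic K D.j → ∀ i,
    ev P ((D.v i).red h) = ev P ((D.v 1).red h)

theorem Cls.red_mem (C : D.Cls n φ Dv) {h : F} (hh : h ∈ D.R.O) (hh' : h ^ n / φ ∈ ic K D.j)
    (i : Fin 3) : (D.v i).red h ∈ ic k D.jt := by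
  apply mem_ic_of_pow (Nat.pos_of_ne_zero C.n_ne)
  rw [← C.tw.red_pow_div (D.mem_v hh i)]
  apply D.red_mem_ic _ hh'
  rw [div_eq_mul_inv]
  exact mul_mem (pow_mem hh n) C.inv_mem

theorem Cls.red_mem_inv (C : D.Cls n φ Dv) {h : F} (hh : h ∈ D.R.O)
    (hh' : h ^ n / φ ∈ ic K D.j⁻¹) (i : Fin 3) : (D.v i).red h ∈ ic k D.jt⁻¹ := by
  apply mem_ic_of_pow (Nat.pos_of_ne_zero C.n_ne)
  rw [← C.tw.red_pow_div (D.mem_v hh i)]
  apply D.red_mem_ic_inv _ hh'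
  rw [div_eq_mul_inv]
  exact mul_mem (pow_mem hh n) C.inv_mem

theorem ZT.inv (G : D.Glue) (C : D.Cls n φ Dv) (Z : D.ZT n φ) {P : ic k D.jt⁻¹ →ₐ[k] k}
    (hP : ev P D.gt = 0) {h : F} (hh : h ∈ D.R.O) (hh' : h ^ n / φ ∈ ic K D.j⁻¹) (i : Fin 3) :
    ev P ((D.v i).red h) = ev P ((D.v 1).red h) := by
  obtain ⟨ha, P₁, hP₁u, hP₁, hj, -⟩ := G.ss_inv hP
  obtain ⟨l, hl⟩ := exists_pow_mul_mem_ic_of_inv D.j_ne_zero hh'
  have hn := C.n_ne
  have hmem : (D.j ^ l * h) ^ n / φ ∈ ic K D.j := by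
    have h1 : (D.j ^ l * h) ^ n / φ = D.j ^ (l * n) * (h ^ n / φ) := by
      rw [mul_pow, ← pow_mul, mul_div_assoc]
    rw [h1]
    exact hl _ (Nat.le_mul_of_pos_right l (Nat.pos_of_ne_zero hn))
  have hO : D.j ^ l * h ∈ D.R.O := mul_mem (pow_mem D.j_mem_O l) hh
  exact transfer_red ha hP₁ hj hh (fun i => C.red_mem_inv hh hh' i)
    (fun i => C.red_mem hO hmem i) (fun i => Z P₁ hP₁u _ hO hmem i) i

/-- non-vanishing in the chart `K[j]`. -/
theorem Cls.ne_chart (C : D.Cls n φ Dv) (Z : D.ZT n φ) {r : ℕ} (hrq : (q - 1) * (q - 1) ≤ r)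
    (hr1 : 1 ≤ r)
    (hfull : ∀ s ≤ q, ∀ z, z ∈ D.X s r → ∃ h ∈ LL D.j Dv r 0, D.Fil s h ∧ D.G s h = z)
    (P : ic k D.jt →ₐ[k] k) (i : Fin 3) :
    ∃ h ∈ D.R.O, h ^ n / φ ∈ ic K D.j ∧ ev P ((D.v i).red h) ≠ 0 := by
  have hq := D.q_two_le
  have hmem : ∀ h ∈ LL D.j Dv r 0, h ^ n / φ ∈ ic K D.j := fun h hh =>
    (mem_ic_iff_LL D.j_ne_zero C.n_ne C.φ_ne C.div).mpr ⟨r, hh⟩
  obtain ⟨h₁, hh₁, hf₁, hG₁⟩ := hfull 0 (by omega) 1 (D.one_mem_X_zero r)
  have hr₁ : (D.v 1).red h₁ = 1 := by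
    rw [D.G_of_lt (by omega), pow_zero, div_one] at hG₁
    exact hG₁
  by_cases hP : ev P D.ut = 0
  · refine ⟨h₁, hf₁.1, hmem h₁ hh₁, ?_⟩
    rw [Z P hP h₁ hf₁.1 (hmem h₁ hh₁) i, hr₁, ev_one]
    exact one_ne_zero
  revert i
  apply forall_fin3
  · obtain ⟨h, hh, hf, hG⟩ := hfull (q - 1) (by omega) _ (ut_mem_X (r := r) (l := 0)
      (by omega) (by omega) rfl (by
        rw [add_zero, slope, if_neg (by omega), mul_one]; exact hrq))
    rw [D.G_of_eq (by omega), pow_zero, mul_one] at hG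
    refine ⟨h, hf.1, hmem h hh, ?_⟩
    rw [hG, ev_pow P D.ut_mem]
    exact pow_ne_zero _ hP
  · exact ⟨h₁, hf₁.1, hmem h₁ hh₁, by rw [hr₁, ev_one]; exact one_ne_zero⟩
  · obtain ⟨h, hh, hf, hG⟩ := hfull q le_rfl _ (ut_mem_X (r := r) (l := 0)
      (by omega) (by omega) rfl (by
        rw [add_zero, slope, if_pos rfl]
        calc (q - 1) * q ≤ q * q := Nat.mul_le_mul_right q (Nat.sub_le q 1)
          _ = 1 * q ^ 2 := by ring
          _ ≤ r * q ^ 2 := Nat.mul_le_mul_right _ hr1))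
    rw [D.G_of_gt (by omega), pow_zero, mul_one] at hG
    refine ⟨h, hf.1, hmem h hh, ?_⟩
    rw [hG, ev_pow P D.ut_mem]
    exact pow_ne_zero _ hP

/-- non-vanishing in the chart `K[1/j]`. -/
theorem Cls.ne_chart_inv (G : D.Glue) (C : D.Cls n φ Dv) (Z : D.ZT n φ) {r : ℕ}
    (hrq : (q - 1) * (q - 1) ≤ r) (hr1 : 1 ≤ r)
    (hfull : ∀ s ≤ q, ∀ z, z ∈ D.X s r → ∃ h ∈ LL D.j Dv r 0, D.Fil s h ∧ D.G s h = z)
    (P : ic k D.jt⁻¹ →ₐ[k] k) (i : Fin 3) :
    ∃ h ∈ D.R.O, h ^ n / φ ∈ ic K D.j⁻¹ ∧ ev P ((D.v i).red h) ≠ 0 := by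
  have hq := D.q_two_le
  have hj0 := D.jt_ne_zero
  have hjO : D.j⁻¹ ^ r ∈ D.R.O := pow_mem j_inv_memO r
  have hmem : ∀ h ∈ LL D.j Dv r 0, (D.j⁻¹ ^ r * h) ^ n / φ ∈ ic K D.j⁻¹ := by
    intro h hh
    refine (mem_ic_iff_LL D.j_inv_ne C.n_ne C.φ_ne C.div).mpr ⟨r, ?_⟩
    rw [LL_inv]
    have := (pow_mul_mem_LL_iff (K := K) D.j_ne_zero (D := Dv) (a := 0) (b := 0) (c := r)
      (f := D.j⁻¹ ^ r * h)).mp (by
        rw [← mul_assoc, ← mul_pow, mul_inv_cancel₀ D.j_ne_zero, one_pow, one_mul, zero_add]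
        exact hh)
    rwa [zero_add] at this
  have hred : ∀ (i : Fin 3) {h : F}, h ∈ D.R.O →
      (D.v i).red (D.j⁻¹ ^ r * h) = ((D.v i).red D.j)⁻¹ ^ r * (D.v i).red h := by
    intro i h hh
    rw [(D.v i).red_mul (D.mem_v hjO i) (D.mem_v hh i), (D.v i).red_pow (j_inv_mem i), red_j_inv]
  obtain ⟨h₁, hh₁, hf₁, hG₁⟩ := hfull 0 (by omega) _ (jt_mem_X (r := r))
  have hr₁ : (D.v 1).red (D.j⁻¹ ^ r * h₁) = 1 := by
    rw [D.G_of_lt (by omega), pow_zero, div_one] at hG₁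
    rw [hred 1 hf₁.1, D.red_j1, hG₁, ← mul_pow, inv_mul_cancel₀ hj0, one_pow]
  have hO₁ : D.j⁻¹ ^ r * h₁ ∈ D.R.O := mul_mem hjO hf₁.1
  by_cases hP : ev P D.gt = 0
  · refine ⟨_, hO₁, hmem h₁ hh₁, ?_⟩
    rw [Z.inv G C hP hO₁ (hmem h₁ hh₁) i, hr₁, ev_one]
    exact one_ne_zero
  revert i
  apply forall_fin3
  · obtain ⟨h, hh, hf, hG⟩ := hfull (q - 1) (by omega) _ (ut_mem_X (r := r)
      (l := r - (q - 1) * (q - 1)) (by omega) (by omega) rfl (by
        rw [slope, if_neg (by omega), mul_one]; omega))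
    rw [D.G_of_eq (by omega)] at hG
    refine ⟨_, mul_mem hjO hf.1, hmem h hh, ?_⟩
    have h1 : D.jt⁻¹ ^ r * (D.ut ^ (q - 1) * D.jt ^ (r - (q - 1) * (q - 1))) =
        D.gt ^ (q - 1) := by
      rw [gt_pow]
      have h2 : D.jt⁻¹ ^ r = D.jt⁻¹ ^ ((q - 1) * (q - 1)) * D.jt⁻¹ ^ (r - (q - 1) * (q - 1)) := by
        rw [← pow_add]
        congr 1
        omega
      rw [h2]
      have h3 : D.jt⁻¹ ^ (r - (q - 1) * (q - 1)) * D.jt ^ (r - (q - 1) * (q - 1)) = 1 := by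
        rw [← mul_pow, inv_mul_cancel₀ hj0, one_pow]
      linear_combination (D.ut ^ (q - 1) * D.jt⁻¹ ^ ((q - 1) * (q - 1))) * h3
    rw [hred 0 hf.1, D.red_j0, hG, h1, ev_pow P gt_mem]
    exact pow_ne_zero _ hP
  · exact ⟨_, hO₁, hmem h₁ hh₁, by rw [hr₁, ev_one]; exact one_ne_zero⟩
  · have hle : (q - 1) * q ≤ q ^ 2 * r := by
      calc (q - 1) * q ≤ q * q := Nat.mul_le_mul_right q (Nat.sub_le q 1)
          _ = q ^ 2 * 1 := by ring
          _ ≤ q ^ 2 * r := Nat.mul_le_mul_left _ hr1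
    obtain ⟨h, hh, hf, hG⟩ := hfull q le_rfl _ (ut_mem_X (r := r)
      (l := q ^ 2 * r - (q - 1) * q) (by omega) (by omega) rfl (by
        rw [slope, if_pos rfl, mul_comm r]; omega))
    rw [D.G_of_gt (by omega)] at hG
    refine ⟨_, mul_mem hjO hf.1, hmem h hh, ?_⟩
    have h1 : (D.jt ^ q ^ 2)⁻¹ ^ r * (D.ut ^ q * D.jt ^ (q ^ 2 * r - (q - 1) * q)) =
        D.gt ^ q := by
      rw [gt_pow]
      have h2 : (D.jt ^ q ^ 2)⁻¹ ^ r =
          D.jt⁻¹ ^ ((q - 1) * q) * D.jt⁻¹ ^ (q ^ 2 * r - (q - 1) * q) := by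
        rw [← pow_add, ← inv_pow, ← pow_mul]
        congr 1
        omega
      rw [h2]
      have h3 : D.jt⁻¹ ^ (q ^ 2 * r - (q - 1) * q) * D.jt ^ (q ^ 2 * r - (q - 1) * q) = 1 := by
        rw [← mul_pow, inv_mul_cancel₀ hj0, one_pow]
      linear_combination (D.ut ^ q * D.jt⁻¹ ^ ((q - 1) * q)) * h3
    rw [hred 2 hf.1, D.red_j2, hG, h1, ev_pow P gt_mem]
    exact pow_ne_zero _ hP

/-- **Main theorem**: a divisor class of order prime to the characteristic with trivial local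
roots is trivial. -/
theorem isPrincipal (N : D.Num) (G : D.Glue) (C : D.Cls n φ Dv) (Z : D.ZT n φ) :
    AlgebraicCurve.Divisor.IsPrincipal Dv := by
  obtain ⟨r₀, hr₀⟩ := D.full
  set r₁ : ℕ := max (max r₀ (rrBound K F 0)) (max ((q - 1) * (q - 1)) 1) with hr₁
  have e1 : r₀ ≤ r₁ := le_max_of_le_left (le_max_left _ _)
  have e2 : rrBound K F 0 ≤ r₁ := le_max_of_le_left (le_max_right _ _)
  have e3 : (q - 1) * (q - 1) ≤ r₁ := le_max_of_le_right (le_max_left _ _)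
  have e4 : 1 ≤ r₁ := le_max_of_le_right (le_max_right _ _)
  have hfull : ∀ r ≥ r₁, ∀ s ≤ q, ∀ z, z ∈ D.X s r →
      ∃ h ∈ LL D.j Dv r 0, D.Fil s h ∧ D.G s h = z := fun r hr s hs z hz =>
    (C.full N hr₀ (e1.trans hr) (e2.trans hr) hs z).mp hz
  have T : D.datum.Twist n φ (LL D.j Dv) (LL D.j 0) r₁ := {
    fin := fun a b => inferInstance
    mono := fun ha hb => LL_mono D.j Dv ha hb
    mono' := fun ha hb => LL_mono D.j 0 ha hb
    inf_le := fun _ _ => LL_inf_le D.j Dv _ _ _ _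
    dim := by
      intro a b a' b' ha hb hab
      have h1 := finrank_LL N.tr (D := Dv) (a := a) (b := b) (by rw [C.deg]; omega)
      have h2 := finrank_LL N.tr (D := Dv) (a := a') (b := b) (by rw [C.deg]; omega)
      have h3 := finrank_LL N.tr (D := Dv) (a := a) (b := b') (by rw [C.deg]; omega)
      have h4 := finrank_LL N.tr (D := Dv) (a := a') (b := b') (by rw [C.deg]; omega)
      push_cast at h1 h2 h3 h4
      have : (finrank K (LL D.j Dv a' b') : ℤ) + finrank K (LL D.j Dv a b) ≤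
          finrank K (LL D.j Dv a' b) + finrank K (LL D.j Dv a b') := by
        rw [h1, h2, h3, h4]
        apply le_of_eq
        ring
      exact_mod_cast this
    mul_mem := by
      intro a b c d f g hf hg
      have := mul_mem_LL hf hg
      rwa [add_zero] at this
    pow_mem := fun hf => pow_mem_LL C.φ_ne C.div hf
    one_mem := one_mem_LL D.j 0 0
    cart := fun ha hb hab hf hfO hg hgO hfg => cart C hfull ha hb hab hf hfO hg hgO hfg }
  have hE : Nontrivial E := (D.c 0).toRingHom.domain_nontrivial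
  have c1 := G.chart.one_mem C.n_ne_zero C.mem C.r_eq C.div
    (fun P i => C.ne_chart Z e3 e4 (hfull r₁ le_rfl) P i) Z
  have c2 := G.chart_inv.one_mem C.n_ne_zero C.mem C.r_eq C.div
    (fun P i => C.ne_chart_inv G Z e3 e4 (hfull r₁ le_rfl) P i)
    (fun P hP h hh hh' i => Z.inv G C hP hh hh' i)
  obtain ⟨f₁, hf₁, hf₁', hr1⟩ := c1
  obtain ⟨f₂, hf₂, hf₂', hr2⟩ := c2
  rw [mem_ic_iff_LL D.j_ne_zero C.n_ne C.φ_ne C.div] at hf₁'
  rw [mem_ic_iff_LL D.j_inv_ne C.n_ne C.φ_ne C.div] at hf₂'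
  obtain ⟨s₁, hs₁⟩ := hf₁'
  obtain ⟨s₂, hs₂⟩ := hf₂'
  rw [LL_inv] at hs₂
  obtain ⟨f, hf, hf0⟩ := T.exists_ne_zero C.n_ne_zero C.mem C.r_eq ⟨f₁, hs₁, hf₁, hr1⟩
    ⟨f₂, hs₂, hf₂, hr2⟩
  refine ⟨f, hf0, ?_⟩
  rw [mem_LL hf0] at hf
  have h1 : Dv ≤ RR.div f := by
    intro v
    have := hf v
    rw [div_apply]
    simpa using this
  have : Nonempty (Place K F) := exists_place
  have : ∀ v : Place K F, v.FiniteResidue := finiteResidue_place
  have h2 : Dv = RR.div f := eq_of_le_of_degree_le h1 (by rw [degree_div, C.deg])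
  intro v
  rw [h2, div_apply]

end Data

end Fermat.Agent.TriComp
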