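import Mathlib

/-!
# Families independent over `k[t]`
-/

set_option autoImplicit false

open Module Polynomial
open scoped IntermediateField

namespace Fermat.Agent.TriComp

/-- Independence over `k[t]`. -/
def IndepPoly {k L : Type*} [Field k] [Field L] [Algebra k L] (t : L) {m : ℕ} (y : Fin m → L) :
    Prop :=
  ∀ p : Fin m → k[X], ∑ l, aeval t (p l) * y l = 0 → ∀ l, p l = 0

/-- Polynomial values stay in an intermediate field. -/
theorem aeval_mem_field {k L : Type*} [Field k] [Field L] [Algebra k L]
    (S : IntermediateField k L) {t : L} (h : t ∈ S) (q : k[X]) : aeval t q ∈ S := by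
  have h1 := S.aeval_coe ⟨t, h⟩ q
  rw [h1]
  exact SetLike.coe_mem _

namespace IndepPoly

variable {k L : Type*} [Field k] [Field L] [Algebra k L]

theorem of_linearIndependent {t : L} (ht : Transcendental k t) {m : ℕ} {y : Fin m → L}
    (hy : LinearIndependent k⟮t⟯ y) : IndepPoly (k := k) t y := by
  intro p hp l
  have hmem : ∀ q : k[X], aeval t q ∈ k⟮t⟯ := fun q =>
    aeval_mem_field _ (IntermediateField.mem_adjoin_simple_self k t) q
  rw [Fintype.linearIndependent_iff] at hy
  have h := hy (fun l => ⟨aeval t (p l), hmem _⟩) (by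
    rw [← hp]
    refine Finset.sum_congr rfl fun l _ => ?_
    rw [Algebra.smul_def]; rfl) l
  have h2 : aeval t (p l) = 0 := congrArg Subtype.val h
  exact transcendental_iff.1 ht _ h2

/-- A family of the right cardinality exists. -/
theorem exists_of_finrank {t : L} (ht : Transcendental k t) {m : ℕ} (hm : finrank k⟮t⟯ L = m) :
    ∃ y : Fin m → L, IndepPoly (k := k) t y := by
  rcases Nat.eq_zero_or_pos m with rfl | hpos
  · exact ⟨Fin.elim0, fun _ _ l => l.elim0⟩
  have : FiniteDimensional k⟮t⟯ L := FiniteDimensional.of_finrank_pos (by omega)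
  let b := Module.finBasisOfFinrankEq k⟮t⟯ L hm
  exact ⟨b, of_linearIndependent ht b.linearIndependent⟩

/-- Transport along an injective algebra homomorphism. -/
theorem map {L' : Type*} [Field L'] [Algebra k L'] {t : L} {m : ℕ} {y : Fin m → L}
    (h : IndepPoly (k := k) t y) (φ : L →ₐ[k] L') :
    IndepPoly (k := k) (φ t) (fun l => φ (y l)) := by
  intro p hp
  apply h p
  apply φ.toRingHom.injective
  change φ _ = φ 0
  rw [map_sum, map_zero, ← hp]
  refine Finset.sum_congr rfl fun l _ => ?_
  rw [map_mul, aeval_algHom_apply]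

/-- Descent along an algebra homomorphism. -/
theorem of_map {L' : Type*} [Field L'] [Algebra k L'] {t : L} {m : ℕ} {y : Fin m → L}
    (φ : L →ₐ[k] L') (h : IndepPoly (k := k) (φ t) (fun l => φ (y l))) :
    IndepPoly (k := k) t y := by
  intro p hp
  apply h p
  have h1 := congrArg φ hp
  rw [map_sum, map_zero] at h1
  rw [← h1]
  refine Finset.sum_congr rfl fun l _ => ?_
  rw [map_mul, aeval_algHom_apply]

/-- Replacing `t` by `t⁻¹`. -/
theorem inv {t : L} (ht : t ≠ 0) {m : ℕ} {y : Fin m → L} (h : IndepPoly (k := k) t y) :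
    IndepPoly (k := k) t⁻¹ y := by
  intro p hp l
  set N := Finset.univ.sup fun l => (p l).natDegree with hN
  have hle : ∀ l, (p l).natDegree ≤ N := fun l =>
    Finset.le_sup (f := fun l => (p l).natDegree) (Finset.mem_univ l)
  have h1 : ∀ l, aeval t (reflect N (p l)) = t ^ N * aeval t⁻¹ (p l) := by
    intro l
    let _ : Invertible t⁻¹ := invertibleOfNonzero (inv_ne_zero ht)
    have h2 := eval₂_reflect_mul_pow (algebraMap k L) t⁻¹ N (p l) (hle l)
    have h3 : ⅟(t⁻¹) = t := by rw [invOf_eq_inv, inv_inv]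
    rw [h3] at h2
    rw [aeval_def, aeval_def, ← h2, mul_comm, mul_assoc, ← mul_pow, inv_mul_cancel₀ ht, one_pow,
      mul_one]
  have h2 := h (fun l => reflect N (p l)) (by
    have : ∑ l, aeval t (reflect N (p l)) * y l = t ^ N * ∑ l, aeval t⁻¹ (p l) * y l := by
      rw [Finset.mul_sum]
      exact Finset.sum_congr rfl fun l _ => by rw [h1, mul_assoc]
    rw [this, hp, mul_zero]) l
  ext i
  have h3 := congrArg (fun q => q.coeff (revAt N i)) h2
  simp only [coeff_reflect, revAt_invol, coeff_zero] at h3
  rw [h3, coeff_zero]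

/-- `t` is transcendental if there is a nonempty independent family. -/
theorem cons {t : L} {m : ℕ} {y : Fin m → L} (ht : Transcendental k t)
    (h : IndepPoly (k := k) t y)
    (S : IntermediateField k L) (htS : t ∈ S) (hyS : ∀ l, y l ∈ S) {z : L} (hz : z ∉ S) :
    IndepPoly (k := k) t (Fin.cons z y : Fin (m + 1) → L) := by
  intro p hp
  rw [Fin.sum_univ_succ] at hp
  simp only [Fin.cons_zero, Fin.cons_succ] at hp
  have h0 : p 0 = 0 := by
    by_contra hne
    apply hz
    have h1 : aeval t (p 0) ≠ 0 := fun h' => hne (transcendental_iff.1 ht _ h')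
    have h2 : z = -(∑ l, aeval t (p (Fin.succ l)) * y l) / aeval t (p 0) := by
      rw [eq_div_iff h1]
      linear_combination hp
    rw [h2]
    refine S.div_mem (S.neg_mem (sum_mem fun l _ => S.mul_mem ?_ (hyS l))) ?_
    · exact aeval_mem_field S htS _
    · exact aeval_mem_field S htS _
  rw [h0, map_zero, zero_mul, zero_add] at hp
  have h1 := h _ hp
  intro l
  refine Fin.cases h0 (fun l => h1 l) l

/-- Passing from `t` to `t ^ n`. -/
theorem pow {t : L} {m n : ℕ} (hn : 0 < n) {y : Fin m → L} (h : IndepPoly (k := k) t y) :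
    ∃ y' : Fin (n * m) → L, IndepPoly (k := k) (t ^ n) y' ∧
      ∀ l, ∃ (a : ℕ) (l' : Fin m), y' l = t ^ a * y l' := by
  refine ⟨fun l => t ^ ((finProdFinEquiv.symm l).1 : ℕ) * y (finProdFinEquiv.symm l).2, ?_,
    fun l => ⟨_, _, rfl⟩⟩
  intro p hp
  set q : Fin n × Fin m → k[X] := fun al => p (finProdFinEquiv al) with hq
  have h1 : ∑ al : Fin n × Fin m, aeval (t ^ n) (q al) * (t ^ (al.1 : ℕ) * y al.2) = 0 := by
    rw [← hp, ← Equiv.sum_comp finProdFinEquiv]
    refine Finset.sum_congr rfl fun al _ => ?_
    simp only [Equiv.symm_apply_apply, hq]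
  rw [Fintype.sum_prod_type_right] at h1
  have h2 := h (fun l => ∑ a : Fin n, expand k n (q (a, l)) * X ^ (a : ℕ)) (by
    rw [← h1]
    refine Finset.sum_congr rfl fun l _ => ?_
    rw [map_sum, Finset.sum_mul]
    refine Finset.sum_congr rfl fun a _ => ?_
    rw [map_mul, expand_aeval, map_pow, aeval_X]
    ring)
  have h3 : ∀ (a : Fin n) (l : Fin m), q (a, l) = 0 := by
    intro a l
    ext i
    have h4 := congrArg (fun r => r.coeff (i * n + a)) (h2 l)
    simp only [finsetSum_coeff, coeff_mul_X_pow', coeff_zero] at h4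
    rw [Finset.sum_eq_single a] at h4
    · rw [if_pos (by omega), Nat.add_sub_cancel, coeff_expand_mul hn] at h4
      rw [h4, coeff_zero]
    · intro b _ hb
      split_ifs with hle
      · rw [coeff_expand hn, if_neg]
        intro hdvd
        apply hb
        have hb2 := b.2
        have ha2 := a.2
        obtain ⟨c, hc⟩ := hdvd
        apply Fin.ext
        have h5 : i * n + a = n * c + b := by omega
        have h6 : (n * i + (a : ℕ)) % n = (n * c + (b : ℕ)) % n := by rw [mul_comm n i, h5]
        rw [Nat.mul_add_mod, Nat.mul_add_mod, Nat.mod_eq_of_lt ha2, Nat.mod_eq_of_lt hb2] at h6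
        exact h6.symm
      · rfl
    · intro h; exact absurd (Finset.mem_univ a) h
  intro l
  have := h3 (finProdFinEquiv.symm l).1 (finProdFinEquiv.symm l).2
  simpa only [hq, Prod.mk.eta, Equiv.apply_symm_apply] using this

end IndepPoly

end Fermat.Agent.TriComp
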