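import Fermat.Agent.TriComp.Weak
import Fermat.Agent.TriComp.IndepPoly
import Fermat.Agent.TwoComp.Ortho

/-!
# Several discrete valuations above a Gauss valuation: exhaustion by degree count

`P : Pre K F k L ι` : a discretely valued field `K` (valuation ring `A`, uniformizer `ϖ`, residue
field `k`), a finite family of pairwise distinct discrete valuations `v i` on `F` above `A`, with
reductions in a field `L ⊇ k`.  `O = ⋂ O_i`, `E = O / ϖ O`.

If `x ∈ F` reduces to a transcendental element at all `v i` and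
`[F : K(x)] ≤ ∑ e_i f_i` where the image of the `i`-th reduction contains `f_i` elements
independent over `k[red_i x]`, then finite dimensional `K`-subspaces of `F` have orthonormal bases,
integrality descends to the reductions, and the residue fields are not larger than expected.
-/

set_option autoImplicit false

open Module Polynomial
open scoped IntermediateField

namespace Fermat.Agent.S36norm.DV

variable {F κ : Type*} [Field F] [Field κ] (v : DV F κ)

theorem ord_neg_eq (x : F) : v.ord (-x) = v.ord x := by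
  rcases eq_or_ne x 0 with rfl | hx
  · simp
  have h1 : v.ord (-1) = 0 := by
    have h := v.ord_mul (-1) (-1) (by simp) (by simp)
    rw [neg_mul_neg, one_mul, v.ord_one] at h
    omega
  rw [← neg_one_mul, v.ord_mul _ _ (by simp) hx, h1, zero_add]

/-- The fractional ideal of elements of order at least `N`. -/
def I (N : ℤ) : AddSubgroup F where
  carrier := {x | x = 0 ∨ N ≤ v.ord x}
  zero_mem' := Or.inl rfl
  add_mem' := fun hx hy => v.ord_add_ge hx hy
  neg_mem' := by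
    rintro x (rfl | hx)
    · left; simp
    · right; rwa [v.ord_neg_eq]

theorem mem_I {N : ℤ} {x : F} : x ∈ v.I N ↔ x = 0 ∨ N ≤ v.ord x := Iff.rfl

theorem I_mono {N M : ℤ} (h : N ≤ M) {x : F} (hx : x ∈ v.I M) : x ∈ v.I N :=
  hx.imp_right fun h' => h.trans h'

theorem mul_mem_I {N M : ℤ} {x y : F} (hx : x ∈ v.I N) (hy : y ∈ v.I M) : x * y ∈ v.I (N + M) := by
  rcases eq_or_ne x 0 with rfl | hx0
  · left; simp
  rcases eq_or_ne y 0 with rfl | hy0
  · left; simp
  right
  rw [v.ord_mul _ _ hx0 hy0]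
  have h1 := hx.resolve_left hx0
  have h2 := hy.resolve_left hy0
  omega

theorem mem_O_iff_mem_I {x : F} : x ∈ v.O ↔ x ∈ v.I 0 := by
  rcases eq_or_ne x 0 with rfl | hx0
  · exact iff_of_true (zero_mem _) (Or.inl rfl)
  · rw [v.mem_iff x hx0, mem_I]
    simp [hx0]

theorem mul_O_mem_I {N : ℤ} {x y : F} (hx : x ∈ v.O) (hy : y ∈ v.I N) : x * y ∈ v.I N := by
  have := v.mul_mem_I ((v.mem_O_iff_mem_I).1 hx) hy
  rwa [zero_add] at this

theorem red_eq_zero_iff_mem_I {x : F} (hx : x ∈ v.O) : v.red x = 0 ↔ x ∈ v.I 1 := by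
  rw [v.red_eq_zero_iff hx, mem_I]
  exact or_congr_right (by omega)

theorem I_one_le_O {x : F} (hx : x ∈ v.I 1) : x ∈ v.O :=
  (v.mem_O_iff_mem_I).2 (v.I_mono (by norm_num) hx)

theorem red_congr {x y : F} (hy : y ∈ v.O) (h : x - y ∈ v.I 1) : x ∈ v.O ∧ v.red x = v.red y :=
  v.red_eq_of_sub hy (h.imp_right fun h => by omega)

theorem div_mem_I {N : ℤ} {x y : F} (hy : y ≠ 0) (hx : x ∈ v.I (N + v.ord y)) : x / y ∈ v.I N := by
  rcases eq_or_ne x 0 with rfl | hx0
  · left; simp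
  right
  rw [v.ord_div hx0 hy]
  have := hx.resolve_left hx0
  omega

theorem red_sum {ι : Type*} (s : Finset ι) (f : ι → F) (hf : ∀ i ∈ s, f i ∈ v.O) :
    v.red (∑ i ∈ s, f i) = ∑ i ∈ s, v.red (f i) := by
  classical
  induction s using Finset.induction_on with
  | empty => simp [v.red_zero]
  | insert a s ha ih =>
    rw [Finset.sum_insert ha, Finset.sum_insert ha, v.red_add (hf a (Finset.mem_insert_self a s))
      (sum_mem fun i hi => hf i (Finset.mem_insert_of_mem hi)),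
      ih fun i hi => hf i (Finset.mem_insert_of_mem hi)]

end Fermat.Agent.S36norm.DV

namespace Fermat.Agent.TriComp

open Fermat.Agent.TwoComp Fermat.Agent.S36norm

/-- A finite family of discrete valuations above a discretely valued field. -/
structure Pre (K F k L ι : Type*) [Field K] [Field F] [Algebra K F] [Field k] [Field L]
    [Algebra k L] where
  A : ValuationSubring K
  res : A →+* k
  res_surj : Function.Surjective res
  res_eq_zero_iff : ∀ a : A, res a = 0 ↔ (a : K) ∈ A.nonunits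
  /-- the uniformizer -/
  ϖ : K
  ϖ_ne_zero : ϖ ≠ 0
  mem_nonunits_iff : ∀ a : K, a ∈ A.nonunits ↔ a / ϖ ∈ A
  v : ι → DV F L
  mem_vO : ∀ i, ∀ a ∈ A, algebraMap K F a ∈ (v i).O
  red_algebraMap : ∀ i (a : A), (v i).red (algebraMap K F a) = algebraMap k L (res a)
  exists_unif : ∀ i, ∃ π : F, π ≠ 0 ∧ (v i).ord π = 1
  ne : ∀ i j, i ≠ j → (v i).O ≠ (v j).O

namespace Pre

variable {K F k L ι : Type*} [Field K] [Field F] [Algebra K F] [Field k] [Field L]
    [Algebra k L] (P : Pre K F k L ι)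

theorem ϖ_mem : P.ϖ ∈ P.A := by
  have h : P.ϖ ∈ P.A.nonunits := by
    rw [P.mem_nonunits_iff, div_self P.ϖ_ne_zero]; exact P.A.one_mem
  rw [ValuationSubring.mem_nonunits_iff] at h
  exact (P.A.valuation_le_one_iff _).1 h.le

theorem res_ϖ : P.res ⟨P.ϖ, P.ϖ_mem⟩ = 0 := by
  rw [P.res_eq_zero_iff]
  change P.ϖ ∈ P.A.nonunits
  rw [P.mem_nonunits_iff, div_self P.ϖ_ne_zero]; exact P.A.one_mem

theorem mapϖ_ne_zero : algebraMap K F P.ϖ ≠ 0 := (_root_.map_ne_zero _).2 P.ϖ_ne_zero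

theorem ord_ϖ_pos (i : ι) : 0 < (P.v i).ord (algebraMap K F P.ϖ) := by
  have h1 := P.red_algebraMap i ⟨P.ϖ, P.ϖ_mem⟩
  rw [P.res_ϖ, map_zero] at h1
  exact (((P.v i).red_eq_zero_iff (P.mem_vO i _ P.ϖ_mem)).1 h1).resolve_left P.mapϖ_ne_zero

theorem mem_vO_iff (i : ι) (a : K) : algebraMap K F a ∈ (P.v i).O ↔ a ∈ P.A := by
  refine ⟨fun h => ?_, P.mem_vO i a⟩
  by_contra ha
  have ha0 : a ≠ 0 := by rintro rfl; exact ha P.A.zero_mem
  have hinv : a⁻¹ ∈ P.A := (P.A.mem_or_inv_mem a).resolve_left ha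
  have hnon : a⁻¹ ∈ P.A.nonunits := by
    rw [ValuationSubring.mem_nonunits_iff, map_inv₀]
    apply inv_lt_one_of_one_lt₀
    rw [← not_le, ValuationSubring.valuation_le_one_iff]
    exact ha
  have h1 := P.red_algebraMap i ⟨a⁻¹, hinv⟩
  rw [(P.res_eq_zero_iff _).2 hnon, map_zero] at h1
  have hne : algebraMap K F a⁻¹ ≠ 0 := (_root_.map_ne_zero _).2 (inv_ne_zero ha0)
  have h2 := (((P.v i).red_eq_zero_iff (P.mem_vO i _ hinv)).1 h1).resolve_left hne
  have hne' : algebraMap K F a ≠ 0 := (_root_.map_ne_zero _).2 ha0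
  have h3 := ((P.v i).mem_iff _ hne').1 h
  rw [map_inv₀, (P.v i).ord_inv hne'] at h2
  omega

/-- The intersection of the valuation rings. -/
def O : Subring F := ⨅ i, (P.v i).O.toSubring

theorem mem_O {f : F} : f ∈ P.O ↔ ∀ i, f ∈ (P.v i).O := by
  rw [O, Subring.mem_iInf]; rfl

/-- The uniformizer as an element of `O`. -/
def ϖO : P.O := ⟨algebraMap K F P.ϖ, P.mem_O.2 fun i => P.mem_vO i _ P.ϖ_mem⟩

/-- The special fibre ring `O / ϖ O`. -/
def E : Type _ := P.O ⧸ Ideal.span {P.ϖO}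

noncomputable instance : CommRing P.E := inferInstanceAs (CommRing (P.O ⧸ Ideal.span {P.ϖO}))

/-- The reduction `O → E`. -/
noncomputable def ρ : P.O →+* P.E := Ideal.Quotient.mk (Ideal.span {P.ϖO})

theorem ρ_surj : Function.Surjective P.ρ := Ideal.Quotient.mk_surjective

theorem ρ_eq_zero_iff' (x : P.O) : P.ρ x = 0 ↔ ∃ y : P.O, x = P.ϖO * y := by
  change Ideal.Quotient.mk _ x = 0 ↔ _
  rw [Ideal.Quotient.eq_zero_iff_mem, Ideal.mem_span_singleton]
  rfl

theorem ρ_eq_zero_iff (x : P.O) : P.ρ x = 0 ↔ (x : F) / algebraMap K F P.ϖ ∈ P.O := by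
  rw [P.ρ_eq_zero_iff']
  constructor
  · rintro ⟨y, rfl⟩
    have : ((P.ϖO * y : P.O) : F) / algebraMap K F P.ϖ = y := by
      rw [Subring.coe_mul]
      change algebraMap K F P.ϖ * (y : F) / algebraMap K F P.ϖ = y
      field_simp [P.mapϖ_ne_zero]
    rw [this]; exact y.2
  · intro h
    refine ⟨⟨_, h⟩, Subtype.ext ?_⟩
    rw [Subring.coe_mul]
    change (x : F) = algebraMap K F P.ϖ * ((x : F) / algebraMap K F P.ϖ)
    field_simp [P.mapϖ_ne_zero]

/-- The structure map `A → O`. -/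
def algA' : P.A →+* P.O :=
  ((algebraMap K F).comp P.A.subtype).codRestrict P.O
    fun a => P.mem_O.2 fun i => P.mem_vO i _ a.2

theorem coe_algA' (a : P.A) : ((P.algA' a : P.O) : F) = algebraMap K F a := rfl

/-- The structure map `k → E`. -/
noncomputable def kE : k →+* P.E :=
  RingHom.liftOfSurjective P.res P.res_surj ⟨P.ρ.comp P.algA', by
    intro a ha
    rw [RingHom.mem_ker] at ha ⊢
    rw [P.res_eq_zero_iff, P.mem_nonunits_iff] at ha
    rw [RingHom.comp_apply, P.ρ_eq_zero_iff, P.coe_algA', ← map_div₀]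
    exact P.mem_O.2 fun i => P.mem_vO i _ ha⟩

theorem kE_res (a : P.A) : P.kE (P.res a) = P.ρ (P.algA' a) :=
  RingHom.liftOfRightInverse_comp_apply _ _ _ _ a

noncomputable instance : Algebra k P.E := P.kE.toAlgebra

theorem algebraMap_res (a : P.A) : algebraMap k P.E (P.res a) = P.ρ (P.algA' a) := P.kE_res a

/-- The `i`-th reduction, on `O`. -/
noncomputable def redO (i : ι) : P.O →+* L :=
  (P.v i).ρ.comp (Subring.inclusion (fun _ hf => P.mem_O.1 hf i : P.O ≤ (P.v i).O.toSubring))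

theorem redO_apply (i : ι) (x : P.O) : P.redO i x = (P.v i).red x := by
  rw [(P.v i).red_of_mem (P.mem_O.1 x.2 i)]; rfl

/-- The `i`-th reduction `E → L`. -/
noncomputable def redE (i : ι) : P.E →ₐ[k] L :=
  { Ideal.Quotient.lift (Ideal.span {P.ϖO}) (P.redO i) (by
      intro x hx
      rw [Ideal.mem_span_singleton] at hx
      obtain ⟨y, rfl⟩ := hx
      rw [map_mul, P.redO_apply i P.ϖO]
      have : (P.v i).red ((P.ϖO : P.O) : F) = 0 := by
        exact ((P.v i).red_eq_zero_iff (P.mem_vO i _ P.ϖ_mem)).2 (Or.inr (P.ord_ϖ_pos i))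
      rw [this, zero_mul]) with
    commutes' := by
      intro c
      obtain ⟨a, rfl⟩ := P.res_surj c
      rw [P.algebraMap_res]
      change P.redO i (P.algA' a) = _
      rw [P.redO_apply, P.coe_algA', P.red_algebraMap] }

theorem redE_ρ (i : ι) (x : P.O) : P.redE i (P.ρ x) = (P.v i).red x := P.redO_apply i x

/-- Units of `O`. -/
theorem inv_mem_O {x : F} (hx : ∀ i, x ∈ (P.v i).O ∧ (P.v i).red x ≠ 0) : x⁻¹ ∈ P.O := by
  rw [P.mem_O]
  intro i
  have hx0 : x ≠ 0 := by
    rintro rfl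
    exact (hx i).2 (P.v i).red_zero
  exact (P.v i).inv_mem_of_ord_eq_zero hx0 (((P.v i).red_ne_zero_iff hx0 (hx i).1).1 (hx i).2)

/-- The reduction ring data of helper8's machinery. -/
noncomputable def R [Nonempty ι] : RedRing K F k P.E where
  A := P.A
  res := P.res
  res_surj := P.res_surj
  res_eq_zero_iff := P.res_eq_zero_iff
  O := P.O
  ρ := P.ρ
  mem_O_iff a := by
    rw [P.mem_O]
    constructor
    · intro h
      exact (P.mem_vO_iff (Classical.arbitrary ι) a).1 (h _)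
    · exact fun h i => P.mem_vO i a h
  ρ_algebraMap a := (P.algebraMap_res a).symm
  inv_mem x hx := by
    apply P.inv_mem_O
    intro i
    refine ⟨P.mem_O.1 x.2 i, ?_⟩
    rw [← P.redE_ρ]
    exact (hx.map (P.redE i)).ne_zero

variable [Nonempty ι]

theorem generic {x : F} (hxO : x ∈ P.O) (htr : ∀ i, Transcendental k ((P.v i).red x)) :
    P.R.Generic ⟨x, hxO⟩ := by
  intro p hp
  obtain ⟨p', rfl⟩ := Polynomial.map_surjective P.res P.res_surj p
  have h1 : aeval (P.R.ρ ⟨x, hxO⟩) (p'.map P.res) = P.R.ρ (P.R.ev ⟨x, hxO⟩ p') :=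
    (P.R.ρ_ev _ _).symm
  rw [h1]
  set z : P.O := P.R.ev ⟨x, hxO⟩ p' with hz
  have h2 : ∀ i, (P.v i).red z ≠ 0 := by
    intro i
    rw [← P.redE_ρ]
    change P.redE i (P.R.ρ (P.R.ev ⟨x, hxO⟩ p')) ≠ 0
    rw [P.R.ρ_ev, ← aeval_algHom_apply]
    change aeval (P.redE i (P.ρ ⟨x, hxO⟩)) _ ≠ 0
    rw [P.redE_ρ]
    intro h
    exact hp ((transcendental_iff.1 (htr i)) _ h)
  have h3 : (z : F)⁻¹ ∈ P.O := P.inv_mem_O fun i => ⟨P.mem_O.1 z.2 i, h2 i⟩
  have hz0 : (z : F) ≠ 0 := by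
    intro h
    have i := Classical.arbitrary ι
    apply h2 i
    rw [h, (P.v i).red_zero]
  have h4 : z * ⟨_, h3⟩ = 1 := Subtype.ext (mul_inv_cancel₀ hz0)
  have h5 : P.ρ z * P.ρ ⟨_, h3⟩ = 1 := by
    rw [← map_mul, h4, map_one]
  exact IsUnit.of_mul_eq_one _ h5

theorem nontrivial : Nontrivial P.E := by
  have i := Classical.arbitrary ι
  exact (P.redE i).toRingHom.domain_nontrivial

/-- ramification indices. -/
noncomputable def e (i : ι) : ℕ := ((P.v i).ord (algebraMap K F P.ϖ)).toNat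

omit [Nonempty ι] in
theorem e_pos (i : ι) : 0 < P.e i := by
  have := P.ord_ϖ_pos i
  rw [e]; omega

omit [Nonempty ι] in
theorem coe_e (i : ι) : (P.e i : ℤ) = (P.v i).ord (algebraMap K F P.ϖ) := by
  have := P.ord_ϖ_pos i
  rw [e]; omega

/-- Value of polynomials with coefficients in `A` whose reduction vanishes. -/
theorem ev_mem_I {x : P.O} {p : P.A[X]} (hp : p.map P.res = 0) (i : ι) :
    ((P.R.ev x p : P.R.O) : F) ∈ (P.v i).I (P.e i) := by
  have h1 : P.R.ρ (P.R.ev x p) = 0 := by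
    rw [P.R.ρ_ev]
    change aeval _ (p.map P.res) = 0
    rw [hp, map_zero]
  have h2 := (P.ρ_eq_zero_iff' (P.R.ev x p)).1 h1
  obtain ⟨y, hy⟩ := h2
  have h3 : ((P.R.ev x p : P.R.O) : F) = (y : F) * algebraMap K F P.ϖ := by
    have := congrArg Subtype.val hy
    rw [mul_comm]
    exact this
  rw [h3]
  apply (P.v i).mul_O_mem_I (P.mem_O.1 y.2 i)
  right
  rw [P.coe_e]

theorem red_ev {x : P.O} (p : P.A[X]) (i : ι) :
    (P.v i).red ((P.R.ev x p : P.R.O) : F) = aeval ((P.v i).red x) (p.map P.res) := by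
  have h1 := P.redE_ρ i (P.R.ev x p)
  rw [← h1]
  change P.redE i (P.R.ρ (P.R.ev x p)) = _
  rw [P.R.ρ_ev, ← aeval_algHom_apply]
  change aeval (P.redE i (P.ρ x)) _ = _
  rw [P.redE_ρ]
  rfl

variable [Fintype ι]

theorem exists_indep {x : F} (hxO : x ∈ P.O) (m : ι → ℕ) (y : ∀ i, Fin (m i) → L)
    (hy : ∀ i l, ∃ b ∈ (P.v i).O, (P.v i).red b = y i l)
    (hind : ∀ i, IndepPoly (k := k) ((P.v i).red x) (y i)) :
    ∃ f : (Σ i, Fin (P.e i) × Fin (m i)) → P.R.O,
      RedRing.Indep (R := P.R) ⟨x, hxO⟩ f := by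
  classical
  choose b hbO hb using hy
  choose π hπ0 hπ using P.exists_unif
  have hπI : ∀ i (a : ℕ), π i ^ a ∈ (P.v i).I a := by
    intro i a
    right
    rw [(P.v i).ord_pow (hπ0 i), hπ, mul_one]
  have hπO : ∀ i (a : ℕ), π i ^ a ∈ (P.v i).O := by
    intro i a
    rw [(P.v i).mem_O_iff_mem_I]
    exact (P.v i).I_mono (by positivity) (hπI i a)
  set N : ℤ := ∑ i, (P.e i : ℤ) with hN
  have hNle : ∀ i, (P.e i : ℤ) ≤ N := fun i =>
    Finset.single_le_sum (f := fun i => (P.e i : ℤ)) (fun j _ => by positivity) (Finset.mem_univ i)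
  have happ : ∀ s : (Σ i, Fin (P.e i) × Fin (m i)), ∃ c : F, ∀ j,
      c - (if s.1 = j then π s.1 ^ (s.2.1 : ℕ) * b s.1 s.2.2 else 0) ∈ (P.v j).I (P.e j) := by
    intro s
    obtain ⟨c, hc⟩ := DV.exists_approx P.v P.exists_unif P.ne
      (fun j => if s.1 = j then π s.1 ^ (s.2.1 : ℕ) * b s.1 s.2.2 else 0) N
    refine ⟨c, fun j => ?_⟩
    rcases hc j with h | h
    · exact Or.inl h
    · exact Or.inr ((hNle j).trans h.le)
  choose c hc using happ
  have htarget : ∀ (s : Σ i, Fin (P.e i) × Fin (m i)) (j : ι),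
      (if s.1 = j then π s.1 ^ (s.2.1 : ℕ) * b s.1 s.2.2 else 0) ∈ (P.v j).O := by
    intro s j
    split_ifs with h
    · subst h
      exact mul_mem (hπO _ _) (hbO _ _)
    · exact zero_mem _
  have hcO : ∀ s, c s ∈ P.O := by
    intro s
    rw [P.mem_O]
    intro j
    have h1 := hc s j
    have h2 : c s - (if s.1 = j then π s.1 ^ (s.2.1 : ℕ) * b s.1 s.2.2 else 0) ∈ (P.v j).O := by
      rw [(P.v j).mem_O_iff_mem_I]
      exact (P.v j).I_mono (by positivity) h1
    have h3 := add_mem h2 (htarget s j)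
    rwa [sub_add_cancel] at h3
  refine ⟨fun s => ⟨c s, hcO s⟩, ?_⟩
  intro p hp
  choose p' hp' using fun s => Polynomial.map_surjective P.res P.res_surj (p s)
  set X : P.O := ⟨x, hxO⟩ with hX
  have h1 : P.R.ρ (∑ s, P.R.ev X (p' s) * (⟨c s, hcO s⟩ : P.R.O)) = 0 := by
    rw [map_sum, ← hp]
    refine Finset.sum_congr rfl fun s _ => ?_
    rw [map_mul, P.R.ρ_ev]
    congr 2
    exact hp' s
  obtain ⟨w, hw⟩ := (P.ρ_eq_zero_iff' _).1 h1
  have h2 : ∑ s, ((P.R.ev X (p' s) : P.R.O) : F) * c s = (w : F) * algebraMap K F P.ϖ := by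
    have h3 := congrArg Subtype.val hw
    rw [mul_comm]
    refine Eq.trans ?_ h3
    have h4 := map_sum P.R.O.subtype (fun s => P.R.ev X (p' s) * (⟨c s, hcO s⟩ : P.R.O))
      Finset.univ
    exact h4.symm
  -- fix `i`
  have key : ∀ i (a : ℕ) (ha : a < P.e i), ∀ l, p ⟨i, ⟨a, ha⟩, l⟩ = 0 := by
    intro i a
    induction a using Nat.strong_induction_on with
    | _ a ih =>
      intro ha
      -- the sum at `i`
      have h3 : ∑ s, ((P.R.ev X (p' s) : P.R.O) : F) * c s ∈ (P.v i).I (P.e i) := by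
        rw [h2]
        apply (P.v i).mul_O_mem_I (P.mem_O.1 w.2 i)
        right
        rw [P.coe_e]
      have hevO : ∀ s, ((P.R.ev X (p' s) : P.R.O) : F) ∈ (P.v i).O :=
        fun s => P.mem_O.1 (P.R.ev X (p' s)).2 i
      have h4 : ∑ s : (Σ i, Fin (P.e i) × Fin (m i)), ((P.R.ev X (p' s) : P.R.O) : F) *
          (if s.1 = i then π s.1 ^ (s.2.1 : ℕ) * b s.1 s.2.2 else 0) ∈ (P.v i).I (P.e i) := by
        have h5 : ∑ s : (Σ i, Fin (P.e i) × Fin (m i)), ((P.R.ev X (p' s) : P.R.O) : F) *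
            (if s.1 = i then π s.1 ^ (s.2.1 : ℕ) * b s.1 s.2.2 else 0) =
            ∑ s, ((P.R.ev X (p' s) : P.R.O) : F) * c s -
            ∑ s : (Σ i, Fin (P.e i) × Fin (m i)), ((P.R.ev X (p' s) : P.R.O) : F) *
              (c s - (if s.1 = i then π s.1 ^ (s.2.1 : ℕ) * b s.1 s.2.2 else 0)) := by
          rw [← Finset.sum_sub_distrib]
          exact Finset.sum_congr rfl fun s _ => by ring
        rw [h5]
        exact sub_mem h3 (sum_mem fun s _ => (P.v i).mul_O_mem_I (hevO s) (hc s i))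
      rw [Fintype.sum_sigma] at h4
      have h6 : ∀ j : ι, j ≠ i → ∑ al : Fin (P.e j) × Fin (m j),
          ((P.R.ev X (p' ⟨j, al⟩) : P.R.O) : F) *
          (if j = i then π j ^ (al.1 : ℕ) * b j al.2 else 0) = 0 := by
        intro j hj
        exact Finset.sum_eq_zero fun al _ => by rw [if_neg hj, mul_zero]
      rw [Finset.sum_eq_single i (fun j _ hj => h6 j hj) (fun h => absurd (Finset.mem_univ i) h)]
        at h4
      simp only [if_true] at h4
      rw [Fintype.sum_prod_type] at h4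
      -- separate the `a`-th term
      have h7 : ∀ a' : Fin (P.e i), a' ≠ ⟨a, ha⟩ → ∑ l, ((P.R.ev X (p' ⟨i, a', l⟩) : P.R.O) : F) *
          (π i ^ (a' : ℕ) * b i l) ∈ (P.v i).I (a + 1) := by
        intro a' ha'
        refine sum_mem fun l _ => ?_
        rcases lt_trichotomy (a' : ℕ) a with hlt | heq | hgt
        · have h8 : (p' ⟨i, a', l⟩).map P.res = 0 := by
            rw [hp']
            exact ih a' hlt a'.2 l
          have h9 := P.ev_mem_I (x := X) h8 i
          have h10 : (π i ^ (a' : ℕ) * b i l) ∈ (P.v i).O := mul_mem (hπO _ _) (hbO _ _)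
          rw [mul_comm]
          exact (P.v i).I_mono (by omega) ((P.v i).mul_O_mem_I h10 h9)
        · exact absurd (Fin.ext heq) ha'
        · rw [mul_left_comm]
          have h10 : ((P.R.ev X (p' ⟨i, a', l⟩) : P.R.O) : F) * b i l ∈ (P.v i).O :=
            mul_mem (hevO _) (hbO _ _)
          rw [mul_comm]
          exact (P.v i).I_mono (by omega) ((P.v i).mul_O_mem_I h10 (hπI i a'))
      have h8 : ∑ l, ((P.R.ev X (p' ⟨i, ⟨a, ha⟩, l⟩) : P.R.O) : F) * (π i ^ a * b i l) ∈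
          (P.v i).I (a + 1) := by
        have h9 := Finset.add_sum_erase Finset.univ
          (fun a' : Fin (P.e i) => ∑ l, ((P.R.ev X (p' ⟨i, a', l⟩) : P.R.O) : F) *
          (π i ^ (a' : ℕ) * b i l)) (Finset.mem_univ ⟨a, ha⟩)
        have h10 : ∑ a' ∈ Finset.univ.erase (⟨a, ha⟩ : Fin (P.e i)),
            ∑ l, ((P.R.ev X (p' ⟨i, a', l⟩) : P.R.O) : F) * (π i ^ (a' : ℕ) * b i l) ∈
            (P.v i).I (a + 1) :=
          sum_mem fun a' ha' => h7 a' (Finset.ne_of_mem_erase ha')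
        have h11 := sub_mem ((P.v i).I_mono (by omega) h4 : _ ∈ (P.v i).I ((a : ℤ) + 1)) h10
        rw [← h9, add_sub_cancel_right] at h11
        exact h11
      have h9 : ∑ l, ((P.R.ev X (p' ⟨i, ⟨a, ha⟩, l⟩) : P.R.O) : F) * b i l ∈ (P.v i).I 1 := by
        have h10 : ∑ l, ((P.R.ev X (p' ⟨i, ⟨a, ha⟩, l⟩) : P.R.O) : F) * b i l =
            (∑ l, ((P.R.ev X (p' ⟨i, ⟨a, ha⟩, l⟩) : P.R.O) : F) * (π i ^ a * b i l)) / π i ^ a := by
          rw [eq_div_iff (pow_ne_zero _ (hπ0 i)), Finset.sum_mul]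
          exact Finset.sum_congr rfl fun l _ => by ring
        rw [h10]
        apply (P.v i).div_mem_I (pow_ne_zero _ (hπ0 i))
        rw [(P.v i).ord_pow (hπ0 i), hπ, mul_one, add_comm]
        exact h8
      have hsO : ∀ l, ((P.R.ev X (p' ⟨i, ⟨a, ha⟩, l⟩) : P.R.O) : F) * b i l ∈ (P.v i).O :=
        fun l => mul_mem (hevO _) (hbO _ _)
      have h10 := ((P.v i).red_eq_zero_iff_mem_I (sum_mem fun l _ => hsO l)).2 h9
      rw [(P.v i).red_sum _ _ fun l _ => hsO l] at h10
      have h11 := hind i (fun l => p ⟨i, ⟨a, ha⟩, l⟩) (by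
        rw [← h10]
        refine Finset.sum_congr rfl fun l _ => ?_
        rw [(P.v i).red_mul (hevO _) (hbO _ _), hb, P.red_ev, hp'])
      exact h11
  rintro ⟨i, ⟨a, ha⟩, l⟩
  exact key i a ha l

/-- The degree is at least the sum of the local contributions. -/
theorem sum_le_finrank {x : F} (hxO : x ∈ P.O) (htr : ∀ i, Transcendental k ((P.v i).red x))
    (hpos : 0 < finrank K⟮x⟯ F) (m : ι → ℕ) (y : ∀ i, Fin (m i) → L)
    (hy : ∀ i l, ∃ b ∈ (P.v i).O, (P.v i).red b = y i l)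
    (hind : ∀ i, IndepPoly (k := k) ((P.v i).red x) (y i)) :
    ∑ i, P.e i * m i ≤ finrank K⟮x⟯ F := by
  have : Nontrivial P.E := P.nontrivial
  obtain ⟨f, hf⟩ := P.exists_indep hxO m y hy hind
  have : FiniteDimensional K⟮x⟯ F := FiniteDimensional.of_finrank_pos hpos
  have h1 := (hf.linearIndependent (P.generic hxO htr)).fintype_card_le_finrank
  rw [Fintype.card_sigma] at h1
  simpa only [Fintype.card_prod, Fintype.card_fin] using h1

end Pre

/-! ### The exhaustion data -/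

/-- Exhaustion data: `F' ⊆ L` is a subfield, contained in the image of every reduction, `x` a
generic element, with `[F : K(x)] ≤ ∑ e_i f_i`. -/
structure Exh {K F k L ι : Type*} [Field K] [Field F] [Algebra K F] [Field k] [Field L]
    [Algebra k L] [Fintype ι] (P : Pre K F k L ι) (F' : IntermediateField k L) where
  x : F
  x_ne_zero : x ≠ 0
  ord_x : ∀ i, (P.v i).ord x = 0
  t : ι → F'
  red_x : ∀ i, (P.v i).red x = t i
  tr : ∀ i, Transcendental k (t i)
  surj : ∀ i (z : F'), ∃ f ∈ (P.v i).O, (P.v i).red f = z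
  m : ι → ℕ
  y : ∀ i, Fin (m i) → F'
  ind : ∀ i, IndepPoly (k := k) (t i) (y i)
  finrank_pos : 0 < finrank K⟮x⟯ F
  finrank_le : finrank K⟮x⟯ F ≤ ∑ i, P.e i * m i

namespace Exh

variable {K F k L ι : Type*} [Field K] [Field F] [Algebra K F] [Field k] [Field L]
    [Algebra k L] [Fintype ι] [Nonempty ι] {P : Pre K F k L ι} {F' : IntermediateField k L}
    (H : Exh P F')

include H

omit [Nonempty ι] in
theorem x_mem : H.x ∈ P.O :=
  P.mem_O.2 fun i => (P.v i).mem_of_ord_eq_zero H.x_ne_zero (H.ord_x i)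

omit [Nonempty ι] in
theorem tr' (i : ι) : Transcendental k ((P.v i).red H.x) := by
  rw [H.red_x i]
  exact (transcendental_algebraMap_iff (R := k) (S := F') (A := L)
    (algebraMap F' L).injective).2 (H.tr i)

omit [Nonempty ι] in
theorem ind' (i : ι) : IndepPoly (k := k) ((P.v i).red H.x) (fun l => (H.y i l : L)) := by
  rw [H.red_x i]
  exact (H.ind i).map F'.val

theorem generic : P.R.Generic ⟨H.x, H.x_mem⟩ := P.generic H.x_mem H.tr'

/-- The degree. -/
theorem finrank_eq : finrank K⟮H.x⟯ F = ∑ i, P.e i * H.m i := by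
  apply le_antisymm H.finrank_le
  exact P.sum_le_finrank H.x_mem H.tr' H.finrank_pos H.m (fun i l => (H.y i l : L))
    (fun i l => H.surj i (H.y i l)) H.ind'

/-- **The residue fields are exactly `F'`.** -/
theorem red_mem (i : ι) {f : F} (hf : f ∈ (P.v i).O) : (P.v i).red f ∈ F' := by
  classical
  by_contra hz
  set z := (P.v i).red f with hzdef
  have hex : ∀ j, ∃ (m' : ℕ) (y' : Fin m' → L),
      (∀ l, ∃ b ∈ (P.v j).O, (P.v j).red b = y' l) ∧
      IndepPoly (k := k) ((P.v j).red H.x) y' ∧ m' = if j = i then H.m i + 1 else H.m j := by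
    intro j
    by_cases h : j = i
    · subst h
      refine ⟨H.m j + 1, Fin.cons z (fun l => (H.y j l : L)), ?_, ?_, (if_pos rfl).symm⟩
      · intro l
        refine Fin.cases ?_ (fun l' => ?_) l
        · exact ⟨f, hf, rfl⟩
        · exact H.surj j (H.y j l')
      · exact (H.ind' j).cons (H.tr' j) F' (by rw [H.red_x j]; exact SetLike.coe_mem _)
          (fun l => SetLike.coe_mem _) hz
    · exact ⟨H.m j, fun l => (H.y j l : L), fun l => H.surj j _, H.ind' j, (if_neg h).symm⟩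
  choose m' y' hy1 hy2 hy3 using hex
  have h1 := P.sum_le_finrank H.x_mem H.tr' H.finrank_pos m' y' hy1 hy2
  simp only [hy3] at h1
  rw [H.finrank_eq] at h1
  have h2 : ∑ j, P.e j * (if j = i then H.m i + 1 else H.m j) = ∑ j, P.e j * H.m j + P.e i := by
    rw [← Finset.add_sum_erase _ _ (Finset.mem_univ i), if_pos rfl,
      ← Finset.add_sum_erase Finset.univ (fun j => P.e j * H.m j) (Finset.mem_univ i),
      Finset.sum_congr rfl (g := fun j => P.e j * H.m j) (fun j hj => by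
        rw [if_neg (Finset.ne_of_mem_erase hj)])]
    ring
  rw [h2] at h1
  have := P.e_pos i
  omega

/-- The valuations with reductions in `F'`. -/
noncomputable def v' (i : ι) : DV F F' where
  O := (P.v i).O
  ρ := (P.v i).ρ.codRestrict F'.toSubfield (fun f => by
    have := H.red_mem i f.2
    rwa [(P.v i).red_of_mem f.2] at this)
  ρ_eq_zero_iff f := by
    rw [← (P.v i).ρ_eq_zero_iff]
    constructor
    · intro h; exact congrArg Subtype.val h
    · intro h; exact Subtype.ext h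
  ord := (P.v i).ord
  ord_mul := (P.v i).ord_mul
  mem_iff := (P.v i).mem_iff

theorem v'_O (i : ι) : (H.v' i).O = (P.v i).O := rfl

theorem v'_ord (i : ι) (f : F) : (H.v' i).ord f = (P.v i).ord f := rfl

theorem coe_v'_red (i : ι) (f : F) : ((H.v' i).red f : L) = (P.v i).red f := by
  by_cases hf : f ∈ (P.v i).O
  · rw [(H.v' i).red_of_mem hf, (P.v i).red_of_mem hf]; rfl
  · have hf' : f ∉ (H.v' i).O := hf
    rw [DV.red, dif_neg hf', DV.red, dif_neg hf]; rfl

theorem v'_red_x (i : ι) : (H.v' i).red H.x = H.t i :=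
  Subtype.ext (by rw [H.coe_v'_red, H.red_x])

theorem v'_red_algebraMap (i : ι) (a : P.R.A) :
    (H.v' i).red (algebraMap K F a) = algebraMap k F' (P.R.res a) :=
  Subtype.ext (by rw [H.coe_v'_red]; exact P.red_algebraMap i a)

theorem mem_O_iff (f : F) : f ∈ P.R.O ↔ ∀ i, f ∈ (H.v' i).O := P.mem_O

/-- The reductions `E → F'`. -/
noncomputable def redE' (i : ι) : P.E →ₐ[k] F' :=
  (P.redE i).codRestrict F'.toSubalgebra (fun e => by
    obtain ⟨f, rfl⟩ := P.ρ_surj e
    rw [P.redE_ρ]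
    exact H.red_mem i (P.mem_O.1 f.2 i))

theorem redE'_ρ (i : ι) (f : P.R.O) : H.redE' i (P.R.ρ f) = (H.v' i).red f := by
  apply Subtype.ext
  rw [H.coe_v'_red]
  exact P.redE_ρ i f

/-- **Joint surjectivity.** -/
theorem surj_joint (a : ι → F') : ∃ f ∈ P.R.O, ∀ i, (H.v' i).red f = a i := by
  choose b hbO hb using fun i => H.surj i (a i)
  obtain ⟨f, hf⟩ := DV.exists_approx P.v P.exists_unif P.ne b 0
  have h1 : ∀ i, f ∈ (P.v i).O ∧ (P.v i).red f = (P.v i).red (b i) := fun i =>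
    (P.v i).red_congr (hbO i) ((hf i).imp_right fun h => by omega)
  refine ⟨f, P.mem_O.2 fun i => (h1 i).1, fun i => Subtype.ext ?_⟩
  rw [H.coe_v'_red, (h1 i).2, hb]

theorem exists_indep : ∃ f : (Σ i, Fin (P.e i) × Fin (H.m i)) → P.R.O,
    RedRing.Indep (R := P.R) ⟨H.x, H.x_mem⟩ f :=
  P.exists_indep H.x_mem H.m (fun i l => (H.y i l : L)) (fun i l => H.surj i (H.y i l)) H.ind'

theorem card_eq : Fintype.card (Σ i, Fin (P.e i) × Fin (H.m i)) = finrank K⟮H.x⟯ F := by
  rw [H.finrank_eq, Fintype.card_sigma]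
  simp only [Fintype.card_prod, Fintype.card_fin]

theorem nonempty_index : Nonempty (Σ i, Fin (P.e i) × Fin (H.m i)) := by
  rw [← Fintype.card_pos_iff, H.card_eq]
  exact H.finrank_pos

/-- **Orthonormal bases.** -/
theorem ortho : P.R.Ortho := by
  have := P.nontrivial
  have := H.nonempty_index
  obtain ⟨f, hf⟩ := H.exists_indep
  exact hf.ortho H.generic H.card_eq

/-- **Integrality over `K[x]` descends to the reductions.** -/
theorem isIntegral_red {f : F} (hf : f ∈ P.R.O) (hint : IsIntegral (Algebra.adjoin K {H.x}) f)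
    (i : ι) : IsIntegral (Algebra.adjoin k {(H.v' i).red H.x}) ((H.v' i).red f) := by
  have := P.nontrivial
  have := H.nonempty_index
  obtain ⟨g, hg⟩ := H.exists_indep
  have h1 := hg.isIntegral_ρ H.generic H.card_eq ⟨f, hf⟩ hint
  have h2 : ∀ z : Algebra.adjoin k {P.R.ρ ⟨H.x, H.x_mem⟩},
      H.redE' i (z : P.E) ∈ Algebra.adjoin k {(H.v' i).red H.x} := by
    rintro ⟨z, hz⟩
    have h3 : (Algebra.adjoin k {P.R.ρ ⟨H.x, H.x_mem⟩}).map (H.redE' i) =
        Algebra.adjoin k {(H.v' i).red H.x} := by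
      rw [AlgHom.map_adjoin, Set.image_singleton, H.redE'_ρ]
    rw [← h3]
    exact ⟨z, hz, rfl⟩
  let φ : Algebra.adjoin k {P.R.ρ ⟨H.x, H.x_mem⟩} →ₐ[k] Algebra.adjoin k {(H.v' i).red H.x} :=
    ((H.redE' i).comp (Algebra.adjoin k {P.R.ρ ⟨H.x, H.x_mem⟩}).val).codRestrict _ h2
  have h4 := IsIntegral.map_of_comp_eq
    (φ : Algebra.adjoin k {P.R.ρ ⟨H.x, H.x_mem⟩} →+* Algebra.adjoin k {(H.v' i).red H.x})
    (H.redE' i : P.E →+* F') (RingHom.ext fun z => rfl) h1
  have h5 : (H.redE' i : P.E →+* F') (P.R.ρ ⟨f, hf⟩) = (H.v' i).red f := H.redE'_ρ i ⟨f, hf⟩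
  rwa [h5] at h4

/-- The same data for `x⁻¹`. -/
noncomputable def inv : Exh P F' where
  x := H.x⁻¹
  x_ne_zero := inv_ne_zero H.x_ne_zero
  ord_x i := by rw [(P.v i).ord_inv H.x_ne_zero, H.ord_x, neg_zero]
  t i := (H.t i)⁻¹
  red_x i := by
    rw [(P.v i).red_inv H.x_ne_zero (H.ord_x i), H.red_x]; rfl
  tr i := by
    intro h
    apply H.tr i
    have := IsAlgebraic.inv h
    rwa [inv_inv] at this
  surj := H.surj
  m := H.m
  y := H.y
  ind i := (H.ind i).inv (fun h => (H.tr i) (by rw [h]; exact isAlgebraic_zero))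
  finrank_pos := by
    have h : K⟮H.x⁻¹⟯ = K⟮H.x⟯ := adjoin_inv_eq
    rw [h]; exact H.finrank_pos
  finrank_le := by
    have h : K⟮H.x⁻¹⟯ = K⟮H.x⟯ := adjoin_inv_eq
    rw [h]; exact H.finrank_le
where
  adjoin_inv_eq : K⟮H.x⁻¹⟯ = K⟮H.x⟯ := by
    apply le_antisymm
    · rw [IntermediateField.adjoin_simple_le_iff]
      exact (K⟮H.x⟯).inv_mem (IntermediateField.mem_adjoin_simple_self K H.x)
    · rw [IntermediateField.adjoin_simple_le_iff]
      have := (K⟮H.x⁻¹⟯).inv_mem (IntermediateField.mem_adjoin_simple_self K H.x⁻¹)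
      rwa [inv_inv] at this

theorem isIntegral_red_inv {f : F} (hf : f ∈ P.R.O)
    (hint : IsIntegral (Algebra.adjoin K {H.x⁻¹}) f) (i : ι) :
    IsIntegral (Algebra.adjoin k {(H.v' i).red H.x⁻¹}) ((H.v' i).red f) := by
  have h1 : (H.v' i).red f = (H.inv.v' i).red f :=
    Subtype.ext (by rw [H.coe_v'_red, H.inv.coe_v'_red])
  have h2 : (H.v' i).red H.x⁻¹ = (H.inv.v' i).red H.x⁻¹ :=
    Subtype.ext (by rw [H.coe_v'_red, H.inv.coe_v'_red])
  rw [h1, h2]
  exact H.inv.isIntegral_red hf hint i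

end Exh

end Fermat.Agent.TriComp
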