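import Fermat.Agent.TriComp.Defs

/-!
# Extra modular input for the two charts `K[j]` and `K[1/j]`
-/

set_option autoImplicit false

open Module Polynomial
open scoped IntermediateField

namespace Fermat.Agent.TriComp

open Fermat.Agent.TwoComp Fermat.Agent.S36norm

/-- Extra modular input (liftings from level `m` and behaviour of the units at the cusps). -/
structure Data.Glue {K F k E F' : Type*} [Field K] [Field F] [Algebra K F] [Field k] [CommRing E]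
    [Algebra k E] [Field F'] [Algebra k F'] {q : ℕ} (D : Data K F k E F' q) where
  /-- `f = α (lift of g)`, good reduction at level `m` -/
  al : ∀ g : F', IsIntegral (Algebra.adjoin k {D.jt}) g → ∃ f ∈ D.R.O,
    IsIntegral (Algebra.adjoin K {D.j}) f ∧ (D.v 0).red f = g ∧ (D.v 1).red f = g
  al_inv : ∀ g : F', IsIntegral (Algebra.adjoin k {D.jt⁻¹}) g → ∃ f ∈ D.R.O,
    IsIntegral (Algebra.adjoin K {D.j⁻¹}) f ∧ (D.v 0).red f = g ∧ (D.v 1).red f = g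
  /-- `f = (lift of g)(t^(q²))` -/
  be : ∀ g : F', IsIntegral (Algebra.adjoin k {D.jt}) g → ∃ f ∈ D.R.O,
    IsIntegral (Algebra.adjoin K {D.j}) f ∧ (D.v 1).red f = g ∧ (D.v 2).red f = g
  /-- `j(q²τ)` -/
  jq2 : F
  jq2_ne_zero : jq2 ≠ 0
  ord_jq2 : ∀ i, (D.v i).ord jq2 = 0
  red_jq2 : (D.v 2).red jq2 = D.jt
  be_inv : ∀ g : F', IsIntegral (Algebra.adjoin k {D.jt⁻¹}) g → ∃ f ∈ D.R.O,
    IsIntegral (Algebra.adjoin K {jq2⁻¹}) f ∧ (D.v 2).red f = g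
  red_q_div_u₂ : (D.v 2).red ((q : F) ^ 12 / D.u₂) = aeval D.jt D.Pu
  /-- orders at the cusps -/
  u₁_inv : IsIntegral (Algebra.adjoin K {D.j⁻¹}) (D.u₁ * D.j⁻¹ ^ (q - 1))
  u₂_inv : IsIntegral (Algebra.adjoin K {D.j⁻¹}) (D.u₂ * D.j⁻¹ ^ (q ^ 2 - q))
  /-- `q^24 (E₄(q²τ)/E₄(τ))³`, no zero or pole at the cusps -/
  Y_int : IsIntegral (Algebra.adjoin K {D.j⁻¹}) ((q : F) ^ 24 / (D.u₁ * D.u₂) * jq2 / D.j)
  /-- `q^24 Δ(q²τ)/E₄(τ)³` -/
  W_int : IsIntegral (Algebra.adjoin K {D.j⁻¹}) ((q : F) ^ 24 / (D.u₁ * D.u₂) / D.j)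

end Fermat.Agent.TriComp
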