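import Fermat.Agent.QX.Divisors
import Fermat.Agent.FF.PolyClosure

/-!
# The integral closure of `K[z]` in a function field
-/

set_option autoImplicit false

open Module Polynomial AlgebraicCurve
open scoped IntermediateField

namespace Fermat.Agent.TriComp

open Fermat.Agent.QX Fermat.Agent.FF

section IC

variable {K F : Type*} [Field K] [Field F] [Algebra K F]

variable (K) in
/-- The integral closure of `K[z]` in `F`. -/
def ic (z : F) : Subalgebra K F :=
  (integralClosure (Algebra.adjoin K {z}) F).restrictScalars K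

theorem mem_ic {z x : F} : x ∈ ic K z ↔ IsIntegral (Algebra.adjoin K {z}) x := Iff.rfl

theorem self_mem_ic (z : F) : z ∈ ic K z :=
  mem_ic.mpr (isIntegral_algebraMap
    (x := (⟨z, Algebra.self_mem_adjoin_singleton K z⟩ : Algebra.adjoin K {z})))

theorem aeval_mem_ic (z : F) (p : K[X]) : aeval z p ∈ ic K z := by
  have := (aeval (R := K) (⟨z, self_mem_ic z⟩ : ic K z) p).2
  rwa [← Subalgebra.coe_val, ← Polynomial.aeval_algHom_apply] at this

theorem mem_ic_of_pow {z x : F} {n : ℕ} (hn : 0 < n) (h : x ^ n ∈ ic K z) : x ∈ ic K z :=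
  mem_ic.mpr (IsIntegral.of_pow hn (mem_ic.mp h))

/-- elements of `ic K z` are roots of monic polynomials with coefficients in `K[X]`. -/
theorem exists_lift_of_mem_ic {z x : F} (hx : x ∈ ic K z) :
    ∃ p : K[X][X], p.Monic ∧ eval₂ ((aeval (R := K) z).toRingHom) x p = 0 := by
  obtain ⟨p, hp, hpx⟩ := mem_ic.mp hx
  let ψ : K[X] →+* Algebra.adjoin K {z} :=
    (aeval (R := K) (⟨z, Algebra.self_mem_adjoin_singleton K z⟩ : Algebra.adjoin K {z})).toRingHom
  have hψ : Function.Surjective ψ := by
    rintro ⟨w, hw⟩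
    rw [Algebra.adjoin_singleton_eq_range_aeval] at hw
    obtain ⟨g, hg⟩ := hw
    refine ⟨g, Subtype.ext (Eq.trans ?_ hg)⟩
    change ((Algebra.adjoin K {z}).val (aeval _ g)) = _
    rw [← Polynomial.aeval_algHom_apply]
    rfl
  obtain ⟨p', hp'p, -, hp'⟩ :=
    Polynomial.lifts_and_natDegree_eq_and_monic (f := ψ)
      ((Polynomial.lifts_iff_coeff_lifts _).mpr fun n => hψ _) hp
  refine ⟨p', hp', ?_⟩
  rw [← hp'p, eval₂_map] at hpx
  have h2 : (aeval (R := K) z).toRingHom = (algebraMap (Algebra.adjoin K {z}) F).comp ψ := by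
    apply Polynomial.ringHom_ext
    · intro a
      simp only [ψ, AlgHom.toRingHom_eq_coe, RingHom.coe_comp, RingHom.coe_coe,
        Function.comp_apply, aeval_C]
      rfl
    · simp only [ψ, AlgHom.toRingHom_eq_coe, RingHom.coe_comp, RingHom.coe_coe,
        Function.comp_apply, aeval_X]
      rfl
  rw [h2]
  exact hpx

theorem ic_isIntegral (z : F) :
    ((aeval (R := K) (⟨z, self_mem_ic z⟩ : ic K z)).toRingHom).IsIntegral := by
  intro x
  obtain ⟨p, hp, hpx⟩ := exists_lift_of_mem_ic x.2
  refine ⟨p, hp, ?_⟩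
  apply Subtype.ext
  have h1 : (Subalgebra.val (ic K z)).toRingHom
      (eval₂ ((aeval (R := K) (⟨z, self_mem_ic z⟩ : ic K z)).toRingHom) x p) = 0 := by
    rw [Polynomial.hom_eval₂]
    have h2 : (Subalgebra.val (ic K z)).toRingHom.comp
        ((aeval (R := K) (⟨z, self_mem_ic z⟩ : ic K z)).toRingHom)
        = (aeval (R := K) z).toRingHom := by
      apply Polynomial.ringHom_ext
      · intro a
        simp only [AlgHom.toRingHom_eq_coe, RingHom.coe_comp, RingHom.coe_coe,
          Function.comp_apply, aeval_C]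
        rfl
      · simp only [AlgHom.toRingHom_eq_coe, RingHom.coe_comp, RingHom.coe_coe,
          Function.comp_apply, aeval_X]
        rfl
    rw [h2]
    exact hpx
  exact h1

/-- the residue fields of the integral closure of `k[z]` are `k` (`k` algebraically closed). -/
theorem ic_residue [IsAlgClosed K] (z : F) (P : Ideal (ic K z)) (hP : P.IsMaximal) :
    Function.Surjective (algebraMap K (ic K z ⧸ P)) := by
  let φ : K[X] →+* ic K z := (aeval (R := K) (⟨z, self_mem_ic z⟩ : ic K z)).toRingHom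
  have hφ : φ.IsIntegral := ic_isIntegral z
  have hfield : IsField (ic K z ⧸ P) := (Ideal.Quotient.maximal_ideal_iff_isField_quotient P).mp hP
  let _ : Field (ic K z ⧸ P) := hfield.toField
  let g : K[X] →+* (ic K z ⧸ P) := (Ideal.Quotient.mk P).comp φ
  have hg : g.IsIntegral := hφ.trans _ _ (RingHom.isIntegral_of_surjective _
    Ideal.Quotient.mk_surjective)
  -- the image of `K[X]` is a field, finite over `K`
  have hmax : (RingHom.ker g).IsMaximal := by
    have h3 : (RingHom.ker g) = (⊥ : Ideal (ic K z ⧸ P)).comap g := rfl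
    rw [h3]
    have : (⊥ : Ideal (ic K z ⧸ P)).IsMaximal := Ideal.bot_isMaximal
    exact Ideal.isMaximal_comap_of_isIntegral_of_isMaximal' g hg ⊥
  let L := K[X] ⧸ RingHom.ker g
  let _ : Field L := Ideal.Quotient.field (RingHom.ker g)
  have h4 : ((Ideal.Quotient.mk (RingHom.ker g)).comp (Polynomial.C : K →+* K[X])).IsIntegral :=
    Polynomial.comp_C_integral_of_surjective_of_isJacobsonRing _ Ideal.Quotient.mk_surjective
  have h5 : (g.comp (Polynomial.C : K →+* K[X])).IsIntegral := by
    have h6 : g = (RingHom.kerLift g).comp (Ideal.Quotient.mk (RingHom.ker g)) := by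
      ext x
      · rfl
      · rfl
    have h7 : (RingHom.kerLift g).IsIntegral := by
      intro x
      obtain ⟨p, hp, hpx⟩ := hg x
      refine ⟨p.map (Ideal.Quotient.mk (RingHom.ker g)), hp.map _, ?_⟩
      rw [eval₂_map, ← h6]
      exact hpx
    rw [h6, RingHom.comp_assoc]
    exact h4.trans _ _ h7
  have h8 : Algebra.IsIntegral K (ic K z ⧸ P) := by
    constructor
    intro x
    have h9 : algebraMap K (ic K z ⧸ P) = g.comp Polynomial.C := by
      ext a
      change _ = Ideal.Quotient.mk P (φ (Polynomial.C a))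
      simp only [φ, AlgHom.toRingHom_eq_coe, RingHom.coe_coe, aeval_C]
      rfl
    change (algebraMap K (ic K z ⧸ P)).IsIntegralElem x
    rw [h9]
    exact h5 x
  exact (IsAlgClosed.algebraMap_bijective_of_isIntegral (k := K) (K := ic K z ⧸ P)).2

theorem ic_le {z w : F} (h : z ∈ ic K w) : ic K z ≤ ic K w := by
  intro x hx
  obtain ⟨p, hp, hpx⟩ := exists_lift_of_mem_ic hx
  -- `x` is integral over `ic K w`
  have h1 : IsIntegral (ic K w) x := by
    refine ⟨p.map ((aeval (R := K) (⟨z, h⟩ : ic K w)).toRingHom), hp.map _, ?_⟩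
    rw [eval₂_map]
    have h2 : (algebraMap (ic K w) F).comp ((aeval (R := K) (⟨z, h⟩ : ic K w)).toRingHom)
        = (aeval (R := K) z).toRingHom := by
      apply Polynomial.ringHom_ext
      · intro a
        simp only [AlgHom.toRingHom_eq_coe, RingHom.coe_comp, RingHom.coe_coe,
          Function.comp_apply, aeval_C]
        rfl
      · simp only [AlgHom.toRingHom_eq_coe, RingHom.coe_comp, RingHom.coe_coe,
          Function.comp_apply, aeval_X]
        rfl
    rw [h2]
    exact hpx
  have h3 : IsIntegral (integralClosure (Algebra.adjoin K {w}) F) x := h1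
  exact isIntegral_trans _ h3

theorem mem_ic_pow {z : F} {n : ℕ} (hn : 0 < n) : z ∈ ic K (z ^ n) :=
  mem_ic_of_pow hn (self_mem_ic _)

/-! ### Evaluation at points -/

open Classical in
/-- total evaluation at a point of `ic K z`. -/
noncomputable def ev {z : F} (P : ic K z →ₐ[K] K) (x : F) : K :=
  if h : x ∈ ic K z then P ⟨x, h⟩ else 0

section Ev

variable {z : F} (P : ic K z →ₐ[K] K)

theorem ev_of_mem {x : F} (h : x ∈ ic K z) : ev P x = P ⟨x, h⟩ := dif_pos h

theorem ev_add {x y : F} (hx : x ∈ ic K z) (hy : y ∈ ic K z) : ev P (x + y) = ev P x + ev P y := by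
  rw [ev_of_mem P hx, ev_of_mem P hy, ev_of_mem P (add_mem hx hy), ← map_add]; rfl

theorem ev_sub {x y : F} (hx : x ∈ ic K z) (hy : y ∈ ic K z) : ev P (x - y) = ev P x - ev P y := by
  rw [ev_of_mem P hx, ev_of_mem P hy, ev_of_mem P (sub_mem hx hy), ← map_sub]; rfl

theorem ev_mul {x y : F} (hx : x ∈ ic K z) (hy : y ∈ ic K z) : ev P (x * y) = ev P x * ev P y := by
  rw [ev_of_mem P hx, ev_of_mem P hy, ev_of_mem P (mul_mem hx hy), ← map_mul]; rfl

theorem ev_pow {x : F} (hx : x ∈ ic K z) (n : ℕ) : ev P (x ^ n) = ev P x ^ n := by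
  rw [ev_of_mem P hx, ev_of_mem P (pow_mem hx n), ← map_pow]; rfl

@[simp] theorem ev_one : ev P (1 : F) = 1 := by
  rw [ev_of_mem P (one_mem _)]; exact map_one P

@[simp] theorem ev_zero : ev P (0 : F) = 0 := by
  rw [ev_of_mem P (zero_mem _)]; exact map_zero P

theorem ev_algebraMap (a : K) : ev P (algebraMap K F a) = a := by
  rw [ev_of_mem P ((ic K z).algebraMap_mem a)]
  exact P.commutes a

theorem ev_ext {P Q : ic K z →ₐ[K] K} (h : ∀ x ∈ ic K z, ev P x = ev Q x) : P = Q := by
  apply AlgHom.ext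
  rintro ⟨x, hx⟩
  have := h x hx
  rwa [ev_of_mem P hx, ev_of_mem Q hx] at this

theorem ev_aeval {y : F} (hy : y ∈ ic K z) (p : K[X]) :
    ev P (aeval y p) = p.eval (ev P y) := by
  induction p using Polynomial.induction_on' with
  | add p q hp hq =>
    have h1 : aeval y p ∈ ic K z := ic_le hy (aeval_mem_ic y p)
    have h2 : aeval y q ∈ ic K z := ic_le hy (aeval_mem_ic y q)
    rw [map_add, ev_add P h1 h2, hp, hq, eval_add]
  | monomial n a =>
    rw [aeval_monomial, ev_mul P ((ic K z).algebraMap_mem a) (pow_mem hy n), ev_algebraMap,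
      ev_pow P hy, eval_monomial]

end Ev

end IC

/-! ### Places -/

section Places

variable {K F : Type*} [Field K] [Field F] [Algebra K F] [IsFF K F]

theorem mem_ic_iff_place {y f : F} (hy : y ≠ 0) (hf : f ≠ 0) :
    f ∈ ic K y ↔ ∀ w : Place K F, 0 ≤ w.ord y → 0 ≤ w.ord f := by
  have h : f ∈ ic K y ↔ f ∈ integralClosure (Algebra.adjoin K {y}) F := Iff.rfl
  rw [h, mem_integralClosure_adjoin_iff]
  refine forall_congr' fun w => ?_
  rw [mem_iff_ord_nonneg w hy, mem_iff_ord_nonneg w hf]

theorem mem_ic_iff_LL {y : F} (hy : y ≠ 0) {n : ℕ} (hn : n ≠ 0) {φ h : F} (hφ : φ ≠ 0)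
    {D : Divisor K F} (hD : ∀ v : Place K F, (n : ℤ) * D v = v.ord φ) :
    h ^ n / φ ∈ ic K y ↔ ∃ r, h ∈ LL y D r 0 := by
  classical
  rcases eq_or_ne h 0 with rfl | hh
  · rw [zero_pow hn, zero_div]
    exact ⟨fun _ => ⟨0, Submodule.zero_mem _⟩, fun _ => zero_mem _⟩
  have hn' : (0 : ℤ) < n := by exact_mod_cast Nat.pos_of_ne_zero hn
  rw [mem_ic_iff_place hy (div_ne_zero (pow_ne_zero n hh) hφ)]
  have h0 : ∀ w : Place K F, w.ord (h ^ n / φ) = n * (w.ord h - D w) := by
    intro w
    rw [div_eq_mul_inv, w.ord_mul (pow_ne_zero n hh) (inv_ne_zero hφ), QX.ord_pow, w.ord_inv,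
      ← hD w]
    ring
  have h1 : (∀ w : Place K F, 0 ≤ w.ord y → 0 ≤ w.ord (h ^ n / φ)) ↔
      ∀ w : Place K F, 0 ≤ w.ord y → D w ≤ w.ord h := by
    refine forall_congr' fun w => imp_congr_right fun _ => ?_
    rw [h0]
    constructor
    · intro h2
      have := nonneg_of_mul_nonneg_right h2 hn'
      omega
    · intro h2
      exact mul_nonneg hn'.le (by omega)
  rw [h1]
  constructor
  · intro h2
    set S : Finset (Place K F) := D.support ∪ (finite_ord_ne_zero (K := K) h).toFinset with hS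
    refine ⟨∑ w ∈ S, (D w - w.ord h).toNat, ?_⟩
    rw [mem_LL hh]
    intro w
    rw [Nat.cast_zero, zero_mul, sub_zero]
    rcases le_or_gt 0 (w.ord y) with h3 | h3
    · rw [max_eq_right (show -w.ord y ≤ 0 by omega), mul_zero, sub_zero]
      exact h2 w h3
    · have h4 : (1 : ℤ) ≤ max (-w.ord y) 0 := le_max_of_le_left (by omega)
      have h5 : (D w - w.ord h).toNat ≤ ∑ w ∈ S, (D w - w.ord h).toNat := by
        by_cases hw : w ∈ S
        · exact Finset.single_le_sum (f := fun w => (D w - w.ord h).toNat)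
            (fun _ _ => Nat.zero_le _) hw
        · have h6 : w ∉ D.support ∧ w ∉ (finite_ord_ne_zero (K := K) h).toFinset := by
            rw [hS, Finset.mem_union] at hw
            push Not at hw
            exact hw
          have h7 : D w = 0 := by
            have := h6.1
            simpa using this
          have h8 : w.ord h = 0 := by
            have := h6.2
            simpa using this
          rw [h7, h8]
          simp
      have h6 := Int.self_le_toNat (D w - w.ord h)
      have h7 : ((∑ w ∈ S, (D w - w.ord h).toNat : ℕ) : ℤ) * 1 ≤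
          ((∑ w ∈ S, (D w - w.ord h).toNat : ℕ) : ℤ) * max (-w.ord y) 0 :=
        mul_le_mul_of_nonneg_left h4 (by positivity)
      have h8 : (((D w - w.ord h).toNat : ℕ) : ℤ) ≤
          ((∑ w ∈ S, (D w - w.ord h).toNat : ℕ) : ℤ) := by exact_mod_cast h5
      omega
  · rintro ⟨r, hr⟩ w hw
    rw [mem_LL hh] at hr
    have := hr w
    rw [Nat.cast_zero, zero_mul, sub_zero, max_eq_right (show -w.ord y ≤ 0 by omega), mul_zero,
      sub_zero] at this
    exact this

theorem exists_pow_mul_mem_ic {y z f : F} (hy : y ≠ 0) (hz : z ≠ 0) (hzy : z ∈ ic K y)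
    (h : f ≠ 0 → ∀ w : Place K F, 0 ≤ w.ord y → w.ord z ≤ 0 → 0 ≤ w.ord f) :
    ∃ l : ℕ, ∀ m, l ≤ m → z ^ m * f ∈ ic K y := by
  classical
  rcases eq_or_ne f 0 with rfl | hf
  · exact ⟨0, fun _ _ => by rw [mul_zero]; exact zero_mem _⟩
  have h := h hf
  refine ⟨∑ w ∈ (finite_ord_ne_zero (K := K) f).toFinset, (-w.ord f).toNat, fun m hm => ?_⟩
  rw [mem_ic_iff_place hy (mul_ne_zero (pow_ne_zero _ hz) hf)]
  rw [mem_ic_iff_place hy hz] at hzy
  intro w hw
  have h1 := hzy w hw
  rw [w.ord_mul (pow_ne_zero _ hz) hf, QX.ord_pow]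
  rcases le_or_gt (w.ord z) 0 with h2 | h2
  · have h3 := h w hw h2
    have : w.ord z = 0 := le_antisymm h2 h1
    rw [this, mul_zero, zero_add]
    exact h3
  · rcases le_or_gt 0 (w.ord f) with h3 | h3
    · exact add_nonneg (mul_nonneg (by positivity) h1) h3
    · have h4 : (-w.ord f).toNat ≤ ∑ w ∈ (finite_ord_ne_zero (K := K) f).toFinset,
          (-w.ord f).toNat :=
        Finset.single_le_sum (f := fun w : Place K F => (-w.ord f).toNat)
          (fun _ _ => Nat.zero_le _) (by simp; omega)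
      have h5 := Int.self_le_toNat (-w.ord f)
      have h6 : (((-w.ord f).toNat : ℕ) : ℤ) ≤ m := by exact_mod_cast h4.trans hm
      have h7 : (m : ℤ) * 1 ≤ m * w.ord z := mul_le_mul_of_nonneg_left h2 (by positivity)
      omega

/-- from the chart at infinity to the affine chart. -/
theorem exists_pow_mul_mem_ic_of_inv {y f : F} (hy : y ≠ 0) (hf : f ∈ ic K y⁻¹) :
    ∃ l : ℕ, ∀ m, l ≤ m → y ^ m * f ∈ ic K y := by
  apply exists_pow_mul_mem_ic hy hy (self_mem_ic y)
  intro hf0 w hw hw'
  rw [mem_ic_iff_place (inv_ne_zero hy) hf0] at hf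
  exact hf w (by rw [w.ord_inv]; omega)

end Places

end Fermat.Agent.TriComp
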