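import Fermat.Agent.S36.NormsDV
import Mathlib.Analysis.AbsoluteValue.Equivalence

/-!
# Weak approximation for finitely many discrete valuations
-/

set_option autoImplicit false

namespace Fermat.Agent.S36norm.DV

variable {F κ : Type*} [Field F] [Field κ] (v : DV F κ)

open Classical in
/-- The real absolute value attached to a discrete valuation. -/
noncomputable def absv : AbsoluteValue F ℝ where
  toFun x := if x = 0 then 0 else (2 : ℝ) ^ (-v.ord x)
  map_mul' x y := by
    by_cases hx : x = 0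
    · simp [hx]
    by_cases hy : y = 0
    · simp [hy]
    rw [if_neg (mul_ne_zero hx hy), if_neg hx, if_neg hy, v.ord_mul x y hx hy, neg_add,
      zpow_add₀ two_ne_zero]
  nonneg' x := by
    by_cases hx : x = 0
    · simp [hx]
    · rw [if_neg hx]; positivity
  eq_zero' x := by
    by_cases hx : x = 0
    · simp [hx]
    · rw [if_neg hx]
      simp only [hx, iff_false]
      positivity
  add_le' x y := by
    by_cases hx : x = 0
    · simp [hx]
    by_cases hy : y = 0
    · simp [hy]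
    rw [if_neg hx, if_neg hy]
    by_cases hxy : x + y = 0
    · rw [if_pos hxy]; positivity
    rw [if_neg hxy]
    rcases le_total (v.ord x) (v.ord y) with h | h
    · have h1 : v.ord x ≤ v.ord (x + y) :=
        (v.ord_add_ge (Or.inr le_rfl) (Or.inr h)).resolve_left hxy
      calc (2 : ℝ) ^ (-v.ord (x + y)) ≤ 2 ^ (-v.ord x) :=
            zpow_le_zpow_right₀ (by norm_num) (by omega)
        _ ≤ 2 ^ (-v.ord x) + 2 ^ (-v.ord y) := le_add_of_nonneg_right (by positivity)
    · have h1 : v.ord y ≤ v.ord (x + y) :=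
        (v.ord_add_ge (Or.inr h) (Or.inr le_rfl)).resolve_left hxy
      calc (2 : ℝ) ^ (-v.ord (x + y)) ≤ 2 ^ (-v.ord y) :=
            zpow_le_zpow_right₀ (by norm_num) (by omega)
        _ ≤ 2 ^ (-v.ord x) + 2 ^ (-v.ord y) := le_add_of_nonneg_left (by positivity)

theorem absv_of_ne {x : F} (hx : x ≠ 0) : v.absv x = (2 : ℝ) ^ (-v.ord x) := if_neg hx

theorem absv_le_one_iff (x : F) : v.absv x ≤ 1 ↔ x ∈ v.O := by
  rcases eq_or_ne x 0 with rfl | hx
  · rw [map_zero]
    exact iff_of_true zero_le_one (zero_mem _)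
  · rw [v.absv_of_ne hx, v.mem_iff x hx, zpow_le_one_iff_right₀ (by norm_num)]
    omega

theorem absv_lt_iff {x : F} (N : ℤ) : v.absv x < 2 ^ (-N) ↔ x = 0 ∨ N < v.ord x := by
  rcases eq_or_ne x 0 with rfl | hx
  · rw [map_zero]
    exact iff_of_true (by positivity) (Or.inl rfl)
  · rw [v.absv_of_ne hx, zpow_lt_zpow_iff_right₀ (by norm_num)]
    constructor
    · intro h; right; omega
    · rintro (h | h)
      · exact absurd h hx
      · omega

theorem absv_isNontrivial (h : ∃ x : F, x ≠ 0 ∧ v.ord x = 1) : v.absv.IsNontrivial := by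
  obtain ⟨x, hx, h⟩ := h
  refine ⟨x, hx, ?_⟩
  rw [v.absv_of_ne hx, h]
  norm_num

theorem not_isEquiv {v w : DV F κ} (h : v.O ≠ w.O) : ¬ v.absv.IsEquiv w.absv := by
  intro he
  apply h
  ext x
  rw [← v.absv_le_one_iff, ← w.absv_le_one_iff]
  exact he.le_one_iff

/-- **Weak approximation.** -/
theorem exists_approx {ι : Type*} [Finite ι] (v : ι → DV F κ)
    (hv : ∀ i, ∃ x : F, x ≠ 0 ∧ (v i).ord x = 1) (hne : ∀ i j, i ≠ j → (v i).O ≠ (v j).O)
    (a : ι → F) (N : ℤ) : ∃ x : F, ∀ i, x - a i = 0 ∨ N < (v i).ord (x - a i) := by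
  cases nonempty_fintype ι
  have hd := AbsoluteValue.denseRange_algebraMap_pi (F := F) (ι := ι)
    (v := fun i => (v i).absv) (fun i => (v i).absv_isNontrivial (hv i))
    (fun i j hij => not_isEquiv (hne i j hij))
  have hpos : (0 : ℝ) < 2 ^ (-N) := by positivity
  obtain ⟨x, hx⟩ := Metric.denseRange_iff.mp hd
    (fun i => WithAbs.toAbs (v i).absv (a i)) (2 ^ (-N)) hpos
  refine ⟨x, fun i => ?_⟩
  rw [← absv_lt_iff]
  have h1 := (dist_pi_lt_iff hpos).mp hx i
  rw [dist_comm, dist_eq_norm] at h1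
  exact h1

theorem mem_of_ord_nonneg {x : F} (h : x = 0 ∨ 0 ≤ v.ord x) : x ∈ v.O := by
  rcases eq_or_ne x 0 with rfl | hx
  · exact zero_mem _
  · exact (v.mem_iff x hx).2 (h.resolve_left hx)

theorem red_eq_zero_iff {x : F} (hx : x ∈ v.O) : v.red x = 0 ↔ x = 0 ∨ 0 < v.ord x := by
  rcases eq_or_ne x 0 with rfl | hx0
  · simp [v.red_zero]
  · have h1 := v.red_ne_zero_iff hx0 hx
    have h2 := (v.mem_iff x hx0).1 hx
    constructor
    · intro h
      right
      by_contra h3
      exact h1.2 (by omega) h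
    · rintro (h | h)
      · exact absurd h hx0
      · by_contra h3
        have := h1.1 h3
        omega

theorem red_eq_of_sub {x y : F} (hy : y ∈ v.O) (h : x - y = 0 ∨ 0 < v.ord (x - y)) :
    x ∈ v.O ∧ v.red x = v.red y := by
  have h1 : x - y ∈ v.O := v.mem_of_ord_nonneg (h.imp_right le_of_lt)
  have h2 : v.red (x - y) = 0 := (v.red_eq_zero_iff h1).2 h
  have h3 : x = (x - y) + y := by ring
  refine ⟨h3 ▸ add_mem h1 hy, ?_⟩
  rw [h3, v.red_add h1 hy, h2, zero_add]

end Fermat.Agent.S36norm.DV
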