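import Fermat.Agent.TriComp.Count

/-!
# Consequences of fullness
-/

set_option autoImplicit false

open Module Polynomial AlgebraicCurve WithZero
open scoped IntermediateField

namespace Fermat.Agent.TriComp

open Fermat.Agent.TwoComp Fermat.Agent.S36norm Fermat.Agent.RR Fermat.Agent.FF

variable {K F k E F' : Type*} [Field K] [Field F] [Algebra K F] [Field k] [CommRing E]
    [Algebra k E] [Field F'] [Algebra k F'] {q : ℕ}

namespace Data

variable (D : Data K F k E F' q) [IsFF k F']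

lemma mem_X_iff {s r : ℕ} {z : F'} :
    z ∈ D.X s r ↔ ∀ P : Place k F', z = 0 ∨ -(D.Dv s r P) ≤ P.ord z := by
  constructor
  · intro h P
    exact (P.adicValuation_le_exp_iff).1 (h P)
  · intro h P
    exact (P.adicValuation_le_exp_iff).2 (h P)

lemma one_mem_X_zero (r : ℕ) : (1 : F') ∈ D.X 0 r := by
  rw [D.mem_X_iff]
  intro P
  right
  have hq := D.q_two_le
  rw [D.Dv_apply, D.D0_lt (s := 0) (by omega), P.ord_one]
  have h1 : (0 : ℤ) ≤ (r * slope q 0) * max (-P.ord D.jt) 0 := by positivity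
  split_ifs <;> simp <;> linarith

variable [IsAlgClosed k]

/-- **Existence of a section with reduction one on the component `v 1`.** -/
theorem exists_red_one : ∃ r₀ : ℕ, ∀ r ≥ r₀, ∀ (n : ℕ) (φ : F), D.Tw n φ →
    ∀ (W : Submodule K F) [FiniteDimensional K W], (∀ h ∈ W, D.Adm n φ r h) →
    ∀ gN : ℤ, 12 * (gN - 1) = (q + 1) * (12 * ((genusFF k F' : ℤ) - 1)) + ((q : ℤ) ^ 2 - 1) * D.ψ →
    (finrank K W : ℤ) = r * (q * (q + 1) * D.ψ) + 1 - gN →
    ∃ h ∈ W, h ∈ D.R.O ∧ (D.v 1).red h = 1 := by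
  obtain ⟨r₀, h₀⟩ := D.full
  refine ⟨r₀, fun r hr n φ T W _ hW gN hg hdim => ?_⟩
  have hq := D.q_two_le
  obtain ⟨h, h1, h2, h3⟩ := (h₀ r hr n φ T W hW gN hg hdim 0 (by omega) 1).1 (D.one_mem_X_zero r)
  refine ⟨h, h1, h2.1, ?_⟩
  rw [D.G_of_lt (by omega), pow_zero, div_one] at h3
  exact h3

end Data

end Fermat.Agent.TriComp
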