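import Fermat.Agent.TriComp.Apply
import Fermat.Agent.TriComp.IC
import Fermat.Agent.QX.LocalGen

/-!
# `1 ∈ M̄` in one chart (three-component reduction)
-/

set_option autoImplicit false

open Module Polynomial AlgebraicCurve
open scoped IntermediateField

namespace Fermat.Agent.TriComp

open Fermat.Agent.TwoComp Fermat.Agent.S36norm Fermat.Agent.QX Fermat.Agent.FF

/-! ### Basic consequences of the three-component data -/

namespace Data

variable {K F k E F' : Type*} [Field K] [Field F] [Algebra K F] [Field k] [CommRing E]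
  [Algebra k E] [Field F'] [Algebra k F'] {q : ℕ} (D : Data K F k E F' q)

theorem ord_q_pos (i : Fin 3) : 1 ≤ (D.v i).ord (q : F) ∧ (D.v i).ord (q : F) ≤ q - 1 := by
  have hq := D.q_two_le
  have hq' : (2 : ℤ) ≤ q := by exact_mod_cast hq
  fin_cases i
  · have := D.ord_q0
    simp only [Fin.zero_eta]
    omega
  · have := D.ord_q1
    simp only [Fin.mk_one]
    omega
  · have := D.ord_q2
    change 1 ≤ (D.v 2).ord (q : F) ∧ (D.v 2).ord (q : F) ≤ q - 1
    omega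

theorem q_mem_O : (q : F) ∈ D.R.O := natCast_mem _ q

theorem red_q (i : Fin 3) : (D.v i).red (q : F) = 0 := by
  by_contra h
  have h1 := ((D.v i).red_ne_zero_iff D.q_ne (D.mem_v D.q_mem_O i)).mp h
  have := (D.ord_q_pos i).1
  omega

/-- the component map on `O`. -/
noncomputable def redO (i : Fin 3) : D.R.O →+* F' :=
  (D.v i).ρ.comp (Subring.inclusion (T := (D.v i).O.toSubring) fun _ hf => D.mem_v hf i)

theorem redO_apply (i : Fin 3) (x : D.R.O) : D.redO i x = (D.v i).red (x : F) := by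
  rw [(D.v i).red_of_mem (D.mem_v x.2 i)]
  rfl

theorem ker_le (i : Fin 3) : RingHom.ker D.R.ρ ≤ RingHom.ker (D.redO i) := by
  intro x hx
  rw [RingHom.mem_ker] at hx ⊢
  have h1 := (D.ρ_eq_zero_iff x).mp hx
  rw [D.redO_apply]
  have h2 : (x : F) = (q : F) * ((x : F) / (q : F)) := by
    rw [mul_div_cancel₀ _ D.q_ne]
  rw [h2, (D.v i).red_mul (D.mem_v D.q_mem_O i) (D.mem_v h1 i), D.red_q, zero_mul]

/-- the component map on `E`. -/
noncomputable def cRing (i : Fin 3) : E →+* F' :=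
  D.R.ρ.liftOfSurjective D.ρ_surj ⟨D.redO i, D.ker_le i⟩

theorem cRing_ρ (i : Fin 3) (x : D.R.O) : D.cRing i (D.R.ρ x) = (D.v i).red (x : F) := by
  rw [← D.redO_apply]
  exact RingHom.liftOfRightInverse_comp_apply _ _ _ ⟨D.redO i, D.ker_le i⟩ x

noncomputable def c (i : Fin 3) : E →ₐ[k] F' where
  toRingHom := D.cRing i
  commutes' := by
    intro a
    obtain ⟨a, rfl⟩ := D.R.res_surj a
    change D.cRing i _ = _
    rw [← D.R.ρ_algebraMap, D.cRing_ρ]
    exact D.red_algebraMap i a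

theorem c_ρ (i : Fin 3) (x : D.R.O) : D.c i (D.R.ρ x) = (D.v i).red (x : F) := D.cRing_ρ i x

/-- the joint kernel of the components is nilpotent. -/
theorem isNilpotent_of_c (e : E) (he : ∀ i, D.c i e = 0) : IsNilpotent e := by
  obtain ⟨x, rfl⟩ := D.ρ_surj e
  have hq := D.q_two_le
  refine ⟨q - 1, ?_⟩
  rw [← map_pow, D.ρ_eq_zero_iff]
  rcases eq_or_ne (x : F) 0 with h0 | h0
  · rw [SubmonoidClass.coe_pow, h0, zero_pow (by omega), zero_div]
    exact D.R.O.zero_mem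
  rw [D.mem_O_iff]
  intro i
  have hne : (((x ^ (q - 1) : D.R.O)) : F) ≠ 0 := by
    rw [SubmonoidClass.coe_pow]
    exact pow_ne_zero _ h0
  rw [(D.v i).mem_iff _ (div_ne_zero hne D.q_ne), (D.v i).ord_div hne D.q_ne,
    SubmonoidClass.coe_pow, (D.v i).ord_pow h0]
  have h1 : (D.v i).ord (x : F) ≠ 0 := by
    intro h
    have := ((D.v i).red_ne_zero_iff h0 (D.mem_v x.2 i)).mpr h
    exact this (by rw [← D.c_ρ]; exact he i)
  have h2 := ((D.v i).mem_iff _ h0).mp (D.mem_v x.2 i)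
  have h3 := (D.ord_q_pos i).2
  have h4 : ((q - 1 : ℕ) : ℤ) = (q : ℤ) - 1 := by omega
  rw [h4]
  have h5 : (1 : ℤ) ≤ (D.v i).ord (x : F) := by omega
  have h6 : (1 : ℤ) ≤ (q : ℤ) - 1 := by omega
  nlinarith

/-- The reduction datum of `QX`. -/
noncomputable def datum : Datum K F k E where
  A := D.R.A
  res := D.R.res
  res_surj := D.R.res_surj
  res_eq_zero_iff := D.R.res_eq_zero_iff
  arch := by
    intro c hc d hd
    have hdF : algebraMap K F d ≠ 0 := by rwa [Ne, map_eq_zero]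
    have hq1 := (D.mem_nonunits_iff c).mp hc
    set n : ℕ := ∑ i : Fin 3, ((D.v i).ord (algebraMap K F d)).toNat with hn
    refine ⟨n, ?_⟩
    have h1 : (q : K) ^ n / d ∈ D.R.A := by
      rw [← D.R.mem_O_iff, D.mem_O_iff]
      intro i
      have hqF : (q : F) ^ n ≠ 0 := pow_ne_zero _ D.q_ne
      rw [map_div₀, map_pow, map_natCast, (D.v i).mem_iff _ (div_ne_zero hqF hdF),
        (D.v i).ord_div hqF hdF, (D.v i).ord_pow D.q_ne]
      have h2 := (D.ord_q_pos i).1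
      have h3 : ((D.v i).ord (algebraMap K F d)).toNat ≤ n :=
        Finset.single_le_sum (f := fun i => ((D.v i).ord (algebraMap K F d)).toNat)
          (fun _ _ => Nat.zero_le _) (Finset.mem_univ i)
      have h4 := Int.self_le_toNat ((D.v i).ord (algebraMap K F d))
      have h5 : (((D.v i).ord (algebraMap K F d)).toNat : ℤ) ≤ n := by exact_mod_cast h3
      have h6 : (n : ℤ) * 1 ≤ n * (D.v i).ord (q : F) :=
        mul_le_mul_of_nonneg_left h2 (by positivity)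
      omega
    have h2 : c ^ n / d = (c / q) ^ n * ((q : K) ^ n / d) := by
      have := D.q_ne_zero
      rw [div_pow]
      field_simp
    rw [h2]
    exact mul_mem (pow_mem hq1 n) h1
  O := D.R.O
  ρ := D.R.ρ
  algebraMap_mem := fun a ha => (D.R.mem_O_iff a).mpr ha
  ρ_algebraMap := D.R.ρ_algebraMap
  inv_mem := D.R.inv_mem
  ortho := D.ortho

theorem c_r (i : Fin 3) {f : F} (hf : f ∈ D.R.O) : D.c i (D.datum.r f) = (D.v i).red f := by
  rw [D.datum.r_of_mem (show f ∈ D.datum.O from hf)]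
  exact D.c_ρ i ⟨f, hf⟩

theorem r_surj_of {f : F} (hf : f ∈ D.R.O) : D.datum.r f = D.R.ρ ⟨f, hf⟩ :=
  D.datum.r_of_mem (show f ∈ D.datum.O from hf)

/-- The data of an affine chart. -/
structure Chart (y : F) (yt g₀ : F') : Prop where
  y_ne_zero : y ≠ 0
  g₀_mem : g₀ ∈ ic k yt
  red_mem : ∀ f ∈ D.R.O, f ∈ ic K y → ∀ i, (D.v i).red f ∈ ic k yt
  int : ∀ i, ∃ b ∈ D.R.O, b ∈ ic K y ∧ yt ∈ ic k ((D.v i).red b)
  al : ∀ g ∈ ic k yt, ∃ f ∈ D.R.O, f ∈ ic K y ∧ (D.v 0).red f = g ∧ (D.v 1).red f = g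
  h0 : ∃ N : ℕ, ∃ f ∈ D.R.O, f ∈ ic K y ∧ (D.v 0).red f = g₀ ^ N ∧ (D.v 1).red f = 0 ∧
    (D.v 2).red f = 0
  h01 : ∃ N : ℕ, 0 < N ∧ ∃ f ∈ D.R.O, f ∈ ic K y ∧ (D.v 0).red f = g₀ ^ N ∧ (D.v 1).red f = g₀ ^ N ∧
    (D.v 2).red f = 0
  h2 : ∀ g ∈ ic k yt, ∃ N : ℕ,
    (∃ f ∈ D.R.O, f ∈ ic K y ∧ (D.v 0).red f = 0 ∧ (D.v 1).red f = 0 ∧
      (D.v 2).red f = g₀ ^ N) ∧
    (∃ f ∈ D.R.O, f ∈ ic K y ∧ (D.v 0).red f = 0 ∧ (D.v 1).red f = 0 ∧
      (D.v 2).red f = g₀ ^ N * g)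
  ss : ∀ P : ic k yt →ₐ[k] k, ev P g₀ = 0 → ∀ b ∈ D.R.O, b ∈ ic K y → ∀ i,
    ev P ((D.v i).red b) = ev P ((D.v 1).red b)

namespace Chart

variable {D} {y : F} {yt g₀ : F'} (C : D.Chart y yt g₀)
include C

/-- points outside `g₀ = 0` agreeing on `B` are equal. -/
theorem eq_of_agree {P P' : ic k yt →ₐ[k] k} {i i' : Fin 3} (hP : ev P g₀ ≠ 0)
    (hag : ∀ b ∈ D.R.O, b ∈ ic K y → ev P' ((D.v i').red b) = ev P ((D.v i).red b)) :
    i' = i ∧ P' = P := by
  obtain ⟨N0, f0, hf0, hf0', a0, b0, c0⟩ := C.h0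
  obtain ⟨N1, hN1, f1, hf1, hf1', a1, b1, c1⟩ := C.h01
  obtain ⟨N2, ⟨f2, hf2, hf2', a2, b2, c2⟩, -⟩ := C.h2 1 (one_mem _)
  have e0 := hag f0 hf0 hf0'
  have e1 := hag f1 hf1 hf1'
  have e2 := hag f2 hf2 hf2'
  have hpow : ∀ N, ev P (g₀ ^ N) ≠ 0 := by
    intro N
    rw [ev_pow P C.g₀_mem]
    exact pow_ne_zero _ hP
  have hal : (∀ b ∈ D.R.O, b ∈ ic K y → ev P' ((D.v 0).red b) = ev P ((D.v 0).red b)) →
      P' = P := by
    intro h
    apply ev_ext
    intro g hg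
    obtain ⟨f, hf, hf', h1, h2⟩ := C.al g hg
    have := h f hf hf'
    rwa [h1] at this
  have hal1 : (∀ b ∈ D.R.O, b ∈ ic K y → ev P' ((D.v 1).red b) = ev P ((D.v 1).red b)) →
      P' = P := by
    intro h
    apply ev_ext
    intro g hg
    obtain ⟨f, hf, hf', h1, h2⟩ := C.al g hg
    have := h f hf hf'
    rwa [h2] at this
  have hal2 : (∀ b ∈ D.R.O, b ∈ ic K y → ev P' ((D.v 2).red b) = ev P ((D.v 2).red b)) →
      P' = P := by
    intro h
    apply ev_ext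
    intro g hg
    obtain ⟨N, ⟨f, hf, hf', -, -, h1⟩, ⟨f', hf1, hf1', -, -, h2⟩⟩ := C.h2 g hg
    have e1 := h f hf hf'
    have e2 := h f' hf1 hf1'
    rw [h1] at e1
    rw [h2, ev_mul _ (pow_mem C.g₀_mem N) hg, ev_mul _ (pow_mem C.g₀_mem N) hg, e1] at e2
    exact mul_left_cancel₀ (hpow N) e2
  fin_cases i
  · fin_cases i'
    · exact ⟨rfl, hal hag⟩
    · exfalso
      simp only [Fin.mk_one, Fin.zero_eta] at e0
      rw [a0, b0, ev_zero] at e0
      exact hpow _ e0.symm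
    · exfalso
      have e0' : ev P' ((D.v 2).red f0) = ev P ((D.v 0).red f0) := e0
      rw [a0, c0, ev_zero] at e0'
      exact hpow _ e0'.symm
  · fin_cases i'
    · exfalso
      have e1' : ev P' ((D.v 0).red f1) = ev P ((D.v 1).red f1) := e1
      have e0' : ev P' ((D.v 0).red f0) = ev P ((D.v 1).red f0) := e0
      rw [a0, b0, ev_zero, ev_pow P' C.g₀_mem] at e0'
      rw [a1, b1] at e1'
      rcases eq_or_ne (ev P' g₀) 0 with h | h
      · rw [ev_pow P' C.g₀_mem, h, zero_pow hN1.ne'] at e1'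
        exact hpow _ e1'.symm
      · exact pow_ne_zero _ h e0'
    · exact ⟨rfl, hal1 hag⟩
    · exfalso
      have e1' : ev P' ((D.v 2).red f1) = ev P ((D.v 1).red f1) := e1
      rw [c1, b1, ev_zero] at e1'
      exact hpow _ e1'.symm
  · fin_cases i'
    · exfalso
      have e2' : ev P' ((D.v 0).red f2) = ev P ((D.v 2).red f2) := e2
      rw [a2, c2, ev_zero] at e2'
      exact hpow _ e2'.symm
    · exfalso
      have e2' : ev P' ((D.v 1).red f2) = ev P ((D.v 2).red f2) := e2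
      rw [b2, c2, ev_zero] at e2'
      exact hpow _ e2'.symm
    · exact ⟨rfl, hal2 hag⟩

/-- agreeing points are both on `g₀ = 0` or equal. -/
theorem eq_of_agree' {P P' : ic k yt →ₐ[k] k} {i i' : Fin 3}
    (hag : ∀ b ∈ D.R.O, b ∈ ic K y → ev P' ((D.v i').red b) = ev P ((D.v i).red b)) :
    P' = P ∧ (i' = i ∨ ev P g₀ = 0) := by
  by_cases hP : ev P g₀ = 0
  · refine ⟨?_, Or.inr hP⟩
    have hP' : ev P' g₀ = 0 := by
      by_contra h
      obtain ⟨-, h2⟩ := C.eq_of_agree h (fun b hb hb' => (hag b hb hb').symm)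
      rw [h2] at hP
      exact h hP
    apply ev_ext
    intro g hg
    obtain ⟨f, hf, hf', h1, h2⟩ := C.al g hg
    have h3 := hag f hf hf'
    rw [C.ss P' hP' f hf hf' i', C.ss P hP f hf hf' i, h2] at h3
    exact h3
  · obtain ⟨h1, h2⟩ := C.eq_of_agree hP hag
    exact ⟨h2, Or.inl h1⟩

/-- the ring `B̄`. -/
def Bb (_ : D.Chart y yt g₀) : Subalgebra k E where
  carrier := {e | ∃ f ∈ D.R.O, f ∈ ic K y ∧ D.datum.r f = e}
  mul_mem' := by
    rintro _ _ ⟨f, hf, hf', rfl⟩ ⟨g, hg, hg', rfl⟩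
    exact ⟨f * g, mul_mem hf hg, mul_mem hf' hg', D.datum.r_mul hf hg⟩
  add_mem' := by
    rintro _ _ ⟨f, hf, hf', rfl⟩ ⟨g, hg, hg', rfl⟩
    exact ⟨f + g, add_mem hf hg, add_mem hf' hg', D.datum.r_add hf hg⟩
  algebraMap_mem' := by
    intro a
    obtain ⟨a, rfl⟩ := D.R.res_surj a
    have h := D.algebraMap_mem a
    refine ⟨algebraMap K F a, h, (ic K y).algebraMap_mem _, ?_⟩
    rw [D.datum.r_of_mem (show _ ∈ D.datum.O from h)]
    exact D.R.ρ_algebraMap a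

theorem c_mem (i : Fin 3) {e : E} (he : e ∈ C.Bb) : D.c i e ∈ ic k yt := by
  obtain ⟨f, hf, hf', rfl⟩ := he
  rw [D.c_r i hf]
  exact C.red_mem f hf hf' i

theorem comp_isIntegral (i : Fin 3) :
    (comp D.c (ic k yt) C.Bb (fun e he i => C.c_mem i he) i : C.Bb →+* ic k yt).IsIntegral := by
  rintro ⟨x, hx⟩
  obtain ⟨b, hb, hb', hyt⟩ := C.int i
  obtain ⟨p, hp, hpx⟩ := exists_lift_of_mem_ic (ic_le hyt hx)
  let β : C.Bb := ⟨D.datum.r b, b, hb, hb', rfl⟩
  let ψ : k[X] →+* C.Bb := (aeval (R := k) β).toRingHom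
  refine ⟨p.map ψ, hp.map _, ?_⟩
  rw [eval₂_map]
  apply Subtype.ext
  have h1 : (Subalgebra.val (ic k yt)).toRingHom
      (eval₂ ((comp D.c (ic k yt) C.Bb (fun e he i => C.c_mem i he) i : C.Bb →+* ic k yt).comp ψ)
        ⟨x, hx⟩ p) = 0 := by
    rw [Polynomial.hom_eval₂]
    have h2 : (Subalgebra.val (ic k yt)).toRingHom.comp
        ((comp D.c (ic k yt) C.Bb (fun e he i => C.c_mem i he) i : C.Bb →+* ic k yt).comp ψ)
        = (aeval (R := k) ((D.v i).red b)).toRingHom := by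
      apply Polynomial.ringHom_ext
      · intro a
        simp only [ψ, AlgHom.toRingHom_eq_coe, RingHom.coe_comp, RingHom.coe_coe,
          Function.comp_apply, aeval_C, AlgHom.commutes]
      · simp only [ψ, AlgHom.toRingHom_eq_coe, RingHom.coe_comp, RingHom.coe_coe,
          Function.comp_apply, aeval_X]
        exact D.c_r i hb
    rw [h2]
    exact hpx
  exact h1

variable {n : ℕ} {φ : F}

theorem one_mem [IsFF K F] [IsAlgClosed k] (hn : (n : k) ≠ 0) (hφ : φ ∈ D.R.O)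
    (hrφ : D.datum.r φ = 1) {Dv : Divisor K F}
    (hD : ∀ v : Place K F, (n : ℤ) * Dv v = v.ord φ)
    (hne : ∀ (P : ic k yt →ₐ[k] k) (i : Fin 3), ∃ h ∈ D.R.O, h ^ n / φ ∈ ic K y ∧
      ev P ((D.v i).red h) ≠ 0)
    (hzt : ∀ P : ic k yt →ₐ[k] k, ev P g₀ = 0 → ∀ h ∈ D.R.O, h ^ n / φ ∈ ic K y → ∀ i,
      ev P ((D.v i).red h) = ev P ((D.v 1).red h)) :
    ∃ f ∈ D.R.O, f ^ n / φ ∈ ic K y ∧ D.datum.r f = 1 := by
  have hn0 : n ≠ 0 := by
    rintro rfl
    simp at hn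
  have hφ0 : φ ≠ 0 := by
    rintro rfl
    rw [D.datum.r_zero] at hrφ
    have := congrArg (D.c 0) hrφ
    rw [map_zero, map_one] at this
    exact zero_ne_one this
  have hφinv : φ⁻¹ ∈ D.R.O := by
    have h := D.R.inv_mem ⟨φ, hφ⟩
    rw [← D.r_surj_of hφ, hrφ] at h
    exact h isUnit_one
  have hrφinv : D.datum.r φ⁻¹ = 1 := by
    have h := D.datum.r_mul hφ hφinv
    rw [mul_inv_cancel₀ hφ0, D.datum.r_one, hrφ, one_mul] at h
    exact h.symm
  have hrdiv : ∀ h ∈ D.R.O, D.datum.r (h ^ n / φ) = D.datum.r h ^ n := by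
    intro h hh
    rw [div_eq_mul_inv, D.datum.r_mul (pow_mem hh n) hφinv, hrφinv, mul_one,
      D.datum.r_pow hh]
  have hdivO : ∀ h ∈ D.R.O, h ^ n / φ ∈ D.R.O := fun h hh => by
    rw [div_eq_mul_inv]
    exact mul_mem (pow_mem hh n) hφinv
  -- the module
  let M : Submodule C.Bb E :=
    { carrier := {e | ∃ h ∈ D.R.O, h ^ n / φ ∈ ic K y ∧ D.datum.r h = e}
      add_mem' := by
        rintro _ _ ⟨f, hf, hf', rfl⟩ ⟨g, hg, hg', rfl⟩
        refine ⟨f + g, add_mem hf hg, ?_, D.datum.r_add hf hg⟩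
        rw [mem_ic_iff_LL C.y_ne_zero hn0 hφ0 hD] at hf' hg' ⊢
        obtain ⟨r, hr⟩ := hf'
        obtain ⟨s, hs⟩ := hg'
        exact ⟨max r s, add_mem (LL_mono y Dv (le_max_left _ _) le_rfl hr)
          (LL_mono y Dv (le_max_right _ _) le_rfl hs)⟩
      zero_mem' := ⟨0, zero_mem _, by rw [zero_pow hn0, zero_div]; exact zero_mem _, D.datum.r_zero⟩
      smul_mem' := by
        rintro ⟨_, b, hb, hb', rfl⟩ _ ⟨f, hf, hf', rfl⟩
        refine ⟨b * f, mul_mem hb hf, ?_, D.datum.r_mul hb hf⟩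
        rw [mul_pow, mul_div_assoc]
        exact mul_mem (pow_mem hb' n) hf' }
  have h1M : (1 : E) ∈ M := by
    apply one_mem_of_points (c := D.c) (Bt := ic k yt) D.isNilpotent_of_c C.Bb
      (fun e he i => C.c_mem i he) C.comp_isIntegral
      (fun 𝔭 h𝔭 => ic_residue yt 𝔭 h𝔭) hn M
    intro i P
    obtain ⟨h, hh, hh', hP⟩ := hne P i
    have hmem : ∀ i, (D.v i).red h ∈ ic k yt := by
      intro i
      apply mem_ic_of_pow (Nat.pos_of_ne_zero hn0)
      rw [← D.c_r i hh, ← map_pow, ← hrdiv h hh, D.c_r i (hdivO h hh)]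
      exact C.red_mem _ (hdivO h hh) hh' i
    have hmem' : ∀ i, D.c i (D.datum.r h) ∈ ic k yt := fun i => by
      rw [D.c_r i hh]; exact hmem i
    have hev : ∀ (i : Fin 3) (P : ic k yt →ₐ[k] k),
        P ⟨D.c i (D.datum.r h), hmem' i⟩ = ev P ((D.v i).red h) := by
      intro i P
      rw [ev_of_mem P (hmem i)]
      congr 1
      exact Subtype.ext (D.c_r i hh)
    refine ⟨D.datum.r h, ⟨h, hh, hh', rfl⟩, ⟨h ^ n / φ, hdivO h hh, hh', hrdiv h hh⟩, hmem', ?_, ?_⟩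
    · rw [hev]
      exact hP
    · intro i' P' hag
      have hag' : ∀ b ∈ D.R.O, b ∈ ic K y → ev P' ((D.v i').red b) = ev P ((D.v i).red b) := by
        intro b hb hb'
        have h1 := hag ⟨D.datum.r b, b, hb, hb', rfl⟩
        rw [ev_of_mem P' (C.red_mem b hb hb' i'), ev_of_mem P (C.red_mem b hb hb' i)]
        have h2 : ∀ i, comp D.c (ic k yt) C.Bb (fun e he i => C.c_mem i he) i
            ⟨D.datum.r b, b, hb, hb', rfl⟩ = ⟨(D.v i).red b, C.red_mem b hb hb' i⟩ :=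
          fun i => Subtype.ext (D.c_r i hb)
        rw [h2, h2] at h1
        exact h1
      obtain ⟨rfl, h2⟩ := C.eq_of_agree' hag'
      rw [hev, hev]
      rcases h2 with rfl | h2
      · rfl
      · rw [hzt _ h2 h hh hh' i', hzt _ h2 h hh hh' i]
  exact h1M

end Chart

end Data

end Fermat.Agent.TriComp
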