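import Fermat.Agent.TriComp.Chart
import Fermat.Agent.TriComp.GlueDefs

/-!
# The two concrete charts `K[j]` and `K[1/j]`
-/

set_option autoImplicit false
set_option linter.unusedSectionVars false

open Module Polynomial AlgebraicCurve
open scoped IntermediateField

namespace Fermat.Agent.TriComp

open Fermat.Agent.TwoComp Fermat.Agent.S36norm Fermat.Agent.QX Fermat.Agent.FF

/-! ### Transfer of points between the charts -/

section Transfer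

variable {k F' : Type*} [Field k] [Field F'] [Algebra k F'] [IsFF k F']

/-- a point of `ic k t⁻¹` with `t⁻¹ ≠ 0` extends to `ic k t`. -/
theorem exists_transfer {t : F'} (ht : t ≠ 0) (P : ic k t⁻¹ →ₐ[k] k) (hP : ev P t⁻¹ ≠ 0) :
    ∃ P₁ : ic k t →ₐ[k] k, ∀ g ∈ ic k t⁻¹, ∀ l : ℕ, t ^ l * g ∈ ic k t →
      ev P₁ (t ^ l * g) * ev P t⁻¹ ^ l = ev P g := by
  have hex : ∀ x : ic k t, ∃ l : ℕ, t⁻¹ ^ l * (x : F') ∈ ic k t⁻¹ := by
    intro x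
    obtain ⟨l, hl⟩ := exists_pow_mul_mem_ic_of_inv (K := k) (inv_ne_zero ht) (f := (x : F'))
      (by rw [inv_inv]; exact x.2)
    exact ⟨l, hl l le_rfl⟩
  choose L hL using hex
  set a : k := ev P t⁻¹ with ha
  have hself : t⁻¹ ∈ ic k t⁻¹ := self_mem_ic _
  let val : ic k t → k := fun x => ev P (t⁻¹ ^ (L x) * (x : F')) / a ^ (L x)
  have hval : ∀ (x : ic k t) (m : ℕ), t⁻¹ ^ m * (x : F') ∈ ic k t⁻¹ →
      val x = ev P (t⁻¹ ^ m * (x : F')) / a ^ m := by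
    intro x m hm
    have h1 : t⁻¹ ^ m * (t⁻¹ ^ (L x) * (x : F')) = t⁻¹ ^ (L x) * (t⁻¹ ^ m * (x : F')) := by ring
    have h2 := congrArg (ev P) h1
    rw [ev_mul P (pow_mem hself m) (hL x), ev_mul P (pow_mem hself _) hm, ev_pow P hself,
      ev_pow P hself, ← ha] at h2
    simp only [val]
    rw [div_eq_div_iff (pow_ne_zero _ hP) (pow_ne_zero _ hP)]
    linear_combination h2
  have hmono : ∀ (x : ic k t) (m : ℕ), L x ≤ m → t⁻¹ ^ m * (x : F') ∈ ic k t⁻¹ := by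
    intro x m hm
    obtain ⟨d, rfl⟩ := Nat.exists_eq_add_of_le hm
    have : t⁻¹ ^ (L x + d) * (x : F') = t⁻¹ ^ d * (t⁻¹ ^ (L x) * (x : F')) := by ring
    rw [this]
    exact mul_mem (pow_mem hself d) (hL x)
  let P₁ : ic k t →ₐ[k] k :=
    { toFun := val
      map_one' := by
        rw [hval 1 0 (by simp)]
        simp
      map_zero' := by
        rw [hval 0 0 (by simp)]
        simp
      map_mul' := by
        intro x y
        have h1 : t⁻¹ ^ (L x + L y) * ((x * y : ic k t) : F') =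
            (t⁻¹ ^ (L x) * (x : F')) * (t⁻¹ ^ (L y) * (y : F')) := by
          push_cast
          ring
        rw [hval (x * y) (L x + L y) (by rw [h1]; exact mul_mem (hL x) (hL y)), h1,
          ev_mul P (hL x) (hL y)]
        simp only [val]
        rw [pow_add]
        field_simp
      map_add' := by
        intro x y
        have hx := hmono x (L x + L y) (by omega)
        have hy := hmono y (L x + L y) (by omega)
        have h1 : t⁻¹ ^ (L x + L y) * ((x + y : ic k t) : F') =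
            (t⁻¹ ^ (L x + L y) * (x : F')) + (t⁻¹ ^ (L x + L y) * (y : F')) := by
          push_cast
          ring
        rw [hval (x + y) (L x + L y) (by rw [h1]; exact add_mem hx hy), h1, ev_add P hx hy,
          hval x _ hx, hval y _ hy]
        ring
      commutes' := by
        intro c
        have h1 : t⁻¹ ^ 0 * ((algebraMap k (ic k t) c : ic k t) : F') = algebraMap k F' c := by
          rw [pow_zero, one_mul]; rfl
        rw [hval _ 0 (by rw [h1]; exact (ic k t⁻¹).algebraMap_mem c), h1, ev_algebraMap, pow_zero,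
          div_one]
        rfl }
  refine ⟨P₁, fun g hg l hl => ?_⟩
  have h1 : t⁻¹ ^ l * (t ^ l * g) = g := by
    rw [← mul_assoc, ← mul_pow, inv_mul_cancel₀ ht, one_pow, one_mul]
  have h2 : ev P₁ (t ^ l * g) = val ⟨t ^ l * g, hl⟩ := ev_of_mem P₁ hl
  rw [h2, hval ⟨t ^ l * g, hl⟩ l (by rw [h1]; exact hg), h1]
  exact div_mul_cancel₀ _ (pow_ne_zero _ hP)

end Transfer

namespace Data

variable {K F k E F' : Type*} [Field K] [Field F] [Algebra K F] [Field k] [CommRing E]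
  [Algebra k E] [Field F'] [Algebra k F'] {q : ℕ} (D : Data K F k E F' q)

theorem j_mem_O : D.j ∈ D.R.O := mem_O_of_ord_zero D.j_ne_zero D.ord_j

variable {D}

theorem mem_O_of_ord {f : F} (hf : f ≠ 0) (h : ∀ i, 0 ≤ (D.v i).ord f) : f ∈ D.R.O :=
  (D.mem_O_iff f).2 fun i => ((D.v i).mem_iff f hf).2 (h i)

theorem ord_nonneg {f : F} (hf : f ≠ 0) (h : f ∈ D.R.O) (i : Fin 3) : 0 ≤ (D.v i).ord f :=
  ((D.v i).mem_iff f hf).1 (D.mem_v h i)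

theorem red_eq_zero_of_ord {f : F} (hf : f ≠ 0) {i : Fin 3} (h : 0 < (D.v i).ord f) :
    (D.v i).red f = 0 := by
  rw [(D.v i).red_eq_zero_iff_ge (((D.v i).mem_iff f hf).2 h.le)]
  right
  omega

variable (D)

theorem ord_qp (i : Fin 3) (n : ℕ) : (D.v i).ord ((q : F) ^ n) = n * (D.v i).ord (q : F) :=
  (D.v i).ord_pow D.q_ne n

theorem ut_mem : D.ut ∈ ic k D.jt := aeval_mem_ic _ _

include D in
theorem q_inv_mem_ic (z : F) (n : ℕ) : ((q : F) ^ n)⁻¹ ∈ ic K z := by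
  have h : ((q : F) ^ n)⁻¹ = algebraMap K F (((q : K) ^ n)⁻¹) := by
    rw [map_inv₀, map_pow, map_natCast]
  rw [h]
  exact (ic K z).algebraMap_mem _

include D in
theorem q_mem_ic (z : F) (n : ℕ) : (q : F) ^ n ∈ ic K z := by
  have h : (q : F) ^ n = algebraMap K F ((q : K) ^ n) := by
    rw [map_pow, map_natCast]
  rw [h]
  exact (ic K z).algebraMap_mem _

theorem red_mem_ic {f : F} (hf : f ∈ D.R.O) (hf' : f ∈ ic K D.j) (i : Fin 3) :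
    (D.v i).red f ∈ ic k D.jt := by
  have h : (D.v i).red f ∈ ic k ((D.v i).red D.j) := D.isIntegral_red f hf hf' i
  have h1 : (D.v i).red D.j ∈ ic k D.jt := by
    fin_cases i
    · exact D.red_j0 ▸ self_mem_ic _
    · exact D.red_j1 ▸ self_mem_ic _
    · exact D.red_j2 ▸ pow_mem (self_mem_ic _) _
  exact ic_le h1 h

theorem red_mem_ic_inv {f : F} (hf : f ∈ D.R.O) (hf' : f ∈ ic K D.j⁻¹) (i : Fin 3) :
    (D.v i).red f ∈ ic k D.jt⁻¹ := by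
  have h : (D.v i).red f ∈ ic k ((D.v i).red D.j⁻¹) := D.isIntegral_red_inv f hf hf' i
  have h1 : (D.v i).red D.j⁻¹ ∈ ic k D.jt⁻¹ := by
    rw [red_j_inv]
    fin_cases i
    · exact D.red_j0 ▸ self_mem_ic _
    · exact D.red_j1 ▸ self_mem_ic _
    · have h2 : (D.v 2).red D.j = D.jt ^ (q ^ 2) := D.red_j2
      change ((D.v 2).red D.j)⁻¹ ∈ _
      rw [h2, ← inv_pow]
      exact pow_mem (self_mem_ic _) _
  exact ic_le h1 h

/-! ### orders of the basic units -/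

theorem ordq0 : (D.v 0).ord (q : F) = 1 := D.ord_q0
theorem ordq1 : (D.v 1).ord (q : F) = q - 1 := D.ord_q1
theorem ordq2 : (D.v 2).ord (q : F) = 1 := D.ord_q2
theorem ordu₁0 : (D.v 0).ord D.u₁ = 0 := by rw [D.ord_u₁]; simp
theorem ordu₁1 : (D.v 1).ord D.u₁ = 0 := by rw [D.ord_u₁]; simp
theorem ordu₁2 : (D.v 2).ord D.u₁ = 12 := by rw [D.ord_u₁]; simp
theorem ordu₂0 : (D.v 0).ord D.u₂ = 0 := by rw [D.ord_u₂]; simp
theorem ordu₂1 : (D.v 1).ord D.u₂ = 12 * ((q : ℤ) - 1) := by rw [D.ord_u₂]; simp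
theorem ordu₂2 : (D.v 2).ord D.u₂ = 12 := by rw [D.ord_u₂]; simp

include D in
theorem q_ge : (2 : ℤ) ≤ q := by exact_mod_cast D.q_two_le

theorem forall_fin3 {p : Fin 3 → Prop} (h0 : p 0) (h1 : p 1) (h2 : p 2) : ∀ i, p i := by
  intro i
  fin_cases i
  · exact h0
  · exact h1
  · exact h2

theorem u₁_mem : D.u₁ ∈ D.R.O := by
  apply mem_O_of_ord D.u₁_ne_zero
  apply forall_fin3
  · rw [D.ordu₁0]
  · rw [D.ordu₁1]
  · rw [D.ordu₁2]; norm_num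

theorem u₂_mem : D.u₂ ∈ D.R.O := by
  have := D.q_ge
  apply mem_O_of_ord D.u₂_ne_zero
  apply forall_fin3
  · rw [D.ordu₂0]
  · rw [D.ordu₂1]; linarith
  · rw [D.ordu₂2]; norm_num

theorem red0_u₂ : (D.v 0).red D.u₂ = D.ut ^ q := by
  have h1 : D.u₂ = D.u₂ / D.u₁ * D.u₁ := by rw [div_mul_cancel₀ _ D.u₁_ne_zero]
  have h2 : D.u₂ / D.u₁ ∈ (D.v 0).O := by
    apply ((D.v 0).mem_iff _ (div_ne_zero D.u₂_ne_zero D.u₁_ne_zero)).2
    rw [(D.v 0).ord_div D.u₂_ne_zero D.u₁_ne_zero, D.ordu₂0, D.ordu₁0, sub_zero]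
  have hq := D.q_two_le
  rw [h1, (D.v 0).red_mul h2 (D.mem_v D.u₁_mem 0), D.red_U, D.red_u₁', ut, ← pow_succ]
  congr 1
  omega

theorem red1_u₂ : (D.v 1).red D.u₂ = 0 := by
  have := D.q_ge
  apply red_eq_zero_of_ord D.u₂_ne_zero
  rw [D.ordu₂1]; linarith

theorem red2_u₂ : (D.v 2).red D.u₂ = 0 := by
  apply red_eq_zero_of_ord D.u₂_ne_zero
  rw [D.ordu₂2]; norm_num

theorem red2_u₁ : (D.v 2).red D.u₁ = 0 := by
  apply red_eq_zero_of_ord D.u₁_ne_zero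
  rw [D.ordu₁2]; norm_num

theorem qu₁_ne : (q : F) ^ 12 / D.u₁ ≠ 0 := div_ne_zero (pow_ne_zero _ D.q_ne) D.u₁_ne_zero

theorem ord_qu₁ (i : Fin 3) :
    (D.v i).ord ((q : F) ^ 12 / D.u₁) = 12 * (D.v i).ord (q : F) - (D.v i).ord D.u₁ := by
  rw [(D.v i).ord_div (pow_ne_zero _ D.q_ne) D.u₁_ne_zero, D.ord_qp]
  norm_num

theorem qu₁_mem : (q : F) ^ 12 / D.u₁ ∈ D.R.O := by
  have := D.q_ge
  apply mem_O_of_ord D.qu₁_ne
  apply forall_fin3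
  · rw [D.ord_qu₁, D.ordq0, D.ordu₁0]; norm_num
  · rw [D.ord_qu₁, D.ordq1, D.ordu₁1]; linarith
  · rw [D.ord_qu₁, D.ordq2, D.ordu₁2]; norm_num

theorem red0_qu₁ : (D.v 0).red ((q : F) ^ 12 / D.u₁) = 0 := by
  apply red_eq_zero_of_ord D.qu₁_ne
  rw [D.ord_qu₁, D.ordq0, D.ordu₁0]; norm_num

theorem red1_qu₁ : (D.v 1).red ((q : F) ^ 12 / D.u₁) = 0 := by
  have := D.q_ge
  apply red_eq_zero_of_ord D.qu₁_ne
  rw [D.ord_qu₁, D.ordq1, D.ordu₁1]; linarith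

theorem qu₁_mem_ic : (q : F) ^ 12 / D.u₁ ∈ ic K D.j := by
  rw [div_eq_mul_inv]
  exact mul_mem (D.q_mem_ic _ _) D.isIntegral_u₁_inv

/-! ### Gluing in the chart `K[j]` -/

variable {D}

theorem ev_red1_of_ge0 {P : ic k D.jt →ₐ[k] k} (hP : ev P D.ut = 0) {f : F} (hf : f ∈ D.R.O)
    (hf' : f ∈ ic K D.j) (h : (D.v 0).Ge 1 f) : ev P ((D.v 1).red f) = 0 := by
  rcases eq_or_ne f 0 with rfl | hf0
  · rw [DV.red_zero, ev_zero]
  have h := h.resolve_left hf0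
  have hq := D.q_ge
  have hg0 : D.u₂ / (q : F) ^ 12 ≠ 0 := div_ne_zero D.u₂_ne_zero (pow_ne_zero _ D.q_ne)
  have hgo : ∀ i, (D.v i).ord (D.u₂ / (q : F) ^ 12) = (D.v i).ord D.u₂ - 12 * (D.v i).ord (q : F) := by
    intro i
    rw [(D.v i).ord_div D.u₂_ne_zero (pow_ne_zero _ D.q_ne), D.ord_qp]
    norm_num
  have hw : f ^ 12 * (D.u₂ / (q : F) ^ 12) ∈ D.R.O := by
    apply mem_O_of_ord (mul_ne_zero (pow_ne_zero _ hf0) hg0)
    have ho : ∀ i, (D.v i).ord (f ^ 12 * (D.u₂ / (q : F) ^ 12)) =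
        12 * (D.v i).ord f + ((D.v i).ord D.u₂ - 12 * (D.v i).ord (q : F)) := by
      intro i
      rw [(D.v i).ord_mul _ _ (pow_ne_zero _ hf0) hg0, hgo, (D.v i).ord_pow hf0]
      norm_num
    apply forall_fin3
    · rw [ho, D.ordu₂0, D.ordq0]; linarith
    · have := ord_nonneg hf0 hf 1
      rw [ho, D.ordu₂1, D.ordq1]; linarith
    · have := ord_nonneg hf0 hf 2
      rw [ho, D.ordu₂2, D.ordq2]; linarith
  have hw' : f ^ 12 * (D.u₂ / (q : F) ^ 12) ∈ ic K D.j := by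
    rw [div_eq_mul_inv]
    exact mul_mem (pow_mem hf' 12) (mul_mem D.isIntegral_u₂ (D.q_inv_mem_ic _ _))
  have hg1 : D.u₂ / (q : F) ^ 12 ∈ (D.v 1).O := by
    apply ((D.v 1).mem_iff _ hg0).2
    rw [hgo, D.ordu₂1, D.ordq1]
    linarith
  have h1 : (D.v 1).red f ^ 12 = D.ut * (D.v 1).red (f ^ 12 * (D.u₂ / (q : F) ^ 12)) := by
    rw [(D.v 1).red_mul (pow_mem (D.mem_v hf 1) 12) hg1, D.red_u₂_div_q,
      (D.v 1).red_pow (D.mem_v hf 1)]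
    have := D.ut_ne_zero
    rw [ut] at this ⊢
    field_simp
  have h2 := congrArg (ev P) h1
  rw [ev_pow P (D.red_mem_ic hf hf' 1), ev_mul P D.ut_mem (D.red_mem_ic hw hw' 1)] at h2
  rw [show ev P (D.ut) = 0 from hP, zero_mul] at h2
  exact eq_zero_of_pow_eq_zero h2

theorem ev_red1_of_ge2 {P : ic k D.jt →ₐ[k] k} (hP : ev P D.ut = 0) {f : F} (hf : f ∈ D.R.O)
    (hf' : f ∈ ic K D.j) (h : (D.v 2).Ge 1 f) : ev P ((D.v 1).red f) = 0 := by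
  rcases eq_or_ne f 0 with rfl | hf0
  · rw [DV.red_zero, ev_zero]
  have h := h.resolve_left hf0
  have hw : f ^ 12 / D.u₁ ∈ D.R.O := by
    apply mem_O_of_ord (div_ne_zero (pow_ne_zero _ hf0) D.u₁_ne_zero)
    have ho : ∀ i, (D.v i).ord (f ^ 12 / D.u₁) = 12 * (D.v i).ord f - (D.v i).ord D.u₁ := by
      intro i
      rw [(D.v i).ord_div (pow_ne_zero _ hf0) D.u₁_ne_zero, (D.v i).ord_pow hf0]
      norm_num
    apply forall_fin3
    · have := ord_nonneg hf0 hf 0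
      rw [ho, D.ordu₁0]; linarith
    · have := ord_nonneg hf0 hf 1
      rw [ho, D.ordu₁1]; linarith
    · rw [ho, D.ordu₁2]; linarith
  have hw' : f ^ 12 / D.u₁ ∈ ic K D.j := by
    rw [div_eq_mul_inv]
    exact mul_mem (pow_mem hf' 12) D.isIntegral_u₁_inv
  have h1 : (D.v 1).red f ^ 12 = D.ut * (D.v 1).red (f ^ 12 / D.u₁) := by
    rw [(D.v 1).red_div (pow_mem (D.mem_v hf 1) 12) D.u₁_ne_zero D.ordu₁1, D.red_u₁,
      (D.v 1).red_pow (D.mem_v hf 1)]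
    have := D.ut_ne_zero
    rw [ut] at this ⊢
    field_simp
  have h2 := congrArg (ev P) h1
  rw [ev_pow P (D.red_mem_ic hf hf' 1), ev_mul P D.ut_mem (D.red_mem_ic hw hw' 1)] at h2
  rw [show ev P (D.ut) = 0 from hP, zero_mul] at h2
  exact eq_zero_of_pow_eq_zero h2

/-- gluing at the points of `ũ = 0`. -/
theorem Glue.ss (G : D.Glue) {P : ic k D.jt →ₐ[k] k} (hP : ev P D.ut = 0) {b : F}
    (hb : b ∈ D.R.O) (hb' : b ∈ ic K D.j) (i : Fin 3) :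
    ev P ((D.v i).red b) = ev P ((D.v 1).red b) := by
  revert i
  apply forall_fin3
  · obtain ⟨f, hf, hf', h0, h1⟩ := G.al _ (D.red_mem_ic hb hb' 0)
    have h2 : ev P ((D.v 1).red (b - f)) = 0 := by
      apply ev_red1_of_ge0 hP (sub_mem hb hf) (sub_mem hb' hf')
      rw [← (D.v 0).red_eq_zero_iff_ge (D.mem_v (sub_mem hb hf) 0),
        (D.v 0).red_sub (D.mem_v hb 0) (D.mem_v hf 0), h0, sub_self]
    rw [(D.v 1).red_sub (D.mem_v hb 1) (D.mem_v hf 1),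
      ev_sub P (D.red_mem_ic hb hb' 1) (D.red_mem_ic hf hf' 1), h1, sub_eq_zero] at h2
    exact h2.symm
  · rfl
  · obtain ⟨f, hf, hf', h1, h0⟩ := G.be _ (D.red_mem_ic hb hb' 2)
    have h2 : ev P ((D.v 1).red (b - f)) = 0 := by
      apply ev_red1_of_ge2 hP (sub_mem hb hf) (sub_mem hb' hf')
      rw [← (D.v 2).red_eq_zero_iff_ge (D.mem_v (sub_mem hb hf) 2),
        (D.v 2).red_sub (D.mem_v hb 2) (D.mem_v hf 2), h0, sub_self]
    rw [(D.v 1).red_sub (D.mem_v hb 1) (D.mem_v hf 1),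
      ev_sub P (D.red_mem_ic hb hb' 1) (D.red_mem_ic hf hf' 1), h1, sub_eq_zero] at h2
    exact h2.symm

/-- the chart `K[j]`. -/
theorem Glue.chart (G : D.Glue) : D.Chart D.j D.jt D.ut where
  y_ne_zero := D.j_ne_zero
  g₀_mem := aeval_mem_ic _ _
  red_mem _ hf hf' i := D.red_mem_ic hf hf' i
  int := by
    have hq := D.q_two_le
    apply forall_fin3
    · exact ⟨D.j, D.j_mem_O, self_mem_ic _, by rw [D.red_j0]; exact self_mem_ic _⟩
    · exact ⟨D.j, D.j_mem_O, self_mem_ic _, by rw [D.red_j1]; exact self_mem_ic _⟩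
    · exact ⟨D.j, D.j_mem_O, self_mem_ic _, by rw [D.red_j2]; exact mem_ic_pow (by positivity)⟩
  al g hg := G.al g hg
  h0 := ⟨q, D.u₂, D.u₂_mem, D.isIntegral_u₂, D.red0_u₂, D.red1_u₂, D.red2_u₂⟩
  h01 := ⟨1, one_pos, D.u₁, D.u₁_mem, D.isIntegral_u₁, by rw [pow_one]; exact D.red_u₁',
    by rw [pow_one]; exact D.red_u₁, D.red2_u₁⟩
  h2 g hg := by
    obtain ⟨f, hf, hf', h1, h2⟩ := G.be g hg
    refine ⟨q, ⟨(q : F) ^ 12 / D.u₁, D.qu₁_mem, D.qu₁_mem_ic, D.red0_qu₁, D.red1_qu₁,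
      D.red_q_div_u₁⟩, ⟨(q : F) ^ 12 / D.u₁ * f, mul_mem D.qu₁_mem hf,
      mul_mem D.qu₁_mem_ic hf', ?_, ?_, ?_⟩⟩
    · rw [(D.v 0).red_mul (D.mem_v D.qu₁_mem 0) (D.mem_v hf 0), D.red0_qu₁, zero_mul]
    · rw [(D.v 1).red_mul (D.mem_v D.qu₁_mem 1) (D.mem_v hf 1), D.red1_qu₁, zero_mul]
    · rw [(D.v 2).red_mul (D.mem_v D.qu₁_mem 2) (D.mem_v hf 2), D.red_q_div_u₁, h2]
      rfl
  ss P hP b hb hb' i := G.ss hP hb hb' i

/-! ### The chart `K[1/j]` -/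

variable (D) in
/-- `ĝ = ũ j^{-(q-1)}` -/
noncomputable def gt : F' := D.ut * D.jt⁻¹ ^ (q - 1)

theorem gt_eq : D.gt = aeval D.jt⁻¹ D.Pu.reverse := by
  have h0 := D.jt_ne_zero
  let _ : Invertible D.jt := invertibleOfNonzero h0
  have := eval₂_reverse_mul_pow (algebraMap k F') D.jt D.Pu
  rw [invOf_eq_inv] at this
  rw [gt, ut, aeval_def, aeval_def, ← this, D.natDegree_Pu, mul_assoc, ← mul_pow,
    mul_inv_cancel₀ h0, one_pow, mul_one]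

theorem gt_mem : D.gt ∈ ic k D.jt⁻¹ := by
  rw [gt_eq]
  exact aeval_mem_ic _ _

theorem gt_pow (n : ℕ) : D.gt ^ n = D.ut ^ n * D.jt⁻¹ ^ ((q - 1) * n) := by
  rw [gt, mul_pow, ← pow_mul]

theorem ev_jt_inv_ne {P : ic k D.jt⁻¹ →ₐ[k] k} (hP : ev P D.gt = 0) : ev P D.jt⁻¹ ≠ 0 := by
  intro h
  rw [gt_eq, ev_aeval P (self_mem_ic _), h, ← coeff_zero_eq_eval_zero, coeff_zero_reverse] at hP
  exact D.Pu_ne_zero (leadingCoeff_eq_zero.mp hP)

variable (D) in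
theorem j_inv_ne : D.j⁻¹ ≠ 0 := inv_ne_zero D.j_ne_zero

variable (D) in
theorem ord_j_inv (i : Fin 3) : (D.v i).ord D.j⁻¹ = 0 := by
  rw [(D.v i).ord_inv D.j_ne_zero, D.ord_j, neg_zero]

section

variable [IsFF k F']

/-- Equality of values at the three components passes from the affine chart to the chart at
infinity. -/
theorem transfer_red {P : ic k D.jt⁻¹ →ₐ[k] k} (ha : ev P D.jt⁻¹ ≠ 0) {P₁ : ic k D.jt →ₐ[k] k}
    (hP₁ : ∀ g ∈ ic k D.jt⁻¹, ∀ l : ℕ, D.jt ^ l * g ∈ ic k D.jt →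
      ev P₁ (D.jt ^ l * g) * ev P D.jt⁻¹ ^ l = ev P g)
    (hj : ev P₁ ((D.v 2).red D.j) = ev P₁ ((D.v 1).red D.j)) {f : F} (hf : f ∈ D.R.O)
    (hfi : ∀ i, (D.v i).red f ∈ ic k D.jt⁻¹) {m : ℕ}
    (hfj : ∀ i, (D.v i).red (D.j ^ m * f) ∈ ic k D.jt)
    (hval : ∀ i, ev P₁ ((D.v i).red (D.j ^ m * f)) = ev P₁ ((D.v 1).red (D.j ^ m * f))) (i : Fin 3) :
    ev P ((D.v i).red f) = ev P ((D.v 1).red f) := by
  have h0 := D.jt_ne_zero
  set a := ev P D.jt⁻¹ with hadef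
  have hred : ∀ i, (D.v i).red (D.j ^ m * f) = (D.v i).red D.j ^ m * (D.v i).red f := by
    intro i
    rw [(D.v i).red_mul (pow_mem (D.mem_v D.j_mem_O i) m) (D.mem_v hf i),
      (D.v i).red_pow (D.mem_v D.j_mem_O i)]
  have h1 : ev P₁ D.jt * a = 1 := by
    have := hP₁ 1 (one_mem _) 1 (by rw [pow_one, mul_one]; exact self_mem_ic _)
    rw [pow_one, mul_one, pow_one, ev_one] at this
    exact this
  have h2 : ev P₁ D.jt = a⁻¹ := eq_inv_of_mul_eq_one_left h1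
  have hq2 : a ^ (q ^ 2) = a := by
    rw [D.red_j2, D.red_j1, ev_pow P₁ (self_mem_ic _), h2, inv_pow] at hj
    exact inv_injective hj
  have e1 : ev P₁ ((D.v 1).red (D.j ^ m * f)) * a ^ m = ev P ((D.v 1).red f) := by
    have h3 := hfj 1
    rw [hred, D.red_j1] at h3 ⊢
    exact hP₁ _ (hfi 1) m h3
  revert i
  apply forall_fin3
  · rw [← e1, ← hval 0]
    have h3 := hfj 0
    rw [hred, D.red_j0] at h3 ⊢
    exact (hP₁ _ (hfi 0) m h3).symm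
  · rfl
  · rw [← e1, ← hval 2]
    have h3 := hfj 2
    rw [hred, D.red_j2, ← pow_mul] at h3 ⊢
    rw [← hP₁ _ (hfi 2) (q ^ 2 * m) h3, pow_mul a, hq2]

theorem Glue.ss_inv [IsFF K F] (G : D.Glue) {P : ic k D.jt⁻¹ →ₐ[k] k} (hP : ev P D.gt = 0) :
    ev P D.jt⁻¹ ≠ 0 ∧ ∃ P₁ : ic k D.jt →ₐ[k] k, ev P₁ D.ut = 0 ∧
      (∀ g ∈ ic k D.jt⁻¹, ∀ l : ℕ, D.jt ^ l * g ∈ ic k D.jt →
        ev P₁ (D.jt ^ l * g) * ev P D.jt⁻¹ ^ l = ev P g) ∧
      ev P₁ ((D.v 2).red D.j) = ev P₁ ((D.v 1).red D.j) ∧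
      ∀ b ∈ D.R.O, b ∈ ic K D.j⁻¹ → ∀ i, ev P ((D.v i).red b) = ev P ((D.v 1).red b) := by
  have h0 := D.jt_ne_zero
  have ha := ev_jt_inv_ne hP
  obtain ⟨P₁, hP₁⟩ := exists_transfer h0 P ha
  have hut : D.jt ^ (q - 1) * D.gt = D.ut := by
    rw [gt, mul_comm D.ut, ← mul_assoc, ← mul_pow, mul_inv_cancel₀ h0, one_pow, one_mul]
  have hP₁u : ev P₁ D.ut = 0 := by
    have := hP₁ D.gt gt_mem (q - 1) (by rw [hut]; exact D.ut_mem)
    rw [hut, hP] at this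
    exact (mul_eq_zero.mp this).resolve_right (pow_ne_zero _ ha)
  have hj := G.ss hP₁u D.j_mem_O (self_mem_ic _) 2
  refine ⟨ha, P₁, hP₁u, hP₁, hj, fun b hb hb' i => ?_⟩
  obtain ⟨l, hl⟩ := exists_pow_mul_mem_ic_of_inv D.j_ne_zero hb'
  have hl := hl l le_rfl
  have hlO : D.j ^ l * b ∈ D.R.O := mul_mem (pow_mem D.j_mem_O l) hb
  exact transfer_red ha hP₁ hj hb (fun i => D.red_mem_ic_inv hb hb' i)
    (fun i => D.red_mem_ic hlO hl i) (fun i => G.ss hP₁u hlO hl i) i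

end

/-! the function `Y` -/

variable (D) in
theorem u₁u₂_ne : D.u₁ * D.u₂ ≠ 0 := mul_ne_zero D.u₁_ne_zero D.u₂_ne_zero

namespace Glue

variable (G : D.Glue)
include G

/-- `q^24/(u₁u₂) jq2/j` -/
noncomputable def Y (G : D.Glue) : F := (q : F) ^ 24 / (D.u₁ * D.u₂) * G.jq2 / D.j

theorem Y_ne : G.Y ≠ 0 :=
  div_ne_zero (mul_ne_zero (div_ne_zero (pow_ne_zero _ D.q_ne) D.u₁u₂_ne) G.jq2_ne_zero)
    D.j_ne_zero

theorem Y_eq : G.Y = ((q : F) ^ 12 / D.u₁) * (((q : F) ^ 12 / D.u₂) * (G.jq2 / D.j)) := by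
  rw [Y]
  have h1 := D.u₁_ne_zero
  have h2 := D.u₂_ne_zero
  have h3 := D.j_ne_zero
  field_simp

theorem ord_Y (i : Fin 3) : (D.v i).ord G.Y =
    24 * (D.v i).ord (q : F) - (D.v i).ord D.u₁ - (D.v i).ord D.u₂ := by
  have hq24 : (q : F) ^ 24 ≠ 0 := pow_ne_zero _ D.q_ne
  rw [Y, (D.v i).ord_div (mul_ne_zero (div_ne_zero hq24 D.u₁u₂_ne) G.jq2_ne_zero) D.j_ne_zero,
    (D.v i).ord_mul _ _ (div_ne_zero hq24 D.u₁u₂_ne) G.jq2_ne_zero,
    (D.v i).ord_div hq24 D.u₁u₂_ne, (D.v i).ord_mul _ _ D.u₁_ne_zero D.u₂_ne_zero, D.ord_qp,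
    G.ord_jq2, D.ord_j]
  push_cast
  ring

theorem ord_Y0 : (D.v 0).ord G.Y = 24 := by
  rw [G.ord_Y, D.ordq0, D.ordu₁0, D.ordu₂0]; norm_num

theorem ord_Y1 : (D.v 1).ord G.Y = 12 * ((q : ℤ) - 1) := by
  rw [G.ord_Y, D.ordq1, D.ordu₁1, D.ordu₂1]; ring

theorem ord_Y2 : (D.v 2).ord G.Y = 0 := by
  rw [G.ord_Y, D.ordq2, D.ordu₁2, D.ordu₂2]; norm_num

theorem Y_mem : G.Y ∈ D.R.O := by
  have := D.q_ge
  apply mem_O_of_ord G.Y_ne
  apply forall_fin3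
  · rw [G.ord_Y0]; norm_num
  · rw [G.ord_Y1]; linarith
  · rw [G.ord_Y2]

theorem red_Y0 : (D.v 0).red G.Y = 0 := by
  apply red_eq_zero_of_ord G.Y_ne
  rw [G.ord_Y0]; norm_num

theorem red_Y1 : (D.v 1).red G.Y = 0 := by
  have := D.q_ge
  apply red_eq_zero_of_ord G.Y_ne
  rw [G.ord_Y1]; linarith

theorem red_Y2 : (D.v 2).red G.Y = D.gt ^ (q + 1) := by
  have h0 := D.jt_ne_zero
  have hq := D.q_two_le
  have hqu₂ : (q : F) ^ 12 / D.u₂ ∈ (D.v 2).O := by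
    apply ((D.v 2).mem_iff _ (div_ne_zero (pow_ne_zero _ D.q_ne) D.u₂_ne_zero)).2
    rw [(D.v 2).ord_div (pow_ne_zero _ D.q_ne) D.u₂_ne_zero, D.ord_qp, D.ordq2, D.ordu₂2]
    norm_num
  have hjj : G.jq2 / D.j ∈ (D.v 2).O :=
    (D.v 2).div_mem ((D.v 2).mem_of_ord_eq_zero G.jq2_ne_zero (G.ord_jq2 2)) D.j_ne_zero (D.ord_j 2)
  rw [G.Y_eq, (D.v 2).red_mul (D.mem_v D.qu₁_mem 2) (mul_mem hqu₂ hjj),
    (D.v 2).red_mul hqu₂ hjj, D.red_q_div_u₁, G.red_q_div_u₂,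
    (D.v 2).red_div ((D.v 2).mem_of_ord_eq_zero G.jq2_ne_zero (G.ord_jq2 2)) D.j_ne_zero
      (D.ord_j 2), G.red_jq2, D.red_j2, gt_pow]
  change D.ut ^ q * (D.ut * _) = _
  have h1 : q ^ 2 = (q - 1) * (q + 1) + 1 := by
    obtain ⟨r, rfl⟩ : ∃ r, q = r + 1 := ⟨q - 1, by omega⟩
    rw [Nat.add_sub_cancel]
    ring
  have h2 : D.jt / D.jt ^ q ^ 2 = D.jt⁻¹ ^ ((q - 1) * (q + 1)) := by
    rw [h1, pow_succ, inv_pow]
    field_simp
  rw [h2]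
  ring

theorem Y_mem_ic : G.Y ∈ ic K D.j⁻¹ := G.Y_int

/-- elements integral over `K[1/jq2]` become integral over `K[1/j]` after multiplication by a
power of `Y`. -/
theorem exists_Y_pow [IsFF K F] {f : F} (hf : f ∈ ic K G.jq2⁻¹) :
    ∃ l : ℕ, ∀ m, l ≤ m → G.Y ^ m * f ∈ ic K D.j⁻¹ := by
  apply exists_pow_mul_mem_ic D.j_inv_ne G.Y_ne G.Y_mem_ic
  intro hf0 w hw hYw
  rw [mem_ic_iff_place (inv_ne_zero G.jq2_ne_zero) hf0] at hf
  apply hf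
  have hW0 : (q : F) ^ 24 / (D.u₁ * D.u₂) / D.j ≠ 0 :=
    div_ne_zero (div_ne_zero (pow_ne_zero _ D.q_ne) D.u₁u₂_ne) D.j_ne_zero
  have hW : (q : F) ^ 24 / (D.u₁ * D.u₂) / D.j ∈ ic K D.j⁻¹ := G.W_int
  rw [mem_ic_iff_place D.j_inv_ne hW0] at hW
  have h1 := hW w hw
  have h2 : G.Y = (q : F) ^ 24 / (D.u₁ * D.u₂) / D.j * G.jq2 := by
    rw [Y]
    ring
  rw [h2, w.ord_mul hW0 G.jq2_ne_zero] at hYw
  rw [w.ord_inv]
  omega

/-- the chart `K[1/j]`. -/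
theorem chart_inv [IsFF K F] [IsFF k F'] : D.Chart D.j⁻¹ D.jt⁻¹ D.gt where
  y_ne_zero := D.j_inv_ne
  g₀_mem := gt_mem
  red_mem _ hf hf' i := D.red_mem_ic_inv hf hf' i
  int := by
    have hq := D.q_two_le
    apply forall_fin3
    · exact ⟨D.j⁻¹, j_inv_memO, self_mem_ic _, by
        rw [red_j_inv, D.red_j0]; exact self_mem_ic _⟩
    · exact ⟨D.j⁻¹, j_inv_memO, self_mem_ic _, by
        rw [red_j_inv, D.red_j1]; exact self_mem_ic _⟩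
    · exact ⟨D.j⁻¹, j_inv_memO, self_mem_ic _, by
        rw [red_j_inv, D.red_j2, ← inv_pow]; exact mem_ic_pow (by positivity)⟩
  al g hg := G.al_inv g hg
  h0 := by
    have hj := pow_mem (j_inv_memO (D := D)) (q ^ 2 - q)
    refine ⟨q, D.u₂ * D.j⁻¹ ^ (q ^ 2 - q), mul_mem D.u₂_mem hj, G.u₂_inv, ?_, ?_, ?_⟩
    · rw [(D.v 0).red_mul (D.mem_v D.u₂_mem 0) (D.mem_v hj 0), D.red0_u₂,
        (D.v 0).red_pow (D.mem_v j_inv_memO 0), red_j_inv, D.red_j0, gt_pow]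
      congr 2
      rw [sq, Nat.sub_mul, one_mul]
    · rw [(D.v 1).red_mul (D.mem_v D.u₂_mem 1) (D.mem_v hj 1), D.red1_u₂, zero_mul]
    · rw [(D.v 2).red_mul (D.mem_v D.u₂_mem 2) (D.mem_v hj 2), D.red2_u₂, zero_mul]
  h01 := by
    have hj := pow_mem (j_inv_memO (D := D)) (q - 1)
    refine ⟨1, one_pos, D.u₁ * D.j⁻¹ ^ (q - 1), mul_mem D.u₁_mem hj, G.u₁_inv, ?_, ?_, ?_⟩
    · rw [(D.v 0).red_mul (D.mem_v D.u₁_mem 0) (D.mem_v hj 0), D.red_u₁',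
        (D.v 0).red_pow (D.mem_v j_inv_memO 0), red_j_inv, D.red_j0, gt_pow, mul_one, pow_one]
      rfl
    · rw [(D.v 1).red_mul (D.mem_v D.u₁_mem 1) (D.mem_v hj 1), D.red_u₁,
        (D.v 1).red_pow (D.mem_v j_inv_memO 1), red_j_inv, D.red_j1, gt_pow, mul_one, pow_one]
      rfl
    · rw [(D.v 2).red_mul (D.mem_v D.u₁_mem 2) (D.mem_v hj 2), D.red2_u₁, zero_mul]
  h2 g hg := by
    obtain ⟨f, hf, hf', h2⟩ := G.be_inv g hg
    obtain ⟨l, hl⟩ := G.exists_Y_pow hf'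
    have hYO : G.Y ^ (l + 1) ∈ D.R.O := pow_mem G.Y_mem _
    refine ⟨(q + 1) * (l + 1), ⟨G.Y ^ (l + 1), hYO, pow_mem G.Y_mem_ic _, ?_, ?_, ?_⟩,
      ⟨G.Y ^ (l + 1) * f, mul_mem hYO hf, hl (l + 1) (by omega), ?_, ?_, ?_⟩⟩
    · rw [(D.v 0).red_pow (D.mem_v G.Y_mem 0), G.red_Y0, zero_pow (by omega)]
    · rw [(D.v 1).red_pow (D.mem_v G.Y_mem 1), G.red_Y1, zero_pow (by omega)]
    · rw [(D.v 2).red_pow (D.mem_v G.Y_mem 2), G.red_Y2, pow_mul]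
    · rw [(D.v 0).red_mul (D.mem_v hYO 0) (D.mem_v hf 0), (D.v 0).red_pow (D.mem_v G.Y_mem 0),
        G.red_Y0, zero_pow (by omega), zero_mul]
    · rw [(D.v 1).red_mul (D.mem_v hYO 1) (D.mem_v hf 1), (D.v 1).red_pow (D.mem_v G.Y_mem 1),
        G.red_Y1, zero_pow (by omega), zero_mul]
    · rw [(D.v 2).red_mul (D.mem_v hYO 2) (D.mem_v hf 2), (D.v 2).red_pow (D.mem_v G.Y_mem 2),
        G.red_Y2, pow_mul, h2]
  ss P hP b hb hb' i := by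
    obtain ⟨-, -, -, -, -, h⟩ := G.ss_inv hP
    exact h b hb hb' i

end Glue

end Data

end Fermat.Agent.TriComp
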