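import Fermat.Agent.TriComp.Upper
import Fermat.Agent.FF.AlgClosed
import Fermat.Agent.FF.Extension
import Fermat.Agent.RR.Weil

/-!
# The graded pieces are full Riemann--Roch spaces
-/

set_option autoImplicit false

open Module Polynomial AlgebraicCurve WithZero
open scoped IntermediateField

namespace Fermat.Agent.TriComp

open Fermat.Agent.TwoComp Fermat.Agent.S36norm Fermat.Agent.RR Fermat.Agent.FF

section General

variable {k F' : Type*} [Field k] [Field F'] [Algebra k F']

lemma ord_aeval_of_neg (P : Place k F') {y : F'} (hy : P.ord y < 0) {p : k[X]} (hp : p ≠ 0) :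
    aeval y p ≠ 0 ∧ P.ord (aeval y p) = p.natDegree * P.ord y := by
  have hy0 : y ≠ 0 := by rintro rfl; simp at hy
  have h1 : 0 < P.ord y⁻¹ := by rw [P.ord_inv]; omega
  have h2 : (reverse p).coeff 0 ≠ 0 := by
    rw [coeff_zero_reverse]; exact leadingCoeff_ne_zero.2 hp
  obtain ⟨h3, h4⟩ := FF.ord_aeval_eq_zero P h1 h2
  have h5 : aeval y p = aeval y⁻¹ (reverse p) * y ^ p.natDegree := by
    rw [aeval_def, aeval_def]
    let _ : Invertible y := invertibleOfNonzero hy0
    have := eval₂_reverse_mul_pow (algebraMap k F') y p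
    rw [invOf_eq_inv] at this
    exact this.symm
  have h6 : y ^ p.natDegree ≠ 0 := pow_ne_zero _ hy0
  rw [h5]
  refine ⟨mul_ne_zero h3 h6, ?_⟩
  rw [P.ord_mul h3 h6, h4, FF.ord_pow, zero_add]

/-- integrality over `k[y]` at a place where `y` is regular. -/
lemma ord_nonneg_of_isIntegral (P : Place k F') {y z : F'} (hy : y ∈ P.toValuationSubring)
    (hz : IsIntegral (Algebra.adjoin k {y}) z) : z ∈ P.toValuationSubring := by
  have hle : ∀ r ∈ Algebra.adjoin k {y}, r ∈ P.toValuationSubring := by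
    intro r hr
    rw [Algebra.adjoin_singleton_eq_range_aeval] at hr
    obtain ⟨p, rfl⟩ := hr
    exact FF.aeval_mem P hy p
  let _ : Algebra (Algebra.adjoin k {y}) P.toValuationSubring :=
    ((Algebra.adjoin k {y}).toSubring.subtype.codRestrict P.toValuationSubring.toSubring
      (fun x => hle x x.2)).toAlgebra
  have : IsScalarTower (Algebra.adjoin k {y}) P.toValuationSubring F' :=
    IsScalarTower.of_algebraMap_eq fun a => rfl
  have h1 : IsIntegral P.toValuationSubring z := hz.tower_top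
  obtain ⟨w, hw⟩ := IsIntegrallyClosed.isIntegral_iff.mp h1
  exact hw ▸ w.2

end General

variable {K F k E F' : Type*} [Field K] [Field F] [Algebra K F] [Field k] [CommRing E]
    [Algebra k E] [Field F'] [Algebra k F'] {q : ℕ}

namespace Data

variable (D : Data K F k E F' q) [IsFF k F']

/-- the function `ũ`. -/
noncomputable def ut : F' := aeval D.jt D.Pu

/-- `Q(j)`. -/
noncomputable def Qt : F' := aeval D.jt D.Q

/-- the base divisors. -/
noncomputable def D0 (s : ℕ) : Divisor k F' :=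
  if s + 1 < q then
    Finsupp.zipWith (fun a b : ℤ => if 0 ≤ a then (s * b) / 6 else s * a) (by simp)
      (RR.div D.jt) (RR.div D.Qt)
  else if s + 1 = q then
    Finsupp.zipWith (fun a b : ℤ => if 0 ≤ a then (-((q - 1 : ℤ) * b)) / 12 else 0) (by simp)
      (RR.div D.jt) (RR.div D.ut)
  else
    Finsupp.zipWith (fun a b : ℤ => if 0 ≤ a then (-((q : ℤ) * b)) / 12 else 0) (by simp)
      (RR.div D.jt) (RR.div D.ut)

lemma D0_lt {s : ℕ} (hs : s + 1 < q) (P : Place k F') :
    D.D0 s P = if 0 ≤ P.ord D.jt then (s * P.ord D.Qt) / 6 else s * P.ord D.jt := by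
  rw [D0, if_pos hs, Finsupp.zipWith_apply, div_apply, div_apply]

lemma D0_eq {s : ℕ} (hs : s + 1 = q) (P : Place k F') :
    D.D0 s P = if 0 ≤ P.ord D.jt then (-((q - 1 : ℤ) * P.ord D.ut)) / 12 else 0 := by
  rw [D0, if_neg (by omega), if_pos hs, Finsupp.zipWith_apply, div_apply, div_apply]

lemma D0_gt {s : ℕ} (hs : s = q) (P : Place k F') :
    D.D0 s P = if 0 ≤ P.ord D.jt then (-((q : ℤ) * P.ord D.ut)) / 12 else 0 := by
  rw [D0, if_neg (by omega), if_neg (by omega), Finsupp.zipWith_apply, div_apply, div_apply]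

/-- the slope of the `s`-th piece. -/
def slope (q s : ℕ) : ℕ := if s = q then q ^ 2 else 1

/-- the divisor of the `s`-th piece. -/
noncomputable def Dv (s r : ℕ) : Divisor k F' := D.D0 s + (r * slope q s) • RR.pole D.jt

/-- the `s`-th piece. -/
noncomputable def X (s r : ℕ) : Submodule k F' := riemannRochSpace (D.Dv s r)

lemma Dv_apply (s r : ℕ) (P : Place k F') :
    D.Dv s r P = D.D0 s P + (r * slope q s) * max (-P.ord D.jt) 0 := by
  rw [Dv, Finsupp.add_apply, Finsupp.smul_apply, pole_apply, nsmul_eq_mul]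
  push_cast; ring

omit [IsFF k F'] in
lemma jt_ne_zero : D.jt ≠ 0 := by
  intro h
  exact D.jt_transcendental (h ▸ isAlgebraic_zero)

omit [IsFF k F'] in
lemma Qt_ne_zero : D.Qt ≠ 0 := by
  intro h
  have h1 := (transcendental_iff.1 D.jt_transcendental) D.Q h
  have := D.natDegree_Q
  rw [h1] at this; simp at this

omit [IsFF k F'] in
lemma ut_ne_zero : D.ut ≠ 0 := by
  intro h
  exact D.Pu_ne_zero ((transcendental_iff.1 D.jt_transcendental) D.Pu h)

lemma degree_pole : Divisor.degree (RR.pole D.jt : Divisor k F') = D.ψ := by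
  have h1 : (RR.pole D.jt : Divisor k F') = zeroDiv (D.jt⁻¹) := by
    ext P
    rw [pole_apply, zeroDiv_apply, P.ord_inv]
  have h2 : Transcendental k D.jt⁻¹ := fun h => D.jt_transcendental (IsAlgebraic.inv_iff.1 h)
  have h3 : k⟮D.jt⁻¹⟯ = k⟮D.jt⟯ := by
    apply le_antisymm
    · rw [IntermediateField.adjoin_simple_le_iff]
      exact inv_mem (IntermediateField.mem_adjoin_simple_self k D.jt)
    · rw [IntermediateField.adjoin_simple_le_iff]
      have := inv_mem (IntermediateField.mem_adjoin_simple_self k D.jt⁻¹)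
      rwa [inv_inv] at this
  rw [h1, degree_zeroDiv h2, ← D.finrank_F', h3]

omit [IsFF k F'] in
lemma ord_Qt {P : Place k F'} (hP : P.ord D.jt < 0) : P.ord D.Qt = 7 * P.ord D.jt := by
  have hQ : D.Q ≠ 0 := by
    intro h; have := D.natDegree_Q; rw [h] at this; simp at this
  have := (ord_aeval_of_neg P hP hQ).2
  rw [D.natDegree_Q] at this
  exact_mod_cast this

omit [IsFF k F'] in
lemma ord_ut {P : Place k F'} (hP : P.ord D.jt < 0) : P.ord D.ut = (q - 1) * P.ord D.jt := by
  have hq := D.q_two_le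
  have := (ord_aeval_of_neg P hP D.Pu_ne_zero).2
  rw [D.natDegree_Pu, Nat.cast_sub (by omega)] at this
  exact_mod_cast this

lemma degree_D0_lt {s : ℕ} (hs : s + 1 < q) : 6 * Divisor.degree (D.D0 s) ≤ s * D.ψ := by
  have h1 : (6 : ℕ) • D.D0 s ≤ s • (RR.div D.Qt : Divisor k F') + s • RR.pole D.jt := by
    intro P
    rw [Finsupp.add_apply, Finsupp.smul_apply, Finsupp.smul_apply, Finsupp.smul_apply,
      D.D0_lt hs, div_apply, pole_apply]
    simp only [nsmul_eq_mul]
    split_ifs with h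
    · rw [max_eq_right (by omega), mul_zero, add_zero]
      push_cast
      exact Int.mul_ediv_self_le (by norm_num)
    · push Not at h
      rw [D.ord_Qt h, max_eq_left (by omega)]
      push_cast
      apply le_of_eq; ring
  have h2 := degree_mono h1
  rw [map_nsmul, map_add, map_nsmul, map_nsmul, degree_div, D.degree_pole] at h2
  simp only [nsmul_eq_mul, mul_zero, zero_add] at h2
  exact_mod_cast h2

lemma degree_D0_eq {s : ℕ} (hs : s + 1 = q) :
    12 * Divisor.degree (D.D0 s) ≤ -((q - 1 : ℤ) ^ 2) * D.ψ := by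
  have h1 : (12 : ℤ) • D.D0 s ≤ (-(q - 1 : ℤ)) • (RR.div D.ut : Divisor k F') +
      (-((q - 1 : ℤ) ^ 2)) • RR.pole D.jt := by
    intro P
    rw [Finsupp.add_apply, Finsupp.smul_apply, Finsupp.smul_apply, Finsupp.smul_apply,
      D.D0_eq hs, div_apply, pole_apply]
    simp only [smul_eq_mul]
    split_ifs with h
    · rw [max_eq_right (by omega), mul_zero, add_zero]
      have := Int.mul_ediv_self_le (x := -((q - 1 : ℤ) * P.ord D.ut)) (k := 12) (by norm_num)
      linarith
    · push Not at h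
      rw [D.ord_ut h, max_eq_left (by omega)]
      apply le_of_eq; ring
  have h2 := degree_mono h1
  rw [map_zsmul, map_add, map_zsmul, map_zsmul, degree_div, D.degree_pole] at h2
  simp only [smul_eq_mul, mul_zero, zero_add] at h2
  exact h2

lemma degree_D0_gt {s : ℕ} (hs : s = q) :
    12 * Divisor.degree (D.D0 s) ≤ -((q : ℤ) * (q - 1)) * D.ψ := by
  have h1 : (12 : ℤ) • D.D0 s ≤ (-(q : ℤ)) • (RR.div D.ut : Divisor k F') +
      (-((q : ℤ) * (q - 1))) • RR.pole D.jt := by
    intro P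
    rw [Finsupp.add_apply, Finsupp.smul_apply, Finsupp.smul_apply, Finsupp.smul_apply,
      D.D0_gt hs, div_apply, pole_apply]
    simp only [smul_eq_mul]
    split_ifs with h
    · rw [max_eq_right (by omega), mul_zero, add_zero]
      have := Int.mul_ediv_self_le (x := -((q : ℤ) * P.ord D.ut)) (k := 12) (by norm_num)
      linarith
    · push Not at h
      rw [D.ord_ut h, max_eq_left (by omega)]
      apply le_of_eq; ring
  have h2 := degree_mono h1
  rw [map_zsmul, map_add, map_zsmul, map_zsmul, degree_div, D.degree_pole] at h2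
  simp only [smul_eq_mul, mul_zero, zero_add] at h2
  exact h2

lemma degree_Dv (s r : ℕ) :
    Divisor.degree (D.Dv s r) = Divisor.degree (D.D0 s) + r * slope q s * D.ψ := by
  rw [Dv, map_add, map_nsmul, D.degree_pole, nsmul_eq_mul]
  push_cast; ring

/-- the sum of the degrees of the base divisors. -/
lemma sum_degree_D0 :
    12 * ∑ s ∈ Finset.range (q + 1), Divisor.degree (D.D0 s) ≤ -((q : ℤ) ^ 2 - 1) * D.ψ := by
  have hq := D.q_two_le
  obtain ⟨p, rfl⟩ : ∃ p, q = p + 1 := ⟨q - 1, by omega⟩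
  rw [Finset.sum_range_succ, Finset.sum_range_succ]
  have h1 := D.degree_D0_eq (s := p) rfl
  have h2 := D.degree_D0_gt (s := p + 1) rfl
  have h3 : 6 * ∑ s ∈ Finset.range p, Divisor.degree (D.D0 s) ≤
      ∑ s ∈ Finset.range p, (s : ℤ) * D.ψ := by
    rw [Finset.mul_sum]
    exact Finset.sum_le_sum fun s hs => D.degree_D0_lt (by have := Finset.mem_range.1 hs; omega)
  have h4 : 2 * ∑ s ∈ Finset.range p, (s : ℤ) = p * (p - 1) := by
    have h5 := Finset.sum_range_id_mul_two p
    have hp : 1 ≤ p := by omega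
    have h6 : ((∑ i ∈ Finset.range p, i : ℕ) : ℤ) * 2 = p * ((p : ℤ) - 1) := by
      rw [← Nat.cast_one, ← Nat.cast_sub hp]
      exact_mod_cast h5
    push_cast at h6
    linarith
  rw [← Finset.sum_mul] at h3
  push_cast at h1 h2 ⊢
  have h7 : 12 * ∑ s ∈ Finset.range p, Divisor.degree (D.D0 s) ≤ p * (p - 1) * D.ψ := by
    have : 12 * ∑ s ∈ Finset.range p, Divisor.degree (D.D0 s) ≤
        (2 * ∑ s ∈ Finset.range p, (s : ℤ)) * D.ψ := by linarith
    rwa [h4] at this
  have h8 : (-(((p : ℤ) + 1) ^ 2 - 1)) * (D.ψ : ℤ) = p * (p - 1) * D.ψ +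
      -((p : ℤ) + 1 - 1) ^ 2 * D.ψ + -(((p : ℤ) + 1) * (p + 1 - 1)) * D.ψ := by ring
  linarith

/-- **Upper bound**: the graded pieces lie in the Riemann--Roch spaces `X s r`. -/
theorem G_mem_X {n : ℕ} {φ : F} (T : D.Tw n φ) {r s : ℕ} (hs : s ≤ q) {h : F}
    (hF : D.Fil s h) (ha : D.Adm n φ r h) : D.G s h ∈ D.X s r := by
  intro P
  rw [P.adicValuation_le_exp_iff]
  by_cases hz : D.G s h = 0
  · exact Or.inl hz
  right
  have hjt := D.jt_ne_zero
  have hQt : aeval D.jt D.Q ≠ 0 := D.Qt_ne_zero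
  have hut : aeval D.jt D.Pu ≠ 0 := D.ut_ne_zero
  rw [D.Dv_apply]
  have hfin : ∀ {w : F'}, 0 ≤ P.ord D.jt → IsIntegral (Algebra.adjoin k {D.jt}) w → w ≠ 0 →
      0 ≤ P.ord w := by
    intro w h0 hw hw0
    rw [← FF.mem_iff_ord_nonneg P hw0]
    exact ord_nonneg_of_isIntegral P ((FF.mem_iff_ord_nonneg P hjt).2 h0) hw
  have hinf : ∀ {w : F'}, P.ord D.jt < 0 → IsIntegral (Algebra.adjoin k {D.jt⁻¹}) w → w ≠ 0 →
      0 ≤ P.ord w := by
    intro w h0 hw hw0
    rw [← FF.mem_iff_ord_nonneg P hw0]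
    exact ord_nonneg_of_isIntegral P
      ((FF.mem_iff_ord_nonneg P (inv_ne_zero hjt)).2 (by rw [P.ord_inv]; omega)) hw
  rcases lt_trichotomy (s + 1) q with h1 | h1 | h1
  · obtain ⟨hi1, hi2⟩ := D.upper_lt T h1 hF ha
    have hsl : slope q s = 1 := if_neg (by omega)
    rw [D.D0_lt h1, hsl]
    split_ifs with h0
    · have h2 := hfin h0 hi1 (mul_ne_zero (pow_ne_zero _ hz) (pow_ne_zero _ hQt))
      rw [P.ord_mul (pow_ne_zero _ hz) (pow_ne_zero _ hQt), FF.ord_pow, FF.ord_pow] at h2
      rw [max_eq_right (by omega), mul_zero, add_zero]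
      have h3 : -P.ord (D.G s h) ≤ (s * P.ord D.Qt) / 6 := by
        rw [Int.le_ediv_iff_mul_le (by norm_num)]
        change 0 ≤ _ + _ * P.ord D.Qt at h2
        push_cast at h2
        linarith
      omega
    · push Not at h0
      have hji := inv_ne_zero hjt
      have h2 := hinf h0 hi2 (mul_ne_zero (mul_ne_zero (pow_ne_zero _ hz) (pow_ne_zero _ hji))
        (pow_ne_zero _ (mul_ne_zero hQt hji)))
      rw [P.ord_mul (mul_ne_zero (pow_ne_zero _ hz) (pow_ne_zero _ hji))
        (pow_ne_zero _ (mul_ne_zero hQt hji)), P.ord_mul (pow_ne_zero _ hz) (pow_ne_zero _ hji),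
        FF.ord_pow, FF.ord_pow, FF.ord_pow, P.ord_mul hQt hji, P.ord_inv] at h2
      have h3 := D.ord_Qt h0
      change P.ord (aeval D.jt D.Q) = _ at h3
      rw [h3] at h2
      rw [max_eq_left (by omega)]
      push_cast at h2 ⊢
      nlinarith
  · obtain ⟨hi1, hi2⟩ := D.upper_eq T h1 hF ha
    have hsl : slope q s = 1 := if_neg (by omega)
    rw [D.D0_eq h1, hsl]
    have hq := D.q_two_le
    have hui := inv_ne_zero hut
    split_ifs with h0
    · have h2 := hfin h0 hi1 (mul_ne_zero (pow_ne_zero _ hz) (pow_ne_zero _ hui))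
      rw [P.ord_mul (pow_ne_zero _ hz) (pow_ne_zero _ hui), FF.ord_pow, FF.ord_pow,
        P.ord_inv, Nat.cast_sub (by omega : 1 ≤ q)] at h2
      rw [max_eq_right (by omega), mul_zero, add_zero]
      have h3 : -P.ord (D.G s h) ≤ (-((q - 1 : ℤ) * P.ord D.ut)) / 12 := by
        rw [Int.le_ediv_iff_mul_le (by norm_num)]
        change 0 ≤ _ + _ * -P.ord D.ut at h2
        push_cast at h2
        linarith
      omega
    · push Not at h0
      have hji := inv_ne_zero hjt
      have h2 := hinf h0 hi2 (mul_ne_zero hz (pow_ne_zero _ hji))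
      rw [P.ord_mul hz (pow_ne_zero _ hji), FF.ord_pow, P.ord_inv] at h2
      rw [max_eq_left (by omega)]
      push_cast at h2 ⊢
      nlinarith
  · have hsq : s = q := by omega
    obtain ⟨hi1, hi2⟩ := D.upper_gt T hsq hF ha
    have hsl : slope q s = q ^ 2 := if_pos hsq
    rw [D.D0_gt hsq, hsl]
    have hui := inv_ne_zero hut
    split_ifs with h0
    · have h2 := hfin h0 hi1 (mul_ne_zero (pow_ne_zero _ hz) (pow_ne_zero _ hui))
      rw [P.ord_mul (pow_ne_zero _ hz) (pow_ne_zero _ hui), FF.ord_pow, FF.ord_pow,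
        P.ord_inv] at h2
      rw [max_eq_right (by omega), mul_zero, add_zero]
      have h3 : -P.ord (D.G s h) ≤ (-((q : ℤ) * P.ord D.ut)) / 12 := by
        rw [Int.le_ediv_iff_mul_le (by norm_num)]
        change 0 ≤ _ + _ * -P.ord D.ut at h2
        push_cast at h2
        linarith
      omega
    · push Not at h0
      have hji := inv_ne_zero hjt
      have h2 := hinf h0 hi2 (mul_ne_zero hz (pow_ne_zero _ hji))
      rw [P.ord_mul hz (pow_ne_zero _ hji), FF.ord_pow, P.ord_inv] at h2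
      rw [max_eq_left (by omega)]
      push_cast at h2 ⊢
      nlinarith

instance (s r : ℕ) : FiniteDimensional k (D.X s r) := by
  unfold X; infer_instance

/-- threshold. -/
lemma exists_threshold : ∃ r₀ : ℕ, ∀ r ≥ r₀, ∀ s ≤ q,
    2 * (genusFF k F' : ℤ) - 2 < Divisor.degree (D.Dv s r) := by
  have hq := D.q_two_le
  have hψ := D.ψ_pos
  refine ⟨2 * genusFF k F' + ∑ s ∈ Finset.range (q + 1), (Divisor.degree (D.D0 s)).natAbs,
    fun r hr s hs => ?_⟩
  rw [D.degree_Dv]
  have h1 : (Divisor.degree (D.D0 s)).natAbs ≤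
      ∑ s ∈ Finset.range (q + 1), (Divisor.degree (D.D0 s)).natAbs :=
    Finset.single_le_sum (f := fun s => (Divisor.degree (D.D0 s)).natAbs)
      (fun _ _ => Nat.zero_le _) (Finset.mem_range.2 (by omega))
  have h2 := neg_abs_le (Divisor.degree (D.D0 s))
  have h3 : (1 : ℤ) ≤ slope q s * D.ψ := by
    have : 1 ≤ slope q s := by
      unfold slope
      split_ifs
      · exact Nat.one_le_pow _ _ (by omega)
      · exact le_rfl
    have h4 : 1 ≤ slope q s * D.ψ := Nat.mul_pos this hψ
    exact_mod_cast h4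
  have h5 : (r : ℤ) ≤ r * (slope q s * D.ψ) := by
    have : (0 : ℤ) ≤ r := by positivity
    nlinarith
  have h6 : ((2 * genusFF k F' + ∑ s ∈ Finset.range (q + 1),
    (Divisor.degree (D.D0 s)).natAbs : ℕ) : ℤ) ≤ r := by exact_mod_cast hr
  push_cast at h6
  have h7 : (((Divisor.degree (D.D0 s)).natAbs : ℕ) : ℤ) ≤
      ∑ s ∈ Finset.range (q + 1), (((Divisor.degree (D.D0 s)).natAbs : ℕ) : ℤ) := by
    exact_mod_cast h1
  rw [mul_assoc]
  push_cast at h7
  linarith

variable [IsAlgClosed k]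

lemma finrank_X {s r : ℕ} (h : 2 * (genusFF k F' : ℤ) - 2 < Divisor.degree (D.Dv s r)) :
    (finrank k (D.X s r) : ℤ) = Divisor.degree (D.Dv s r) + 1 - genusFF k F' := by
  have hfin : FiniteDimensional k⟮D.jt⟯ F' := IsFF.finite_adjoin _ D.jt_transcendental
  have h0 : ell (0 : Divisor k F') = 1 := ell_zero
  have := ell_eq (K := k) D.jt D.jt_transcendental (D := D.Dv s r) (by rw [h0]; push_cast; linarith)
  rw [h0] at this
  exact_mod_cast this

/-- **Fullness.** -/
theorem full : ∃ r₀ : ℕ, ∀ r ≥ r₀, ∀ (n : ℕ) (φ : F), D.Tw n φ →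
    ∀ (W : Submodule K F) [FiniteDimensional K W], (∀ h ∈ W, D.Adm n φ r h) →
    ∀ gN : ℤ, 12 * (gN - 1) = (q + 1) * (12 * ((genusFF k F' : ℤ) - 1)) + ((q : ℤ) ^ 2 - 1) * D.ψ →
    (finrank K W : ℤ) = r * (q * (q + 1) * D.ψ) + 1 - gN →
    ∀ s ≤ q, ∀ z, z ∈ D.X s r ↔ ∃ h ∈ W, D.Fil s h ∧ D.G s h = z := by
  obtain ⟨r₀, hr₀⟩ := D.exists_threshold
  refine ⟨r₀, fun r hr n φ T W hW₀ hW gN hg hdim s hs z => ?_⟩
  have hq := D.q_two_le
  constructor
  · intro hz
    have hsum : ∑ s : Fin D.filt.m, finrank k (D.X s r) ≤ finrank K W := by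
      have h1 : ∑ s : Fin D.filt.m, finrank k (D.X s r) =
          ∑ s ∈ Finset.range (q + 1), finrank k (D.X s r) :=
        (Finset.sum_range (fun s => finrank k (D.X s r)) (n := q + 1)).symm
      rw [h1]
      have h2 : ((∑ s ∈ Finset.range (q + 1), finrank k (D.X s r) : ℕ) : ℤ) =
          ∑ s ∈ Finset.range (q + 1),
            (Divisor.degree (D.D0 s) + r * slope q s * D.ψ + 1 - genusFF k F') := by
        rw [Nat.cast_sum]
        refine Finset.sum_congr rfl fun s hs => ?_
        rw [D.finrank_X (hr₀ r hr s (by have := Finset.mem_range.1 hs; omega)), D.degree_Dv]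
      have h3 : ∑ s ∈ Finset.range (q + 1), (slope q s : ℤ) = q + q ^ 2 := by
        rw [Finset.sum_range_succ]
        have : ∑ s ∈ Finset.range q, (slope q s : ℤ) = q := by
          rw [Finset.sum_congr rfl (fun s hs => ?_ : ∀ s ∈ Finset.range q, (slope q s : ℤ) = 1)]
          · simp
          · have := Finset.mem_range.1 hs
            rw [slope, if_neg (by omega)]; simp
        rw [this, slope, if_pos rfl]; push_cast; ring
      have h4 : ∑ s ∈ Finset.range (q + 1),
            (Divisor.degree (D.D0 s) + r * slope q s * D.ψ + 1 - (genusFF k F' : ℤ)) =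
          ∑ s ∈ Finset.range (q + 1), Divisor.degree (D.D0 s) + r * (q + q ^ 2) * D.ψ +
            (q + 1) * (1 - genusFF k F') := by
        rw [← h3, Finset.mul_sum, Finset.sum_mul, ← Finset.sum_add_distrib]
        have h5 : ((q : ℤ) + 1) * (1 - genusFF k F') =
            ∑ _s ∈ Finset.range (q + 1), (1 - (genusFF k F' : ℤ)) := by
          rw [Finset.sum_const, Finset.card_range, nsmul_eq_mul]; push_cast; ring
        rw [h5, ← Finset.sum_add_distrib]
        refine Finset.sum_congr rfl fun s _ => by ring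
      have h6 := D.sum_degree_D0
      have h7 : ((∑ s ∈ Finset.range (q + 1), finrank k (D.X s r) : ℕ) : ℤ) ≤ finrank K W := by
        rw [h2, h4, hdim]
        nlinarith
      exact_mod_cast h7
    obtain ⟨h, hh1, hh2, hh3⟩ := D.filt.exists_of_mem D.ortho W (fun s => D.X s r)
      (fun s f hf hf' => D.G_mem_X T (by have := s.2; change (s : ℕ) < q + 1 at this; omega) hf'
        (hW f hf)) hsum ⟨s, by change s < q + 1; omega⟩ hz
    exact ⟨h, hh1, hh2, hh3⟩
  · rintro ⟨h, hh1, hh2, rfl⟩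
    exact D.G_mem_X T hs hh2 (hW h hh1)

end Data

end Fermat.Agent.TriComp
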