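import Fermat.Agent.TwoComp.Ortho

/-!
# Dimension count along a filtration of the reduction

`R : RedRing K F k E`, `Fil s` (`0 ≤ s ≤ m`) a decreasing filtration of `O` ending with the kernel of
the reduction, with "graded" maps `G s : Fil s → F'` with kernel `Fil (s+1)`.
-/

set_option autoImplicit false

open Module

namespace Fermat.Agent.TriComp

open Fermat.Agent.TwoComp

variable {K F k E F' : Type*} [Field K] [Field F] [Algebra K F] [Field k] [CommRing E]
  [Algebra k E] [Field F'] [Algebra k F']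

/-- A filtration of `O` with graded maps to `F'`. -/
structure Filtration (R : RedRing K F k E) (F' : Type*) [Field F'] [Algebra k F'] where
  /-- the number of steps -/
  m : ℕ
  Fil : ℕ → F → Prop
  G : ℕ → F → F'
  mem_O : ∀ s f, Fil s f → f ∈ R.O
  zero_iff : ∀ f, Fil 0 f ↔ f ∈ R.O
  last_iff : ∀ f (hf : f ∈ R.O), Fil m f ↔ R.ρ ⟨f, hf⟩ = 0
  anti : ∀ s f, Fil (s + 1) f → Fil s f
  add : ∀ s f g, Fil s f → Fil s g → Fil s (f + g)
  zero : ∀ s, Fil s 0
  smul : ∀ s (a : R.A) f, Fil s f → Fil s ((a : K) • f)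
  G_add : ∀ s < m, ∀ f g, Fil s f → Fil s g → G s (f + g) = G s f + G s g
  G_smul : ∀ s < m, ∀ (a : R.A) f, Fil s f → G s ((a : K) • f) = R.res a • G s f
  G_eq_zero : ∀ s < m, ∀ f, Fil s f → (G s f = 0 ↔ Fil (s + 1) f)

namespace Filtration

variable {R : RedRing K F k E} (T : Filtration R F')

lemma G_zero {s : ℕ} (hs : s < T.m) : T.G s 0 = 0 :=
  (T.G_eq_zero s hs 0 (T.zero s)).2 (T.zero _)

lemma anti_le {s t : ℕ} (h : s ≤ t) {f : F} (hf : T.Fil t f) : T.Fil s f := by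
  induction h with
  | refl => exact hf
  | step _ ih => exact ih (T.anti _ _ hf)

/-- the image of `W ∩ Fil s` in `E`. -/
def img (W : Submodule K F) (s : ℕ) : Submodule k E where
  carrier := {e | ∃ (f : F) (_ : f ∈ W) (hf : T.Fil s f), R.ρ ⟨f, T.mem_O s f hf⟩ = e}
  zero_mem' := ⟨0, W.zero_mem, T.zero s, by
    rw [← map_zero R.ρ]; rfl⟩
  add_mem' := by
    rintro _ _ ⟨f, hf, hf', rfl⟩ ⟨g, hg, hg', rfl⟩
    exact ⟨f + g, W.add_mem hf hg, T.add s f g hf' hg', by rw [← map_add]; rfl⟩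
  smul_mem' := by
    rintro c _ ⟨f, hf, hf', rfl⟩
    obtain ⟨a, rfl⟩ := R.res_surj c
    refine ⟨(a : K) • f, W.smul_mem _ hf, T.smul s a f hf', ?_⟩
    rw [Algebra.smul_def (R.res a), ← R.ρ_algebraMap, ← map_mul]
    congr 1
    ext
    simp [Algebra.smul_def]

/-- the image of `W ∩ Fil s` under the graded map. -/
def gr (W : Submodule K F) {s : ℕ} (hs : s < T.m) : Submodule k F' where
  carrier := {z | ∃ (f : F) (_ : f ∈ W) (_ : T.Fil s f), T.G s f = z}
  zero_mem' := ⟨0, W.zero_mem, T.zero s, T.G_zero hs⟩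
  add_mem' := by
    rintro _ _ ⟨f, hf, hf', rfl⟩ ⟨g, hg, hg', rfl⟩
    exact ⟨f + g, W.add_mem hf hg, T.add s f g hf' hg', T.G_add s hs f g hf' hg'⟩
  smul_mem' := by
    rintro c _ ⟨f, hf, hf', rfl⟩
    obtain ⟨a, rfl⟩ := R.res_surj c
    exact ⟨(a : K) • f, W.smul_mem _ hf, T.smul s a f hf', T.G_smul s hs a f hf'⟩

lemma mem_gr {W : Submodule K F} {s : ℕ} {hs : s < T.m} {z : F'} :
    z ∈ T.gr W hs ↔ ∃ (f : F) (_ : f ∈ W) (_ : T.Fil s f), T.G s f = z := Iff.rfl

/-- the graph. -/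
def graph (W : Submodule K F) {s : ℕ} (hs : s < T.m) : Submodule k (E × F') where
  carrier := {x | ∃ (f : F) (_ : f ∈ W) (hf : T.Fil s f),
    R.ρ ⟨f, T.mem_O s f hf⟩ = x.1 ∧ T.G s f = x.2}
  zero_mem' := ⟨0, W.zero_mem, T.zero s, by
    constructor
    · change _ = (0 : E)
      rw [← map_zero R.ρ]; rfl
    · exact T.G_zero hs⟩
  add_mem' := by
    rintro _ _ ⟨f, hf, hf', h1, h2⟩ ⟨g, hg, hg', h3, h4⟩
    refine ⟨f + g, W.add_mem hf hg, T.add s f g hf' hg', ?_, ?_⟩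
    · rw [Prod.fst_add, ← h1, ← h3, ← map_add]; rfl
    · rw [Prod.snd_add, ← h2, ← h4]; exact T.G_add s hs f g hf' hg'
  smul_mem' := by
    rintro c _ ⟨f, hf, hf', h1, h2⟩
    obtain ⟨a, rfl⟩ := R.res_surj c
    refine ⟨(a : K) • f, W.smul_mem _ hf, T.smul s a f hf', ?_, ?_⟩
    · rw [Prod.smul_fst, ← h1, Algebra.smul_def (R.res a), ← R.ρ_algebraMap, ← map_mul]
      congr 1
      ext
      simp [Algebra.smul_def]
    · rw [Prod.smul_snd, ← h2]; exact T.G_smul s hs a f hf'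

lemma sub_mem {s : ℕ} {f g : F} (hf : T.Fil s f) (hg : T.Fil s g) : T.Fil s (f - g) := by
  have h1 : T.Fil s (((-1 : R.A) : K) • g) := T.smul s (-1) g hg
  have h2 : (((-1 : R.A) : K) • g) = -g := by simp
  rw [sub_eq_add_neg, ← h2]
  exact T.add s f _ hf h1

lemma G_sub {s : ℕ} (hs : s < T.m) {f g : F} (hf : T.Fil s f) (hg : T.Fil s g) :
    T.G s (f - g) = T.G s f - T.G s g := by
  have h1 := T.G_add s hs (f - g) g (T.sub_mem hf hg) hg
  rw [sub_add_cancel] at h1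
  rw [h1, add_sub_cancel_right]

lemma G_congr {s : ℕ} (hs : s < T.m) {f g : F} (hf : T.Fil s f) (hg : T.Fil s g)
    (h : R.ρ ⟨f, T.mem_O s f hf⟩ = R.ρ ⟨g, T.mem_O s g hg⟩) : T.G s f = T.G s g := by
  have h1 := T.sub_mem hf hg
  have h2 : T.Fil T.m (f - g) := by
    rw [T.last_iff (f - g) (T.mem_O s _ h1)]
    have : (⟨f - g, T.mem_O s _ h1⟩ : R.O) = ⟨f, T.mem_O s f hf⟩ - ⟨g, T.mem_O s g hg⟩ := rfl
    rw [this, map_sub, h, sub_self]
  have h3 : T.Fil (s + 1) (f - g) := T.anti_le (by omega) h2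
  have h4 := (T.G_eq_zero s hs _ h1).2 h3
  rw [T.G_sub hs hf hg, sub_eq_zero] at h4
  exact h4

theorem finrank_step (W : Submodule K F) {s : ℕ} (hs : s < T.m)
    [FiniteDimensional k (T.img W s)] :
    finrank k (T.img W s) = finrank k (T.gr W hs) + finrank k (T.img W (s + 1)) ∧
      FiniteDimensional k (T.gr W hs) ∧ FiniteDimensional k (T.img W (s + 1)) := by
  set P := T.graph W hs with hP
  let f₁ : P →ₗ[k] E := (LinearMap.fst k E F').domRestrict P
  let f₂ : P →ₗ[k] F' := (LinearMap.snd k E F').domRestrict P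
  have hf₁ : Function.Injective f₁ := by
    rw [injective_iff_map_eq_zero]
    rintro ⟨⟨e, z⟩, f, hfW, hf, h1, h2⟩ h
    have he : e = 0 := h
    have hz : z = 0 := by
      simp only at h1 h2
      rw [← h2, ← T.G_zero hs]
      apply T.G_congr hs hf (T.zero s)
      rw [h1, he, ← map_zero R.ρ]; rfl
    subst he; subst hz; rfl
  have hr₁ : LinearMap.range f₁ = T.img W s := by
    ext e
    constructor
    · rintro ⟨⟨⟨e', z⟩, f, hfW, hf, h1, h2⟩, rfl⟩
      exact ⟨f, hfW, hf, h1⟩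
    · rintro ⟨f, hfW, hf, rfl⟩
      exact ⟨⟨(_, T.G s f), f, hfW, hf, rfl, rfl⟩, rfl⟩
  have hr₂ : LinearMap.range f₂ = T.gr W hs := by
    ext z
    constructor
    · rintro ⟨⟨⟨e', z⟩, f, hfW, hf, h1, h2⟩, rfl⟩
      exact ⟨f, hfW, hf, h2⟩
    · rintro ⟨f, hfW, hf, rfl⟩
      exact ⟨⟨(R.ρ ⟨f, T.mem_O s f hf⟩, T.G s f), f, hfW, hf, rfl, rfl⟩, rfl⟩
  let e₁ : P ≃ₗ[k] T.img W s := (LinearEquiv.ofInjective f₁ hf₁).trans (LinearEquiv.ofEq _ _ hr₁)
  have hPfin : FiniteDimensional k P := Module.Finite.equiv e₁.symm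
  have hk : (LinearMap.ker f₂).map f₁ = T.img W (s + 1) := by
    ext e
    constructor
    · rintro ⟨⟨⟨e', z⟩, f, hfW, hf, h1, h2⟩, hker, rfl⟩
      have hz : z = 0 := hker
      simp only at h2
      rw [hz] at h2
      exact ⟨f, hfW, (T.G_eq_zero s hs f hf).1 h2, h1⟩
    · rintro ⟨f, hfW, hf, rfl⟩
      refine ⟨⟨(R.ρ ⟨f, T.mem_O _ f hf⟩, 0), f, hfW, T.anti _ _ hf, rfl,
        (T.G_eq_zero s hs f (T.anti _ _ hf)).2 hf⟩, ?_, rfl⟩
      exact rfl
  have h1 : finrank k (T.img W s) = finrank k P := (e₁.finrank_eq).symm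
  have h2 : finrank k (T.img W (s + 1)) = finrank k (LinearMap.ker f₂) := by
    rw [← hk]
    exact (Submodule.equivMapOfInjective f₁ hf₁ _).finrank_eq.symm
  have h3 : finrank k (T.gr W hs) = finrank k (LinearMap.range f₂) := by rw [hr₂]
  refine ⟨?_, ?_, ?_⟩
  · rw [h1, h2, h3]
    exact (LinearMap.finrank_range_add_finrank_ker f₂).symm
  · rw [← hr₂]; infer_instance
  · rw [← hk]; infer_instance

lemma img_last (W : Submodule K F) : T.img W T.m = ⊥ := by
  rw [eq_bot_iff]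
  rintro _ ⟨f, hfW, hf, rfl⟩
  exact (T.last_iff f (T.mem_O _ f hf)).1 hf

/-- The reduction of `W ∩ O` has dimension `dim W`. -/
lemma finrank_img_zero (hO : R.Ortho) (W : Submodule K F) [FiniteDimensional K W] :
    finrank k (T.img W 0) = finrank K W ∧ FiniteDimensional k (T.img W 0) := by
  obtain ⟨b, hb, hli⟩ := hO W
  have h1 : T.img W 0 = Submodule.span k (Set.range fun i => R.ρ ⟨((b i : W) : F), hb i⟩) := by
    apply le_antisymm
    · rintro _ ⟨f, hf, hf0, rfl⟩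
      have hfO := T.mem_O _ f hf0
      have h1 : f = ∑ i, b.repr ⟨f, hf⟩ i • ((b i : W) : F) := by
        conv_lhs => rw [show f = ((⟨f, hf⟩ : W) : F) from rfl, ← b.sum_repr ⟨f, hf⟩]
        rw [Submodule.coe_sum]
        rfl
      have hc : ∀ i, b.repr ⟨f, hf⟩ i ∈ R.A :=
        fun i => RedRing.coord_mem (b := fun i => ⟨((b i : W) : F), hb i⟩) hli (h1 ▸ hfO) i
      have h2 : (⟨f, hfO⟩ : R.O) = ∑ i, R.algA ⟨_, hc i⟩ * ⟨((b i : W) : F), hb i⟩ := by
        apply Subtype.ext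
        rw [AddSubmonoidClass.coe_finsetSum]
        conv_lhs => rw [show ((⟨f, hfO⟩ : R.O) : F) = f from rfl, h1]
        exact Finset.sum_congr rfl fun i _ => Algebra.smul_def _ _
      rw [h2, RedRing.ρ_sum_smul]
      exact Submodule.sum_mem _ fun i _ => Submodule.smul_mem _ _ (Submodule.subset_span ⟨i, rfl⟩)
    · rw [Submodule.span_le]
      rintro _ ⟨i, rfl⟩
      exact ⟨_, (b i).2, (T.zero_iff _).2 (hb i), rfl⟩
  rw [h1]
  refine ⟨?_, FiniteDimensional.span_of_finite k (Set.finite_range _)⟩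
  rw [finrank_span_eq_card hli, Fintype.card_fin]

/-- **Dimension count.** -/
theorem sum_finrank_gr (hO : R.Ortho) (W : Submodule K F) [FiniteDimensional K W] :
    ∑ s : Fin T.m, finrank k (T.gr W s.2) = finrank K W ∧
      ∀ s (hs : s < T.m), FiniteDimensional k (T.gr W hs) := by
  have key : ∀ t ≤ T.m, FiniteDimensional k (T.img W t) ∧
      (∑ s ∈ Finset.range t, if hs : s < T.m then finrank k (T.gr W hs) else 0) +
        finrank k (T.img W t) = finrank K W := by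
    intro t
    induction t with
    | zero =>
      intro _
      obtain ⟨h1, h2⟩ := T.finrank_img_zero hO W
      exact ⟨h2, by simp [h1]⟩
    | succ t ih =>
      intro ht
      obtain ⟨h1, h2⟩ := ih (by omega)
      obtain ⟨h3, h4, h5⟩ := T.finrank_step W (s := t) (by omega)
      refine ⟨h5, ?_⟩
      rw [Finset.sum_range_succ, dif_pos (by omega : t < T.m)]
      omega
  constructor
  · obtain ⟨h1, h2⟩ := key T.m le_rfl
    rw [T.img_last, finrank_bot, add_zero] at h2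
    rw [← h2, Finset.sum_range]
    exact Finset.sum_congr rfl fun s _ => by rw [dif_pos s.2]
  · intro s hs
    obtain ⟨h1, h2⟩ := key s (by omega)
    exact (T.finrank_step W hs).2.1

/-- **Equality in the dimension count.** -/
theorem gr_eq (hO : R.Ortho) (W : Submodule K F) [FiniteDimensional K W]
    (X : Fin T.m → Submodule k F') [∀ s, FiniteDimensional k (X s)]
    (hX : ∀ s : Fin T.m, T.gr W s.2 ≤ X s)
    (hdim : ∑ s, finrank k (X s) ≤ finrank K W) (s : Fin T.m) : T.gr W s.2 = X s := by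
  obtain ⟨h1, h2⟩ := T.sum_finrank_gr hO W
  have h3 : ∀ s : Fin T.m, finrank k (T.gr W s.2) ≤ finrank k (X s) :=
    fun s => Submodule.finrank_mono (hX s)
  have h4 : ∑ s : Fin T.m, finrank k (T.gr W s.2) = ∑ s, finrank k (X s) :=
    le_antisymm (Finset.sum_le_sum fun s _ => h3 s) (h1 ▸ hdim)
  have h5 := (Finset.sum_eq_sum_iff_of_le fun s _ => h3 s).1 h4 s (Finset.mem_univ s)
  exact Submodule.eq_of_le_of_finrank_eq (hX s) h5

/-- Version with explicit elements. -/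
theorem exists_of_mem (hO : R.Ortho) (W : Submodule K F) [FiniteDimensional K W]
    (X : Fin T.m → Submodule k F') [∀ s, FiniteDimensional k (X s)]
    (hX : ∀ s : Fin T.m, ∀ f ∈ W, T.Fil s f → T.G s f ∈ X s)
    (hdim : ∑ s, finrank k (X s) ≤ finrank K W) (s : Fin T.m) {z : F'} (hz : z ∈ X s) :
    ∃ f ∈ W, T.Fil s f ∧ T.G s f = z := by
  have h := T.gr_eq hO W X (by
    rintro s _ ⟨f, hf, hf', rfl⟩
    exact hX s f hf hf') hdim s
  rw [← h] at hz
  obtain ⟨f, hf, hf', rfl⟩ := hz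
  exact ⟨f, hf, hf', rfl⟩

end Filtration

end Fermat.Agent.TriComp
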