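import Fermat.Agent.TriComp.Defs

/-!
# The filtration of `O` by the three valuations
-/

set_option autoImplicit false

open Module Polynomial
open scoped IntermediateField

namespace Fermat.Agent.S36norm.DV

variable {F κ : Type*} [Field F] [Field κ] (v : DV F κ)

/-- `f` has valuation at least `n`. -/
def Ge (n : ℤ) (f : F) : Prop := f = 0 ∨ n ≤ v.ord f

lemma Ge.zero {n : ℤ} : v.Ge n 0 := Or.inl rfl

lemma Ge.add {n : ℤ} {f g : F} (hf : v.Ge n f) (hg : v.Ge n g) : v.Ge n (f + g) :=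
  v.ord_add_ge hf hg

lemma Ge.mul {n m : ℤ} {f g : F} (hf : v.Ge n f) (hg : v.Ge m g) : v.Ge (n + m) (f * g) := by
  rcases hf with rfl | hf
  · exact Or.inl (zero_mul g)
  rcases hg with rfl | hg
  · exact Or.inl (mul_zero f)
  by_cases hf0 : f = 0
  · exact Or.inl (by rw [hf0, zero_mul])
  by_cases hg0 : g = 0
  · exact Or.inl (by rw [hg0, mul_zero])
  right
  rw [v.ord_mul f g hf0 hg0]; omega

lemma Ge.pow {n : ℤ} {f : F} (hf : v.Ge n f) (m : ℕ) : v.Ge (m * n) (f ^ m) := by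
  induction m with
  | zero => right; simp [v.ord_one]
  | succ m ih =>
    rw [pow_succ]
    have := Ge.mul v ih hf
    convert this using 1
    push_cast; ring

lemma Ge.of_le {n m : ℤ} (h : m ≤ n) {f : F} (hf : v.Ge n f) : v.Ge m f := by
  rcases hf with hf | hf
  · exact Or.inl hf
  · exact Or.inr (h.trans hf)

lemma ge_zero_iff {f : F} : v.Ge 0 f ↔ f ∈ v.O := by
  by_cases hf : f = 0
  · subst hf
    exact ⟨fun _ => zero_mem _, fun _ => Or.inl rfl⟩
  · rw [v.mem_iff f hf]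
    exact ⟨fun h => h.resolve_left hf, Or.inr⟩

lemma ge_ord {f : F} : v.Ge (v.ord f) f := Or.inr le_rfl

lemma ge_ord_inv {f : F} (hf : f ≠ 0) : v.Ge (-v.ord f) f⁻¹ := by
  right; rw [v.ord_inv hf]

lemma red_eq_zero_iff_ge {f : F} (hf : f ∈ v.O) : v.red f = 0 ↔ v.Ge 1 f := by
  by_cases h0 : f = 0
  · subst h0
    simp [v.red_zero, Ge]
  · have h1 := v.red_ne_zero_iff h0 hf
    have h2 := (v.mem_iff f h0).1 hf
    rw [← not_iff_not, ← Ne, h1]
    constructor
    · rintro h3 (h4 | h4)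
      · exact h0 h4
      · omega
    · intro h3
      have : ¬ (1 ≤ v.ord f) := fun h => h3 (Or.inr h)
      omega

lemma Ge.div {n m : ℤ} {f g : F} (hf : v.Ge n f) (hg : g ≠ 0) (hg' : v.ord g = m) :
    v.Ge (n - m) (f / g) := by
  rw [div_eq_mul_inv]
  have h1 := v.ge_ord_inv hg
  rw [hg'] at h1
  exact Ge.mul v hf h1

lemma ge_div_iff {n m : ℤ} {f g : F} (hg : g ≠ 0) (hg' : v.ord g = m) :
    v.Ge (n - m) (f / g) ↔ v.Ge n f := by
  constructor
  · intro h
    have h1 : f = (f / g) * g := by field_simp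
    rw [h1]
    have h2 : v.Ge m g := hg' ▸ v.ge_ord
    have := Ge.mul v h h2
    simpa using this
  · intro h; exact Ge.div v h hg hg'

end Fermat.Agent.S36norm.DV

namespace Fermat.Agent.TriComp

open Fermat.Agent.TwoComp Fermat.Agent.S36norm

variable {K F k E F' : Type*} [Field K] [Field F] [Algebra K F] [Field k] [CommRing E]
    [Algebra k E] [Field F'] [Algebra k F'] {q : ℕ}

namespace Data

variable (D : Data K F k E F' q)

lemma algebraMap_mem (a : D.R.A) : algebraMap K F a ∈ D.R.O := (D.R.mem_O_iff _).2 a.2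

lemma mem_v {f : F} (hf : f ∈ D.R.O) (i : Fin 3) : f ∈ (D.v i).O := (D.mem_O_iff f).1 hf i

lemma smul_eq (a : D.R.A) (f : F) : ((a : K) • f) = algebraMap K F a * f := Algebra.smul_def _ _

lemma red_smul (i : Fin 3) (a : D.R.A) {f : F} (hf : f ∈ (D.v i).O) :
    (D.v i).red ((a : K) • f) = D.R.res a • (D.v i).red f := by
  rw [D.smul_eq, (D.v i).red_mul (D.mem_v (D.algebraMap_mem a) i) hf, D.red_algebraMap,
    Algebra.smul_def]

lemma ge_smul (i : Fin 3) {n : ℤ} (a : D.R.A) {f : F} (hf : (D.v i).Ge n f) :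
    (D.v i).Ge n ((a : K) • f) := by
  rw [D.smul_eq]
  have h1 : (D.v i).Ge 0 (algebraMap K F a) :=
    (D.v i).ge_zero_iff.2 (D.mem_v (D.algebraMap_mem a) i)
  have := DV.Ge.mul (D.v i) h1 hf
  rwa [zero_add] at this

include D in
lemma q_ne : (q : F) ≠ 0 := by
  have h1 : (q : F) = algebraMap K F (q : K) := by simp
  rw [h1]
  exact (_root_.map_ne_zero _).2 D.q_ne_zero

/-- the filtration. -/
def Fil (s : ℕ) (f : F) : Prop :=
  f ∈ D.R.O ∧ (D.v 1).Ge (min (s : ℤ) (q - 1)) f ∧ (q ≤ s → (D.v 0).Ge 1 f) ∧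
    (q + 1 ≤ s → (D.v 2).Ge 1 f)

open Classical in
/-- the graded maps. -/
noncomputable def G (s : ℕ) (f : F) : F' :=
  if s + 1 < q then (D.v 1).red (f / D.δ ^ s)
  else if s + 1 = q then (D.v 0).red f else (D.v 2).red f

lemma G_of_lt {s : ℕ} (h : s + 1 < q) (f : F) : D.G s f = (D.v 1).red (f / D.δ ^ s) := if_pos h

lemma G_of_eq {s : ℕ} (h : s + 1 = q) (f : F) : D.G s f = (D.v 0).red f := by
  rw [G, if_neg (by omega), if_pos h]

lemma G_of_gt {s : ℕ} (h : q < s + 1) (f : F) : D.G s f = (D.v 2).red f := by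
  rw [G, if_neg (by omega), if_neg (by omega)]

lemma Fil.mem {s : ℕ} {f : F} (h : D.Fil s f) : f ∈ D.R.O := h.1

lemma Fil.mem_v {s : ℕ} {f : F} (h : D.Fil s f) (i : Fin 3) : f ∈ (D.v i).O := D.mem_v h.1 i

lemma Fil.ge {s : ℕ} (hs : s + 1 ≤ q) {f : F} (h : D.Fil s f) : (D.v 1).Ge s f := by
  have h1 := h.2.1
  rwa [min_eq_left (by have := hs; push_cast [← @Nat.cast_le ℤ] at this; omega)] at h1

lemma Fil.ge' {s : ℕ} (hs : q ≤ s + 1) {f : F} (h : D.Fil s f) : (D.v 1).Ge (q - 1) f := by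
  have h1 := h.2.1
  rwa [min_eq_right (by have := hs; push_cast [← @Nat.cast_le ℤ] at this; omega)] at h1

lemma ord_δ_pow (s : ℕ) : (D.v 1).ord (D.δ ^ s) = s := by
  rw [(D.v 1).ord_pow D.δ_ne_zero, D.ord_δ, mul_one]

lemma δ_pow_ne (s : ℕ) : D.δ ^ s ≠ 0 := pow_ne_zero _ D.δ_ne_zero

lemma Fil.div_mem {s : ℕ} (hs : s + 1 ≤ q) {f : F} (h : D.Fil s f) :
    f / D.δ ^ s ∈ (D.v 1).O := by
  rw [← (D.v 1).ge_zero_iff]
  have := DV.Ge.div (D.v 1) (Fil.ge D hs h) (D.δ_pow_ne s) (D.ord_δ_pow s)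
  rwa [sub_self] at this

/-- `Fil`, `G` form a filtration in the sense of `Filtration`. -/
noncomputable def filt : Filtration D.R F' where
  m := q + 1
  Fil := D.Fil
  G := D.G
  mem_O s f h := h.1
  zero_iff f := by
    have hq := D.q_two_le
    constructor
    · intro h; exact h.1
    · intro h
      refine ⟨h, ?_, fun h' => by omega, fun h' => by omega⟩
      have h1 : min (((0 : ℕ) : ℤ)) ((q : ℤ) - 1) = 0 := by
        rw [min_eq_left]
        · simp
        · push_cast; omega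
      rw [h1, (D.v 1).ge_zero_iff]
      exact D.mem_v h 1
  last_iff f hf := by
    rw [D.ρ_eq_zero_iff, D.mem_O_iff]
    have hq := D.q_two_le
    have h0 : (D.v 0).Ge 0 (f / (q : F)) ↔ (D.v 0).Ge 1 f := by
      have := (D.v 0).ge_div_iff (n := 1) (f := f) D.q_ne D.ord_q0
      simpa using this
    have h1 : (D.v 1).Ge 0 (f / (q : F)) ↔ (D.v 1).Ge (q - 1) f := by
      have := (D.v 1).ge_div_iff (n := (q : ℤ) - 1) (f := f) D.q_ne D.ord_q1
      simpa using this
    have h2 : (D.v 2).Ge 0 (f / (q : F)) ↔ (D.v 2).Ge 1 f := by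
      have := (D.v 2).ge_div_iff (n := 1) (f := f) D.q_ne D.ord_q2
      simpa using this
    have hmin : min (((q + 1 : ℕ) : ℤ)) ((q : ℤ) - 1) = (q : ℤ) - 1 := by
      rw [min_eq_right]; push_cast; omega
    constructor
    · rintro ⟨-, h3, h4, h5⟩ i
      rw [← (D.v i).ge_zero_iff]
      rw [hmin] at h3
      fin_cases i
      · exact h0.2 (h4 (by omega))
      · exact h1.2 h3
      · exact h2.2 (h5 le_rfl)
    · intro h
      refine ⟨hf, ?_, fun _ => ?_, fun _ => ?_⟩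
      · rw [hmin, ← h1, (D.v 1).ge_zero_iff]; exact h 1
      · rw [← h0, (D.v 0).ge_zero_iff]; exact h 0
      · rw [← h2, (D.v 2).ge_zero_iff]; exact h 2
  anti s f h := by
    refine ⟨h.1, DV.Ge.of_le _ ?_ h.2.1, fun h' => h.2.2.1 (by omega), fun h' => h.2.2.2 (by omega)⟩
    exact min_le_min_right _ (by push_cast; omega)
  add s f g hf hg :=
    ⟨D.R.O.add_mem hf.1 hg.1, DV.Ge.add _ hf.2.1 hg.2.1,
      fun h' => DV.Ge.add _ (hf.2.2.1 h') (hg.2.2.1 h'),
      fun h' => DV.Ge.add _ (hf.2.2.2 h') (hg.2.2.2 h')⟩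
  zero s := ⟨D.R.O.zero_mem, Or.inl rfl, fun _ => Or.inl rfl, fun _ => Or.inl rfl⟩
  smul s a f hf :=
    ⟨by rw [D.smul_eq]; exact D.R.O.mul_mem (D.algebraMap_mem a) hf.1, D.ge_smul 1 a hf.2.1,
      fun h' => D.ge_smul 0 a (hf.2.2.1 h'), fun h' => D.ge_smul 2 a (hf.2.2.2 h')⟩
  G_add s hs f g hf hg := by
    rcases lt_trichotomy (s + 1) q with h | h | h
    · rw [D.G_of_lt h, D.G_of_lt h, D.G_of_lt h, add_div,
        (D.v 1).red_add (Fil.div_mem D h.le hf) (Fil.div_mem D h.le hg)]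
    · rw [D.G_of_eq h, D.G_of_eq h, D.G_of_eq h, (D.v 0).red_add (Fil.mem_v D hf 0) (Fil.mem_v D hg 0)]
    · rw [D.G_of_gt h, D.G_of_gt h, D.G_of_gt h, (D.v 2).red_add (Fil.mem_v D hf 2) (Fil.mem_v D hg 2)]
  G_smul s hs a f hf := by
    rcases lt_trichotomy (s + 1) q with h | h | h
    · rw [D.G_of_lt h, D.G_of_lt h, smul_div_assoc, D.red_smul 1 a (Fil.div_mem D h.le hf)]
    · rw [D.G_of_eq h, D.G_of_eq h, D.red_smul 0 a (Fil.mem_v D hf 0)]
    · rw [D.G_of_gt h, D.G_of_gt h, D.red_smul 2 a (Fil.mem_v D hf 2)]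
  G_eq_zero s hs f hf := by
    have hq := D.q_two_le
    rcases lt_trichotomy (s + 1) q with h | h | h
    · rw [D.G_of_lt h, (D.v 1).red_eq_zero_iff_ge (Fil.div_mem D h.le hf)]
      have h1 := (D.v 1).ge_div_iff (n := (s : ℤ) + 1) (f := f) (D.δ_pow_ne s) (D.ord_δ_pow s)
      rw [show (s : ℤ) + 1 - s = 1 by ring] at h1
      rw [h1]
      have hmin : min (((s + 1 : ℕ) : ℤ)) ((q : ℤ) - 1) = (s : ℤ) + 1 := by
        rw [min_eq_left]
        · push_cast; ring
        · have : ((s + 1 : ℕ) : ℤ) < q := by exact_mod_cast h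
          omega
      constructor
      · intro h2
        exact ⟨hf.1, by rw [hmin]; exact h2, fun h' => by omega, fun h' => by omega⟩
      · intro h2
        have := h2.2.1
        rwa [hmin] at this
    · rw [D.G_of_eq h, (D.v 0).red_eq_zero_iff_ge (Fil.mem_v D hf 0)]
      constructor
      · intro h2
        refine ⟨hf.1, DV.Ge.of_le _ ?_ (Fil.ge' D (by omega) hf), fun _ => h2, fun h' => by omega⟩
        exact min_le_right _ _
      · intro h2
        exact h2.2.2.1 (by omega)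
    · have hsq : s = q := by omega
      rw [D.G_of_gt h, (D.v 2).red_eq_zero_iff_ge (Fil.mem_v D hf 2)]
      constructor
      · intro h2
        refine ⟨hf.1, DV.Ge.of_le _ ?_ (Fil.ge' D (by omega) hf), fun _ => hf.2.2.1 (by omega),
          fun _ => h2⟩
        exact min_le_right _ _
      · intro h2
        exact h2.2.2.2 (by omega)

end Data

end Fermat.Agent.TriComp
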