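import Fermat.Agent.TriComp.Steps

/-!
# Upper bounds for the graded pieces
-/

set_option autoImplicit false

open Module Polynomial
open scoped IntermediateField

namespace Fermat.Agent.TriComp

open Fermat.Agent.TwoComp Fermat.Agent.S36norm

variable {K F k E F' : Type*} [Field K] [Field F] [Algebra K F] [Field k] [CommRing E]
    [Algebra k E] [Field F'] [Algebra k F'] {q : ℕ}

namespace Data

variable (D : Data K F k E F' q)

/-- `φ` is `≡ 1` at the three valuations. -/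
structure Tw (n : ℕ) (φ : F) : Prop where
  n_ne_zero : n ≠ 0
  φ_ne_zero : φ ≠ 0
  ord : ∀ i, (D.v i).ord φ = 0
  red : ∀ i, (D.v i).red φ = 1

/-- sections of the `n`-th root of `φ` with poles of order at most `r` along `j = ∞`. -/
structure Adm (n : ℕ) (φ : F) (r : ℕ) (h : F) : Prop where
  fin : IsIntegral (Algebra.adjoin K {D.j}) (h ^ n / φ)
  inf : IsIntegral (Algebra.adjoin K {D.j⁻¹}) (h ^ n / φ * (D.j⁻¹) ^ (n * r))

lemma tw_one : D.Tw 1 1 :=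
  ⟨one_ne_zero, one_ne_zero, fun i => (D.v i).ord_one, fun i => (D.v i).red_one⟩

variable {D}

lemma mem_O_of_ord_zero {f : F} (hf : f ≠ 0) (h : ∀ i, (D.v i).ord f = 0) : f ∈ D.R.O :=
  (D.mem_O_iff f).2 fun i => (D.v i).mem_of_ord_eq_zero hf (h i)

lemma j_inv_mem (i : Fin 3) : D.j⁻¹ ∈ (D.v i).O :=
  (D.v i).inv_mem_of_ord_eq_zero D.j_ne_zero (D.ord_j i)

lemma j_inv_memO : D.j⁻¹ ∈ D.R.O := (D.mem_O_iff _).2 fun i => D.j_inv_mem i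

lemma red_j_inv (i : Fin 3) : (D.v i).red D.j⁻¹ = ((D.v i).red D.j)⁻¹ :=
  (D.v i).red_inv D.j_ne_zero (D.ord_j i)

variable (D) in
lemma u_ne : D.u₁ / D.u₂ ≠ 0 := div_ne_zero D.u₁_ne_zero D.u₂_ne_zero

lemma ord_u0 : (D.v 0).ord (D.u₁ / D.u₂) = 0 := by
  rw [(D.v 0).ord_div D.u₁_ne_zero D.u₂_ne_zero, D.ord_u₁, D.ord_u₂]; simp

lemma ord_u1 : (D.v 1).ord (D.u₁ / D.u₂) = - (12 * ((q : ℤ) - 1)) := by
  rw [(D.v 1).ord_div D.u₁_ne_zero D.u₂_ne_zero, D.ord_u₁, D.ord_u₂]; simp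

lemma ord_u2 : (D.v 2).ord (D.u₁ / D.u₂) = 0 := by
  rw [(D.v 2).ord_div D.u₁_ne_zero D.u₂_ne_zero, D.ord_u₁, D.ord_u₂]; simp

variable (D) in
lemma isIntegral_u : IsIntegral (Algebra.adjoin K {D.j}) (D.u₁ / D.u₂) := by
  rw [div_eq_mul_inv]; exact D.isIntegral_u₁.mul D.isIntegral_u₂_inv

section

variable {n : ℕ} {φ : F} (T : D.Tw n φ)

include T

lemma Tw.pow_div_mem {i : Fin 3} {h : F} (hh : h ∈ (D.v i).O) : h ^ n / φ ∈ (D.v i).O :=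
  (D.v i).div_mem (pow_mem hh n) T.φ_ne_zero (T.ord i)

lemma Tw.red_pow_div {i : Fin 3} {h : F} (hh : h ∈ (D.v i).O) :
    (D.v i).red (h ^ n / φ) = (D.v i).red h ^ n := by
  rw [(D.v i).red_div (pow_mem hh n) T.φ_ne_zero (T.ord i), T.red, div_one, (D.v i).red_pow hh]

end

/-- the element `δ^{12(q-1)} u₁/u₂` is a unit at `v 1`. -/
lemma ord_b : (D.v 1).ord (D.δ ^ (12 * (q - 1)) * (D.u₁ / D.u₂)) = 0 := by
  have hq := D.q_two_le
  rw [(D.v 1).ord_mul _ _ (D.δ_pow_ne _) D.u_ne, D.ord_δ_pow, ord_u1]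
  push_cast [Nat.cast_sub (by omega : 1 ≤ q)]
  ring

lemma b_ne : D.δ ^ (12 * (q - 1)) * (D.u₁ / D.u₂) ≠ 0 := mul_ne_zero (D.δ_pow_ne _) D.u_ne

lemma b_mem : D.δ ^ (12 * (q - 1)) * (D.u₁ / D.u₂) ∈ (D.v 1).O :=
  (D.v 1).mem_of_ord_eq_zero b_ne ord_b

lemma y_eq (n s : ℕ) (φ h : F) :
    (h ^ n / φ) ^ (12 * (q - 1)) * (D.u₁ / D.u₂) ^ (s * n) =
      ((h / D.δ ^ s) ^ n / φ) ^ (12 * (q - 1)) *
        (D.δ ^ (12 * (q - 1)) * (D.u₁ / D.u₂)) ^ (s * n) := by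
  have hδ := D.δ_pow_ne s
  have h1 : h ^ n / φ = (h / D.δ ^ s) ^ n / φ * D.δ ^ (s * n) := by
    rw [div_pow, ← pow_mul]
    have := D.δ_pow_ne (s * n)
    field_simp
  rw [h1, mul_pow, mul_pow, ← pow_mul, ← pow_mul]
  ring

/-- **Upper bound, multiplicity part.** -/
lemma upper_lt {n : ℕ} {φ : F} (T : D.Tw n φ) {r s : ℕ} (hs : s + 1 < q) {h : F}
    (hF : D.Fil s h) (ha : D.Adm n φ r h) :
    IsIntegral (Algebra.adjoin k {D.jt}) (D.G s h ^ 12 * aeval D.jt D.Q ^ (2 * s)) ∧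
      IsIntegral (Algebra.adjoin k {D.jt⁻¹})
        (D.G s h ^ 12 * (D.jt⁻¹) ^ (12 * r) * (aeval D.jt D.Q * D.jt⁻¹) ^ (2 * s)) := by
  have hq := D.q_two_le
  have hn := T.n_ne_zero
  have hpos : 0 < n * (q - 1) := Nat.mul_pos (Nat.pos_of_ne_zero hn) (by omega)
  have hF1 := Fil.div_mem D hs.le hF
  have hu0 : D.u₁ / D.u₂ ∈ (D.v 0).O := (D.v 0).mem_of_ord_eq_zero D.u_ne ord_u0
  have hu2 : D.u₁ / D.u₂ ∈ (D.v 2).O := (D.v 2).mem_of_ord_eq_zero D.u_ne ord_u2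
  set z := (D.v 1).red (h / D.δ ^ s) with hz
  rw [D.G_of_lt hs, ← hz]
  have hymem : (h ^ n / φ) ^ (12 * (q - 1)) * (D.u₁ / D.u₂) ^ (s * n) ∈ D.R.O := by
    rw [D.mem_O_iff]
    intro i
    fin_cases i
    · exact mul_mem (pow_mem (T.pow_div_mem (Fil.mem_v D hF 0)) _) (pow_mem hu0 _)
    · change (h ^ n / φ) ^ (12 * (q - 1)) * (D.u₁ / D.u₂) ^ (s * n) ∈ (D.v 1).O
      rw [y_eq]
      exact mul_mem (pow_mem (T.pow_div_mem hF1) _) (pow_mem D.b_mem _)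
    · exact mul_mem (pow_mem (T.pow_div_mem (Fil.mem_v D hF 2)) _) (pow_mem hu2 _)
  have hyred : (D.v 1).red ((h ^ n / φ) ^ (12 * (q - 1)) * (D.u₁ / D.u₂) ^ (s * n)) =
      (z ^ 12 * aeval D.jt D.Q ^ (2 * s)) ^ (n * (q - 1)) := by
    rw [y_eq, (D.v 1).red_mul (pow_mem (T.pow_div_mem hF1) _) (pow_mem b_mem _),
      (D.v 1).red_pow (T.pow_div_mem hF1), T.red_pow_div hF1, (D.v 1).red_pow b_mem, D.red_δ, ← hz]
    rw [mul_pow, ← pow_mul, ← pow_mul, ← pow_mul, ← pow_mul]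
    congr 2 <;> ring
  constructor
  · have h1 := D.isIntegral_red _ hymem ((ha.fin.pow _).mul (D.isIntegral_u.pow _)) 1
    rw [hyred, D.red_j1] at h1
    exact IsIntegral.of_pow hpos h1
  · have hy2 : (h ^ n / φ * (D.j⁻¹) ^ (n * r)) ^ (12 * (q - 1)) *
        (D.u₁ / D.u₂ * (D.j⁻¹) ^ (2 * (q - 1))) ^ (s * n) =
        ((h ^ n / φ) ^ (12 * (q - 1)) * (D.u₁ / D.u₂) ^ (s * n)) *
          (D.j⁻¹) ^ (n * r * (12 * (q - 1)) + 2 * (q - 1) * (s * n)) := by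
      rw [mul_pow, mul_pow, ← pow_mul, ← pow_mul, pow_add]; ring
    have hmem2 := D.R.O.mul_mem hymem
      (D.R.O.pow_mem D.j_inv_memO (n * r * (12 * (q - 1)) + 2 * (q - 1) * (s * n)))
    have h1 := D.isIntegral_red_inv _ hmem2
      (by rw [← hy2]; exact (ha.inf.pow _).mul (D.isIntegral_U_inv.pow _)) 1
    rw [(D.v 1).red_mul (D.mem_v hymem 1) (pow_mem (j_inv_mem 1) _), hyred,
      (D.v 1).red_pow (j_inv_mem 1), red_j_inv, D.red_j1] at h1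
    have h2 : (z ^ 12 * aeval D.jt D.Q ^ (2 * s)) ^ (n * (q - 1)) *
        (D.jt⁻¹) ^ (n * r * (12 * (q - 1)) + 2 * (q - 1) * (s * n)) =
        (z ^ 12 * (D.jt⁻¹) ^ (12 * r) * (aeval D.jt D.Q * D.jt⁻¹) ^ (2 * s)) ^ (n * (q - 1)) := by
      rw [pow_add]
      simp only [mul_pow, ← pow_mul]
      ring
    rw [h2] at h1
    exact IsIntegral.of_pow hpos h1

/-- **Upper bound, component 0.** -/
lemma upper_eq {n : ℕ} {φ : F} (T : D.Tw n φ) {r s : ℕ} (hs : s + 1 = q) {h : F}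
    (hF : D.Fil s h) (ha : D.Adm n φ r h) :
    IsIntegral (Algebra.adjoin k {D.jt}) (D.G s h ^ 12 * (aeval D.jt D.Pu)⁻¹ ^ (q - 1)) ∧
      IsIntegral (Algebra.adjoin k {D.jt⁻¹}) (D.G s h * (D.jt⁻¹) ^ r) := by
  have hq := D.q_two_le
  have hn := T.n_ne_zero
  have hF1 := Fil.ge' D (by omega) hF
  have hu0 : D.u₁ / D.u₂ ∈ (D.v 0).O := (D.v 0).mem_of_ord_eq_zero D.u_ne ord_u0
  have hu2 : D.u₁ / D.u₂ ∈ (D.v 2).O := (D.v 2).mem_of_ord_eq_zero D.u_ne ord_u2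
  have hF0 := Fil.mem_v D hF 0
  set z := (D.v 0).red h with hz
  rw [D.G_of_eq hs, ← hz]
  have hymem : (h ^ n / φ) ^ 12 * (D.u₁ / D.u₂) ^ n ∈ D.R.O := by
    rw [D.mem_O_iff]
    intro i
    fin_cases i
    · exact mul_mem (pow_mem (T.pow_div_mem hF0) _) (pow_mem hu0 _)
    · change (h ^ n / φ) ^ 12 * (D.u₁ / D.u₂) ^ n ∈ (D.v 1).O
      rw [← (D.v 1).ge_zero_iff]
      have h1 := DV.Ge.div (D.v 1) (DV.Ge.pow (D.v 1) hF1 n) T.φ_ne_zero (T.ord 1)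
      have h2 := DV.Ge.pow (D.v 1) h1 12
      have h3 : (D.v 1).Ge (- (12 * ((q : ℤ) - 1))) (D.u₁ / D.u₂) :=
        (ord_u1 (D := D)) ▸ (D.v 1).ge_ord
      have h4 := DV.Ge.mul (D.v 1) h2 (DV.Ge.pow (D.v 1) h3 n)
      refine DV.Ge.of_le _ (le_of_eq ?_) h4
      push_cast; ring
    · exact mul_mem (pow_mem (T.pow_div_mem (Fil.mem_v D hF 2)) _) (pow_mem hu2 _)
  have hU : (D.v 0).red (D.u₁ / D.u₂) = (aeval D.jt D.Pu)⁻¹ ^ (q - 1) := by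
    have h1 : D.u₁ / D.u₂ = (D.u₂ / D.u₁)⁻¹ := by rw [inv_div]
    have h2 : (D.v 0).ord (D.u₂ / D.u₁) = 0 := by
      rw [(D.v 0).ord_div D.u₂_ne_zero D.u₁_ne_zero, D.ord_u₁, D.ord_u₂]; simp
    rw [h1, (D.v 0).red_inv (div_ne_zero D.u₂_ne_zero D.u₁_ne_zero) h2, D.red_U, inv_pow]
  constructor
  · have h1 := D.isIntegral_red _ hymem ((ha.fin.pow _).mul (D.isIntegral_u.pow _)) 0
    rw [(D.v 0).red_mul (pow_mem (T.pow_div_mem hF0) _) (pow_mem hu0 _),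
      (D.v 0).red_pow (T.pow_div_mem hF0), T.red_pow_div hF0, (D.v 0).red_pow hu0, hU, D.red_j0,
      ← hz] at h1
    have h2 : (z ^ n) ^ 12 * ((aeval D.jt D.Pu)⁻¹ ^ (q - 1)) ^ n =
        (z ^ 12 * (aeval D.jt D.Pu)⁻¹ ^ (q - 1)) ^ n := by
      rw [mul_pow, ← pow_mul, ← pow_mul z 12 n, mul_comm n 12]
    rw [h2] at h1
    exact IsIntegral.of_pow (Nat.pos_of_ne_zero hn) h1
  · have hmem2 : h ^ n / φ * (D.j⁻¹) ^ (n * r) ∈ D.R.O := by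
      rw [D.mem_O_iff]
      intro i
      exact mul_mem (T.pow_div_mem (Fil.mem_v D hF i)) (pow_mem (j_inv_mem i) _)
    have h1 := D.isIntegral_red_inv _ hmem2 ha.inf 0
    rw [(D.v 0).red_mul (T.pow_div_mem hF0) (pow_mem (j_inv_mem 0) _), T.red_pow_div hF0,
      (D.v 0).red_pow (j_inv_mem 0), red_j_inv, D.red_j0, ← hz] at h1
    have h2 : z ^ n * (D.jt⁻¹) ^ (n * r) = (z * (D.jt⁻¹) ^ r) ^ n := by
      rw [mul_pow, ← pow_mul, mul_comm r n]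
    rw [h2] at h1
    exact IsIntegral.of_pow (Nat.pos_of_ne_zero hn) h1

/-- monotonicity of integrality in the base. -/
lemma isIntegral_of_le {L M : Type*} [Field L] [Field M] [Algebra L M] {S S' : Subalgebra L M}
    (h : S ≤ S') {z : M} (hz : IsIntegral S z) : IsIntegral S' z := by
  let _ : Algebra S S' := (Subalgebra.inclusion h).toAlgebra
  have : IsScalarTower S S' M := IsScalarTower.of_algebraMap_eq fun _ => rfl
  exact hz.tower_top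

lemma adjoin_pow_le {L M : Type*} [Field L] [Field M] [Algebra L M] (x : M) (m : ℕ) :
    Algebra.adjoin L {x ^ m} ≤ Algebra.adjoin L {x} := by
  rw [Algebra.adjoin_le_iff, Set.singleton_subset_iff]
  exact Subalgebra.pow_mem _ (Algebra.self_mem_adjoin_singleton L x) m

/-- **Upper bound, component 2.** -/
lemma upper_gt {n : ℕ} {φ : F} (T : D.Tw n φ) {r s : ℕ} (hs : s = q) {h : F}
    (hF : D.Fil s h) (ha : D.Adm n φ r h) :
    IsIntegral (Algebra.adjoin k {D.jt}) (D.G s h ^ 12 * (aeval D.jt D.Pu)⁻¹ ^ q) ∧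
      IsIntegral (Algebra.adjoin k {D.jt⁻¹}) (D.G s h * (D.jt⁻¹) ^ (q ^ 2 * r)) := by
  have hq := D.q_two_le
  have hn := T.n_ne_zero
  have hqF := D.q_ne
  have hq12 : (q : F) ^ 12 ≠ 0 := pow_ne_zero _ hqF
  have hF1 := Fil.ge' D (by omega) hF
  have hF0 : (D.v 0).Ge 1 h := hF.2.2.1 (by omega)
  have hF2 := Fil.mem_v D hF 2
  set z := (D.v 2).red h with hz
  rw [D.G_of_gt (by omega), ← hz]
  have hune : D.u₁ / (q : F) ^ 12 ≠ 0 := div_ne_zero D.u₁_ne_zero hq12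
  have hu2ord : (D.v 2).ord (D.u₁ / (q : F) ^ 12) = 0 := by
    rw [(D.v 2).ord_div D.u₁_ne_zero hq12, (D.v 2).ord_pow hqF, D.ord_u₁, D.ord_q2]; simp
  have hu1ord : (D.v 1).ord (D.u₁ / (q : F) ^ 12) = -(12 * ((q : ℤ) - 1)) := by
    rw [(D.v 1).ord_div D.u₁_ne_zero hq12, (D.v 1).ord_pow hqF, D.ord_u₁, D.ord_q1]; simp
  have hu0ord : (D.v 0).ord (D.u₁ / (q : F) ^ 12) = -12 := by
    rw [(D.v 0).ord_div D.u₁_ne_zero hq12, (D.v 0).ord_pow hqF, D.ord_u₁, D.ord_q0]; simp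
  have hu2 : D.u₁ / (q : F) ^ 12 ∈ (D.v 2).O := (D.v 2).mem_of_ord_eq_zero hune hu2ord
  have hymem : (h ^ n / φ) ^ 12 * (D.u₁ / (q : F) ^ 12) ^ n ∈ D.R.O := by
    rw [D.mem_O_iff]
    intro i
    fin_cases i
    · change (h ^ n / φ) ^ 12 * (D.u₁ / (q : F) ^ 12) ^ n ∈ (D.v 0).O
      rw [← (D.v 0).ge_zero_iff]
      have h1 := DV.Ge.div (D.v 0) (DV.Ge.pow (D.v 0) hF0 n) T.φ_ne_zero (T.ord 0)
      have h2 := DV.Ge.pow (D.v 0) h1 12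
      have h3 : (D.v 0).Ge (-12) (D.u₁ / (q : F) ^ 12) := hu0ord ▸ (D.v 0).ge_ord
      have h4 := DV.Ge.mul (D.v 0) h2 (DV.Ge.pow (D.v 0) h3 n)
      refine DV.Ge.of_le _ (le_of_eq ?_) h4
      push_cast; ring
    · change (h ^ n / φ) ^ 12 * (D.u₁ / (q : F) ^ 12) ^ n ∈ (D.v 1).O
      rw [← (D.v 1).ge_zero_iff]
      have h1 := DV.Ge.div (D.v 1) (DV.Ge.pow (D.v 1) hF1 n) T.φ_ne_zero (T.ord 1)
      have h2 := DV.Ge.pow (D.v 1) h1 12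
      have h3 : (D.v 1).Ge (- (12 * ((q : ℤ) - 1))) (D.u₁ / (q : F) ^ 12) :=
        hu1ord ▸ (D.v 1).ge_ord
      have h4 := DV.Ge.mul (D.v 1) h2 (DV.Ge.pow (D.v 1) h3 n)
      refine DV.Ge.of_le _ (le_of_eq ?_) h4
      push_cast; ring
    · exact mul_mem (pow_mem (T.pow_div_mem hF2) _) (pow_mem hu2 _)
  have hU : (D.v 2).red (D.u₁ / (q : F) ^ 12) = (aeval D.jt D.Pu)⁻¹ ^ q := by
    have h1 : D.u₁ / (q : F) ^ 12 = ((q : F) ^ 12 / D.u₁)⁻¹ := by rw [inv_div]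
    have h2 : (D.v 2).ord ((q : F) ^ 12 / D.u₁) = 0 := by
      rw [(D.v 2).ord_div hq12 D.u₁_ne_zero, (D.v 2).ord_pow hqF, D.ord_u₁, D.ord_q2]; simp
    rw [h1, (D.v 2).red_inv (div_ne_zero hq12 D.u₁_ne_zero) h2, D.red_q_div_u₁, inv_pow]
  have hcint : IsIntegral (Algebra.adjoin K {D.j}) (D.u₁ / (q : F) ^ 12) := by
    rw [div_eq_mul_inv]
    refine D.isIntegral_u₁.mul ?_
    have h1 : ((q : F) ^ 12)⁻¹ = algebraMap K F (((q : K) ^ 12)⁻¹) := by simp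
    rw [h1]
    exact isIntegral_algebraMap (R := Algebra.adjoin K {D.j}) (A := F)
      (x := algebraMap K (Algebra.adjoin K {D.j}) (((q : K) ^ 12)⁻¹))
  constructor
  · have h1 := D.isIntegral_red _ hymem ((ha.fin.pow _).mul (hcint.pow _)) 2
    rw [(D.v 2).red_mul (pow_mem (T.pow_div_mem hF2) _) (pow_mem hu2 _),
      (D.v 2).red_pow (T.pow_div_mem hF2), T.red_pow_div hF2, (D.v 2).red_pow hu2, hU, D.red_j2,
      ← hz] at h1
    have h2 : (z ^ n) ^ 12 * ((aeval D.jt D.Pu)⁻¹ ^ q) ^ n =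
        (z ^ 12 * (aeval D.jt D.Pu)⁻¹ ^ q) ^ n := by
      rw [mul_pow, ← pow_mul, ← pow_mul z 12 n, mul_comm n 12]
    rw [h2] at h1
    exact isIntegral_of_le (adjoin_pow_le _ _) (IsIntegral.of_pow (Nat.pos_of_ne_zero hn) h1)
  · have hmem2 : h ^ n / φ * (D.j⁻¹) ^ (n * r) ∈ D.R.O := by
      rw [D.mem_O_iff]
      intro i
      exact mul_mem (T.pow_div_mem (Fil.mem_v D hF i)) (pow_mem (j_inv_mem i) _)
    have h1 := D.isIntegral_red_inv _ hmem2 ha.inf 2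
    rw [(D.v 2).red_mul (T.pow_div_mem hF2) (pow_mem (j_inv_mem 2) _), T.red_pow_div hF2,
      (D.v 2).red_pow (j_inv_mem 2), red_j_inv, D.red_j2, ← hz, ← inv_pow] at h1
    have h2 : z ^ n * ((D.jt⁻¹) ^ (q ^ 2)) ^ (n * r) = (z * (D.jt⁻¹) ^ (q ^ 2 * r)) ^ n := by
      rw [mul_pow, ← pow_mul, ← pow_mul]; congr 2; ring
    rw [h2] at h1
    exact isIntegral_of_le (adjoin_pow_le _ _) (IsIntegral.of_pow (Nat.pos_of_ne_zero hn) h1)

end Data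

end Fermat.Agent.TriComp
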